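/-
S48lib / X1 / HeckeJ / PLevel (helper6).
Layer B of block P4, group theory.  `PLevel Γ p`: a subgroup `Γ ≤ SL(2,ℤ)` "of level prime to
`p`": `T ∈ Γ`, `Γ` acts transitively on `P¹(𝔽_p)`, and `diag(p,1) γ diag(p,1)⁻¹ ∈ Γ` whenever it is
integral.  From it: the subgroup `Γ ⊓ Γ₀(p)`, representatives `g_x ∈ Γ` of `(Γ ⊓ Γ₀(p)) \ Γ`
(`x ∈ P¹(𝔽_p)`), the transversal of the inclusion `α`, and the **Hecke transversal**
`A_x = diag(p,1) g_x` of the double coset `Γ diag(p,1) Γ` with its `Γ`-valued cocycle.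
Instances: `Γ₀(N)` and `±Γ₁(M)`, `p ∤ N, M`.
-/
import Mathlib
import Fermat.Agent.S29lib.H.AlphaNorm
import Fermat.Agent.S29lib.H.KumTransfer

set_option autoImplicit false
set_option linter.unusedSectionVars false
set_option linter.style.haveILetI false

noncomputable section

namespace Fermat.Agent.S48lib.X1.HeckeJ

open UpperHalfPlane Matrix.SpecialLinearGroup Fermat.Agent.ProgramR CongruenceSubgroup ModularForm
open Fermat.Agent.S29lib.H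
open P2MW.S_ModularForm_heckeT_slash_eq_self_of_mem_Gamma0.ModularForm.HeckeSlashInvariance
open scoped MatrixGroups

/-! ### the right action of `SL(2,ℤ)` on `P¹(𝔽_p)` -/

section PermS

variable (p : ℕ) [Fact p.Prime]

/-- the permutation of `P¹(𝔽_p)` induced by `g ∈ SL(2,ℤ)` (right action `x ↦ x · g`) -/
def permS (g : SL(2, ℤ)) : Equiv.Perm (OnePoint (ZMod p)) := MulAction.toPerm (redMatrix p g)

variable {p}

theorem permS_mul (g g' : SL(2, ℤ)) (x : OnePoint (ZMod p)) :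
    permS p (g * g') x = permS p g' (permS p g x) := by
  simp only [permS, MulAction.toPerm_apply, redMatrix_mul, mul_smul]

theorem permS_one (x : OnePoint (ZMod p)) : permS p 1 x = x := by
  simp only [permS, MulAction.toPerm_apply, redMatrix_one, one_smul]

theorem permS_inv_apply (g : SL(2, ℤ)) (x : OnePoint (ZMod p)) :
    permS p g⁻¹ (permS p g x) = x := by
  rw [← permS_mul, mul_inv_cancel, permS_one]

theorem permS_apply_inv (g : SL(2, ℤ)) (x : OnePoint (ZMod p)) :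
    permS p g (permS p g⁻¹ x) = x := by
  rw [← permS_mul, inv_mul_cancel, permS_one]

theorem permS_infty_eq_infty_iff (g : SL(2, ℤ)) :
    permS p g OnePoint.infty = OnePoint.infty ↔ ((g 1 0 : ℤ) : ZMod p) = 0 := by
  simp only [permS, MulAction.toPerm_apply]
  rw [OnePoint.smul_infty_eq_self_iff, redMatrix_apply_one_zero]

theorem permS_infty_of_ne (g : SL(2, ℤ)) (h : ((g 1 0 : ℤ) : ZMod p) ≠ 0) :
    permS p g OnePoint.infty =
      ((((g 1 1 : ℤ) : ZMod p) / ((g 1 0 : ℤ) : ZMod p) : ZMod p) : OnePoint (ZMod p)) := by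
  simp only [permS, MulAction.toPerm_apply]
  rw [OnePoint.smul_infty_eq_ite, redMatrix_apply_one_zero, if_neg h, redMatrix_apply_zero_zero]

theorem permS_infty_eq_infty_iff_mem (g : SL(2, ℤ)) :
    permS p g OnePoint.infty = OnePoint.infty ↔ g ∈ Gamma0 p := by
  rw [permS_infty_eq_infty_iff, Gamma0_mem]

end PermS

/-! ### groups of level prime to `p` -/

/-- `Γ` is "of level prime to `p`" -/
structure PLevel (Γ : Subgroup SL(2, ℤ)) (p : ℕ) [Fact p.Prime] : Prop where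
  T_mem : ModularGroup.T ^ ((1 : ℕ) : ℤ) ∈ Γ
  trans : ∀ x : OnePoint (ZMod p), ∃ g ∈ Γ, permS p g OnePoint.infty = x
  conj_mem : ∀ γ ∈ Γ, ∀ g' : SL(2, ℤ),
    heckeDiagMatrix p * (mapGL ℝ γ : GL (Fin 2) ℝ) = (mapGL ℝ g' : GL (Fin 2) ℝ) * heckeDiagMatrix p →
      g' ∈ Γ

namespace PLevel

variable {Γ : Subgroup SL(2, ℤ)} {p : ℕ} [Fact p.Prime] (h : PLevel Γ p)

include h

theorem T_mem' : ModularGroup.T ^ ((1 : ℕ) : ℤ) ∈ Γ ⊓ Gamma0 p :=
  ⟨h.T_mem, T_pow_one_mem_Gamma0' p⟩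
where
  T_pow_one_mem_Gamma0' (p : ℕ) : ModularGroup.T ^ ((1 : ℕ) : ℤ) ∈ Gamma0 p := by
    rw [Nat.cast_one, zpow_one, Gamma0_mem]
    simp [ModularGroup.T]

/-- representatives `g_x ∈ Γ` with `∞ · g_x = x` -/
def rep (x : OnePoint (ZMod p)) : Γ := ⟨(h.trans x).choose, (h.trans x).choose_spec.1⟩

theorem permS_rep (x : OnePoint (ZMod p)) :
    permS p ((h.rep x : Γ) : SL(2, ℤ)) OnePoint.infty = x := (h.trans x).choose_spec.2

/-- the cocycle of the transversal of `α` -/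
def alphaCoc (γ : Γ) (x : OnePoint (ZMod p)) : Γ :=
  h.rep x * γ * (h.rep (permS p (γ : SL(2, ℤ)) x))⁻¹

theorem alphaCoc_mem (γ : Γ) (x : OnePoint (ZMod p)) :
    ((h.alphaCoc γ x : Γ) : SL(2, ℤ)) ∈ Γ ⊓ Gamma0 p := by
  refine ⟨(h.alphaCoc γ x).2, ?_⟩
  show ((h.alphaCoc γ x : Γ) : SL(2, ℤ)) ∈ Gamma0 p
  rw [← permS_infty_eq_infty_iff_mem]
  simp only [alphaCoc, Subgroup.coe_mul, Subgroup.coe_inv]
  rw [permS_mul, permS_mul, h.permS_rep]
  have := permS_inv_apply ((h.rep (permS p (γ : SL(2, ℤ)) x) : Γ) : SL(2, ℤ))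
    (OnePoint.infty : OnePoint (ZMod p))
  rw [h.permS_rep] at this
  exact this

/-- the transversal `g_x`, `x ∈ P¹(𝔽_p)`, of `Γ ⊓ Γ₀(p) ≤ Γ` -/
def alphaTransversal : Transversal Γ (Γ ⊓ Gamma0 p) (OnePoint (ZMod p)) where
  A x := (mapGL ℝ ((h.rep x : Γ) : SL(2, ℤ)) : GL (Fin 2) ℝ)
  isInt x := isIntMat_mapGL _
  σ γ := permS p (γ : SL(2, ℤ))
  c γ x := ⟨h.alphaCoc γ x, h.alphaCoc_mem γ x⟩
  rel γ x := by
    rw [← map_mul, ← map_mul]
    congr 1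
    simp only [alphaCoc, Subgroup.coe_mul, Subgroup.coe_inv, inv_mul_cancel_right]

/-- conjugation by `diag(p,1)` maps `Γ ⊓ Γ₀(p)` into `Γ` -/
theorem exists_conj (c : SL(2, ℤ)) (hc : c ∈ Γ ⊓ Gamma0 p) :
    ∃ g' ∈ Γ, heckeDiagMatrix p * (mapGL ℝ c : GL (Fin 2) ℝ) =
      (mapGL ℝ g' : GL (Fin 2) ℝ) * heckeDiagMatrix p := by
  have hp0 : p ≠ 0 := (Fact.out : p.Prime).ne_zero
  have hdvd : (p : ℤ) ∣ c 1 0 := (ZMod.intCast_zmod_eq_zero_iff_dvd _ _).mp (Gamma0_mem.mp hc.2)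
  obtain ⟨k, hk⟩ := hdvd
  obtain ⟨g', -, hmul⟩ := heckeDiagMatrix_mul_of_eq' hp0 c k hk
  exact ⟨g', h.conj_mem c hc.1 g' hmul, hmul⟩

/-- `diag(p,1) c diag(p,1)⁻¹` for `c ∈ Γ ⊓ Γ₀(p)` -/
def conjP (c : (Γ ⊓ Gamma0 p : Subgroup SL(2, ℤ))) : Γ :=
  ⟨(h.exists_conj c c.2).choose, (h.exists_conj c c.2).choose_spec.1⟩

theorem conjP_spec (c : (Γ ⊓ Gamma0 p : Subgroup SL(2, ℤ))) :
    heckeDiagMatrix p * (mapGL ℝ (c : SL(2, ℤ)) : GL (Fin 2) ℝ) =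
      (mapGL ℝ ((h.conjP c : Γ) : SL(2, ℤ)) : GL (Fin 2) ℝ) * heckeDiagMatrix p :=
  (h.exists_conj c c.2).choose_spec.2

theorem isIntMat_mul {A B : GL (Fin 2) ℝ} (hA : IsIntMat A) (hB : IsIntMat B) :
    IsIntMat (A * B) := by
  obtain ⟨M, hAM, hM⟩ := hA
  obtain ⟨M', hBM, hM'⟩ := hB
  refine ⟨M * M', ?_, ?_⟩
  · rw [Matrix.GeneralLinearGroup.coe_mul, hAM, hBM, Matrix.map_mul_intCast]
  · rw [Matrix.det_mul]
    exact mul_pos hM hM'

/-- **the Hecke transversal** `A_x = diag(p,1) g_x` of the double coset `Γ diag(p,1) Γ` -/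
def stdTransversal : Transversal Γ Γ (OnePoint (ZMod p)) where
  A x := heckeDiagMatrix p * (mapGL ℝ ((h.rep x : Γ) : SL(2, ℤ)) : GL (Fin 2) ℝ)
  isInt x :=
    haveI : NeZero p := ⟨(Fact.out : p.Prime).ne_zero⟩
    h.isIntMat_mul (isIntMat_heckeDiagMatrix p) (isIntMat_mapGL _)
  σ γ := permS p (γ : SL(2, ℤ))
  c γ x := h.conjP ⟨h.alphaCoc γ x, h.alphaCoc_mem γ x⟩
  rel γ x := by
    have h1 := h.alphaTransversal.rel γ x
    have h2 := h.conjP_spec ⟨h.alphaCoc γ x, h.alphaCoc_mem γ x⟩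
    calc heckeDiagMatrix p * (mapGL ℝ ((h.rep x : Γ) : SL(2, ℤ)) : GL (Fin 2) ℝ) *
          (mapGL ℝ (γ : SL(2, ℤ)) : GL (Fin 2) ℝ)
        = heckeDiagMatrix p * (h.alphaTransversal.A x *
            (mapGL ℝ (γ : SL(2, ℤ)) : GL (Fin 2) ℝ)) := by rw [mul_assoc]; rfl
      _ = heckeDiagMatrix p * (mapGL ℝ ((h.alphaCoc γ x : Γ) : SL(2, ℤ)) : GL (Fin 2) ℝ) *
            (mapGL ℝ ((h.rep (permS p (γ : SL(2, ℤ)) x) : Γ) : SL(2, ℤ)) : GL (Fin 2) ℝ) := by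
          rw [h1, ← mul_assoc]; rfl
      _ = _ := by rw [h2, mul_assoc]

end PLevel

end Fermat.Agent.S48lib.X1.HeckeJ
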