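/-
S48lib / X1 / HeckeJ / DegenAn (helper6).
Layer B of block P4, analytic degeneracy maps.  For `Γ` of level prime to `p` (`PLevel Γ p`) and
`Γ' = Γ ⊓ Γ₀(p)`: the two maps `Frac (WH0 Γ) → Frac (WH0 Γ')`,
`alphaAn` (inclusion) and `betaAn` (`f ↦ f(p z)`), their values in `Mer` and their `q`-expansions.
Generic version of `S29lib/H/Degeneracy` (which is the case `Γ = Γ₀(N)`).
-/
import Mathlib
import Fermat.Agent.S48lib.X1.HeckeJ.PLevel
import Fermat.Agent.S48lib.X1.HeckeJ.QExpGen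
import Fermat.Agent.S29lib.H.Degeneracy

set_option autoImplicit false
set_option linter.unusedSectionVars false
set_option linter.style.haveILetI false

noncomputable section

namespace Fermat.Agent.S48lib.X1.HeckeJ

open UpperHalfPlane Matrix.SpecialLinearGroup Fermat.Agent.ProgramR CongruenceSubgroup ModularForm
open ModularCurve Fermat.Agent.ProgramR.QExp
open Fermat.Agent.S29lib.H
open P2MW.S_ModularForm_heckeT_slash_eq_self_of_mem_Gamma0.ModularForm.HeckeSlashInvariance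
open scoped MatrixGroups

variable {Γ : Subgroup SL(2, ℤ)} {p : ℕ} [Fact p.Prime] (h : PLevel Γ p)

/-- the level `p` subgroup -/
abbrev lvlP (Γ : Subgroup SL(2, ℤ)) (p : ℕ) : Subgroup SL(2, ℤ) := Γ ⊓ Gamma0 p

theorem lvlP_le (Γ : Subgroup SL(2, ℤ)) (p : ℕ) : lvlP Γ p ≤ Γ := inf_le_left

/-! ### `α` -/

/-- `WH0 Γ ⊆ WH0 (Γ ⊓ Γ₀(p))` -/
def alpha₀G (Γ : Subgroup SL(2, ℤ)) (p : ℕ) : WH0 Γ →+* WH0 (lvlP Γ p) := inclWH0 (lvlP_le Γ p)

@[simp] theorem alpha₀G_apply (a : WH0 Γ) (z : ℍ) : (alpha₀G Γ p a).1 z = a.1 z := rfl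

/-- the analytic `α` -/
def alphaAnG (Γ : Subgroup SL(2, ℤ)) (p : ℕ) : WH0.FunField Γ →+* WH0.FunField (lvlP Γ p) :=
  funFieldMap (alpha₀G Γ p) (inclWH0_injective (lvlP_le Γ p))

theorem alphaAnG_algebraMap (a : WH0 Γ) :
    alphaAnG Γ p (algebraMap _ _ a) = algebraMap _ _ (alpha₀G Γ p a) :=
  funFieldMap_algebraMap _ _ a

theorem toMer_alphaAnG (k : WH0.FunField Γ) :
    toMer (lvlP Γ p) (alphaAnG Γ p k) = toMer Γ k := by
  have : (toMer (lvlP Γ p)).comp (alphaAnG Γ p) = toMer Γ := by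
    apply funField_ringHom_ext
    intro a
    rw [RingHom.comp_apply, alphaAnG_algebraMap, toMer_algebraMap, toMer_algebraMap]
    rfl
  exact congrArg (fun φ : WH0.FunField Γ →+* Mer => φ k) this

theorem alphaAnG_const (c : ℂ) :
    alphaAnG Γ p (algebraMap ℂ _ c) = algebraMap ℂ _ c := by
  rw [IsScalarTower.algebraMap_apply ℂ (WH0 Γ) (WH0.FunField Γ), alphaAnG_algebraMap,
    IsScalarTower.algebraMap_apply ℂ (WH0 (lvlP Γ p)) (WH0.FunField (lvlP Γ p))]
  rfl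

include h in
theorem qExpFFW_alphaAnG (k : WH0.FunField Γ) :
    qExpFFW (lvlP Γ p) 1 h.T_mem' (alphaAnG Γ p k) = qExpFFW Γ 1 h.T_mem k := by
  have : (qExpFFW (lvlP Γ p) 1 h.T_mem').comp (alphaAnG Γ p) = qExpFFW Γ 1 h.T_mem := by
    apply funField_ringHom_ext
    intro a
    rw [RingHom.comp_apply, alphaAnG_algebraMap, qExpFFW_algebraMap, qExpFFW_algebraMap]
    rfl
  exact congrArg (fun φ : WH0.FunField Γ →+* LaurentSeries ℂ => φ k) this

/-! ### `β` -/

include h in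
theorem isWH0_scaleG (a : WH0 Γ) :
    IsWH0 (lvlP Γ p) (fun z => a.1 (heckeDiagMatrix p • z)) := by
  haveI : NeZero p := ⟨(Fact.out : p.Prime).ne_zero⟩
  have h1 := (glTranslate (heckeDiagMatrix p) (isIntMat_heckeDiagMatrix p) (WH0.incl Γ a)).2
  refine ⟨h1.mdiff, ?_, h1.exists_bdd⟩
  intro γ hγ z
  obtain ⟨g', hg', hmul⟩ := h.exists_conj γ hγ
  have h2 : heckeDiagMatrix p • (γ • z) = g' • (heckeDiagMatrix p • z) := by
    show heckeDiagMatrix p • ((mapGL ℝ γ : GL (Fin 2) ℝ) • z) =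
      (mapGL ℝ g' : GL (Fin 2) ℝ) • (heckeDiagMatrix p • z)
    rw [← mul_smul, ← mul_smul, hmul]
  rw [h2]
  exact a.2.smul_eq g' hg' _

/-- `f ↦ f(p z)`, `WH0 Γ → WH0 (Γ ⊓ Γ₀(p))` -/
def beta₀G : WH0 Γ →+* WH0 (lvlP Γ p) where
  toFun a := ⟨fun z => a.1 (heckeDiagMatrix p • z), isWH0_scaleG h a⟩
  map_one' := rfl
  map_mul' _ _ := rfl
  map_zero' := rfl
  map_add' _ _ := rfl

@[simp] theorem beta₀G_apply (a : WH0 Γ) (z : ℍ) :
    (beta₀G h a).1 z = a.1 (heckeDiagMatrix p • z) := rfl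

theorem toHol_beta₀G (a : WH0 Γ) :
    haveI : NeZero p := ⟨(Fact.out : p.Prime).ne_zero⟩
    WH0.toHol (lvlP Γ p) (beta₀G h a) =
      Hol.comp (heckeDiagMatrix p) (isIntMat_heckeDiagMatrix p).det_pos (WH0.toHol Γ a) :=
  rfl

theorem beta₀G_injective : Function.Injective (beta₀G h) := by
  haveI : NeZero p := ⟨(Fact.out : p.Prime).ne_zero⟩
  intro a b hab
  apply WH0.toHol_injective Γ
  apply Hol.comp_injective (heckeDiagMatrix p) (isIntMat_heckeDiagMatrix p).det_pos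
  rw [← toHol_beta₀G h, ← toHol_beta₀G h, hab]

/-- the analytic `β` -/
def betaAnG : WH0.FunField Γ →+* WH0.FunField (lvlP Γ p) :=
  funFieldMap (beta₀G h) (beta₀G_injective h)

theorem betaAnG_algebraMap (a : WH0 Γ) :
    betaAnG h (algebraMap _ _ a) = algebraMap _ _ (beta₀G h a) :=
  funFieldMap_algebraMap _ _ a

theorem toMer_betaAnG (k : WH0.FunField Γ) :
    haveI : NeZero p := ⟨(Fact.out : p.Prime).ne_zero⟩
    toMer (lvlP Γ p) (betaAnG h k) =
      merComp (heckeDiagMatrix p) (isIntMat_heckeDiagMatrix p).det_pos (toMer Γ k) := by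
  haveI : NeZero p := ⟨(Fact.out : p.Prime).ne_zero⟩
  have : (toMer (lvlP Γ p)).comp (betaAnG h) =
      (merComp (heckeDiagMatrix p) (isIntMat_heckeDiagMatrix p).det_pos).comp (toMer Γ) := by
    apply funField_ringHom_ext
    intro a
    rw [RingHom.comp_apply, RingHom.comp_apply, betaAnG_algebraMap, toMer_algebraMap,
      toMer_algebraMap, merComp_algebraMap, toHol_beta₀G]
  exact congrArg (fun φ : WH0.FunField Γ →+* Mer => φ k) this

theorem qExpFFW_betaAnG (k : WH0.FunField Γ) :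
    haveI : NeZero p := ⟨(Fact.out : p.Prime).ne_zero⟩
    qExpFFW (lvlP Γ p) 1 h.T_mem' (betaAnG h k) = qExpand ℂ p (qExpFFW Γ 1 h.T_mem k) := by
  haveI : NeZero p := ⟨(Fact.out : p.Prime).ne_zero⟩
  have : (qExpFFW (lvlP Γ p) 1 h.T_mem').comp (betaAnG h) =
      (qExpand ℂ p).comp (qExpFFW Γ 1 h.T_mem) := by
    apply funField_ringHom_ext
    intro a
    rw [RingHom.comp_apply, RingHom.comp_apply, betaAnG_algebraMap, qExpFFW_algebraMap,
      qExpFFW_algebraMap]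
    exact qExpW_of_scale h.T_mem h.T_mem' p a (beta₀G h a) (fun z => heckeDiagMatrix p • z)
      (fun τ => coe_heckeDiagMatrix_smul (NeZero.ne p) τ) (fun τ => rfl)
  exact congrArg (fun φ : WH0.FunField Γ →+* LaurentSeries ℂ => φ k) this

theorem betaAnG_const (c : ℂ) :
    betaAnG h (algebraMap ℂ _ c) = algebraMap ℂ _ c := by
  rw [IsScalarTower.algebraMap_apply ℂ (WH0 Γ) (WH0.FunField Γ), betaAnG_algebraMap,
    IsScalarTower.algebraMap_apply ℂ (WH0 (lvlP Γ p)) (WH0.FunField (lvlP Γ p))]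
  rfl

end Fermat.Agent.S48lib.X1.HeckeJ
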