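/-
S48lib / X1 / HeckeJ / FinGen (helper6).
Generic field theory for the level-raising step: a subfield `E` of an ambient field `𝕃 / K` which
is finite over `K(x)`, `x ∈ E`; transport of finiteness between the subtype formulation
(`FiniteDimensional K⟮x⟯ ↥E`, `x : ↥E`) and the ambient formulation (`E` as an intermediate field of
`𝕃 / K⟮(x : 𝕃)⟯`); finiteness of a compositum `E ⊔ β(E)` for a `K`-endomorphism `β` of `𝕃` with
`β x` algebraic over `K(x)`.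
-/
import Mathlib

set_option autoImplicit false
set_option linter.unusedSectionVars false
set_option linter.style.haveILetI false

noncomputable section

namespace Fermat.Agent.S48lib.X1.HeckeJ

open IntermediateField

variable {K 𝕃 : Type*} [Field K] [Field 𝕃] [Algebra K 𝕃]

section Juggle

variable (E : IntermediateField K 𝕃) (x : E)

theorem adjoin_coe_le : K⟮(x : 𝕃)⟯ ≤ E := by
  rw [adjoin_simple_le_iff]
  exact x.2

theorem map_val_adjoin : (K⟮x⟯).map E.val = K⟮(x : 𝕃)⟯ := by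
  rw [adjoin_map]
  simp

/-- `K(x)` inside `E` versus `K(x)` inside the ambient field -/
def adjoinEquiv : K⟮x⟯ ≃+* K⟮(x : 𝕃)⟯ :=
  ((equivMap K⟮x⟯ E.val).trans (equivOfEq (map_val_adjoin E x))).toRingEquiv

theorem coe_adjoinEquiv (a : K⟮x⟯) : ((adjoinEquiv E x a : K⟮(x : 𝕃)⟯) : 𝕃) = ((a : E) : 𝕃) := rfl

/-- `E` over `K(x)` in the ambient formulation -/
abbrev extE : IntermediateField K⟮(x : 𝕃)⟯ 𝕃 := extendScalars (adjoin_coe_le E x)

/-- the identity `↥E ≃ ↥(extE E x)` -/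
def extEquiv : E ≃+* extE E x where
  toFun y := ⟨y.1, (mem_extendScalars _).2 y.2⟩
  invFun y := ⟨y.1, (mem_extendScalars _).1 y.2⟩
  left_inv _ := rfl
  right_inv _ := rfl
  map_mul' _ _ := rfl
  map_add' _ _ := rfl

theorem finite_extE_of_finite [FiniteDimensional K⟮x⟯ E] :
    FiniteDimensional K⟮(x : 𝕃)⟯ (extE E x) :=
  Module.Finite.of_equiv_equiv (adjoinEquiv E x) (extEquiv E x) (by
    ext a
    rfl)

theorem finite_of_finite_extE [FiniteDimensional K⟮(x : 𝕃)⟯ (extE E x)] :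
    FiniteDimensional K⟮x⟯ E :=
  Module.Finite.of_equiv_equiv (adjoinEquiv E x).symm (extEquiv E x).symm (by
    ext a
    have h := coe_adjoinEquiv E x ((adjoinEquiv E x).symm a)
    rw [RingEquiv.apply_symm_apply] at h
    exact h.symm)

end Juggle

section Compositum

variable (E : IntermediateField K 𝕃) (x : E) (β : 𝕃 →ₐ[K] 𝕃)

/-- elements of `E` are integral over `K(x)` in the ambient formulation -/
theorem isIntegral_coe_of_finite [FiniteDimensional K⟮x⟯ E] (y : E) :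
    IsIntegral K⟮(x : 𝕃)⟯ (y : 𝕃) := by
  have h1 : IsIntegral K⟮x⟯ y := IsIntegral.of_finite _ y
  exact IsIntegral.map_of_comp_eq (adjoinEquiv E x : K⟮x⟯ →+* K⟮(x : 𝕃)⟯) (E.val : E →+* 𝕃)
    (by ext a; rfl) h1

/-- `β` maps `K(x)` into `K(x)(β x)` -/
theorem map_mem_adjoin_adjoin (a : K⟮(x : 𝕃)⟯) :
    β (a : 𝕃) ∈ (K⟮(x : 𝕃)⟯)⟮β (x : 𝕃)⟯ := by
  have h1 : β (a : 𝕃) ∈ (K⟮(x : 𝕃)⟯).map β := (mem_map _).2 ⟨a, a.2, rfl⟩
  rw [adjoin_map, Set.image_singleton] at h1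
  have h2 : K⟮β (x : 𝕃)⟯ ≤ restrictScalars K ((K⟮(x : 𝕃)⟯)⟮β (x : 𝕃)⟯) := by
    rw [adjoin_simple_le_iff, mem_restrictScalars]
    exact mem_adjoin_simple_self _ _
  exact (mem_restrictScalars K).1 (h2 h1)

/-- `β` restricted to `K(x)`, with values in `K(x)(β x)` -/
def betaRes : K⟮(x : 𝕃)⟯ →+* (K⟮(x : 𝕃)⟯)⟮β (x : 𝕃)⟯ :=
  ((β : 𝕃 →+* 𝕃).comp (algebraMap K⟮(x : 𝕃)⟯ 𝕃)).codRestrict _
    (fun a => map_mem_adjoin_adjoin E x β a)

theorem isIntegral_map_of_finite [FiniteDimensional K⟮x⟯ E]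
    (hβ : IsIntegral K⟮(x : 𝕃)⟯ (β (x : 𝕃))) (y : E) :
    IsIntegral K⟮(x : 𝕃)⟯ (β (y : 𝕃)) := by
  have h1 := isIntegral_coe_of_finite E x y
  have h2 : IsIntegral (K⟮(x : 𝕃)⟯)⟮β (x : 𝕃)⟯ (β (y : 𝕃)) :=
    IsIntegral.map_of_comp_eq (betaRes E x β) (β : 𝕃 →+* 𝕃) (by ext a; rfl) h1
  haveI : Algebra.IsIntegral K⟮(x : 𝕃)⟯ (K⟮(x : 𝕃)⟯)⟮β (x : 𝕃)⟯ :=
    (isAlgebraic_adjoin_simple hβ).isIntegral
  exact isIntegral_trans _ h2

/-- **finiteness of the compositum** `E ⊔ β(E)` over `K(x)`, ambient formulation -/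
theorem exists_finite_ge_sup_map [FiniteDimensional K⟮x⟯ E]
    (hβ : IsIntegral K⟮(x : 𝕃)⟯ (β (x : 𝕃))) :
    ∃ C : IntermediateField K⟮(x : 𝕃)⟯ 𝕃, FiniteDimensional K⟮(x : 𝕃)⟯ C ∧
      E ⊔ E.map β ≤ restrictScalars K C := by
  classical
  haveI := finite_extE_of_finite E x
  let b := Module.finBasis K⟮x⟯ E
  let S : Set 𝕃 := Set.range (fun i => β ((b i : E) : 𝕃)) ∪ {β (x : 𝕃)}
  haveI : Finite S := by
    apply Set.Finite.union (Set.finite_range _) (Set.finite_singleton _)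
  have hS : ∀ s ∈ S, IsIntegral K⟮(x : 𝕃)⟯ s := by
    rintro s (⟨i, rfl⟩ | hs)
    · exact isIntegral_map_of_finite E x β hβ (b i)
    · rw [Set.mem_singleton_iff.1 hs]
      exact hβ
  haveI : FiniteDimensional K⟮(x : 𝕃)⟯ (adjoin K⟮(x : 𝕃)⟯ S) := finiteDimensional_adjoin hS
  refine ⟨extE E x ⊔ adjoin K⟮(x : 𝕃)⟯ S, finiteDimensional_sup _ _, ?_⟩
  rw [← restrictScalars_sup, extendScalars_restrictScalars]
  refine sup_le_sup_left ?_ E
  -- `β(E) ≤ K(x)(S)`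
  intro z hz
  obtain ⟨y, hy, rfl⟩ := (mem_map _).1 hz
  rw [mem_restrictScalars]
  suffices h : ∀ w : E, β (w : 𝕃) ∈ adjoin K⟮(x : 𝕃)⟯ S from h ⟨y, hy⟩
  intro w
  have hrep := b.sum_repr w
  have h1 : (w : 𝕃) = ∑ i, (((b.repr w i : K⟮x⟯) : E) : 𝕃) * ((b i : E) : 𝕃) := by
    have h2 := congrArg (fun w : E => (w : 𝕃)) hrep
    simp only [AddSubmonoidClass.coe_finsetSum] at h2
    rw [← h2]
    refine Finset.sum_congr rfl fun i _ => ?_
    rw [Algebra.smul_def]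
    rfl
  rw [h1, map_sum]
  refine sum_mem fun i _ => ?_
  rw [map_mul]
  refine mul_mem ?_ (subset_adjoin _ _ (Or.inl ⟨i, rfl⟩))
  -- `β` of an element of `K(x)` lies in `K(β x) ≤ K(x)(S)`
  have h3 : β ((((b.repr w i : K⟮x⟯) : E) : 𝕃)) ∈ (K⟮(x : 𝕃)⟯)⟮β (x : 𝕃)⟯ :=
    map_mem_adjoin_adjoin E x β (adjoinEquiv E x (b.repr w i))
  have h4 : (K⟮(x : 𝕃)⟯)⟮β (x : 𝕃)⟯ ≤ adjoin K⟮(x : 𝕃)⟯ S := by
    rw [adjoin_simple_le_iff]
    exact subset_adjoin _ _ (Or.inr rfl)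
  exact h4 h3

/-- **finiteness of a subfield of the compositum**, subtype formulation -/
theorem finite_of_le_sup_map [FiniteDimensional K⟮x⟯ E]
    (hβ : IsIntegral K⟮(x : 𝕃)⟯ (β (x : 𝕃)))
    (E' : IntermediateField K 𝕃) (hE' : E' ≤ E ⊔ E.map β) (hx : (x : 𝕃) ∈ E') :
    FiniteDimensional K⟮(⟨(x : 𝕃), hx⟩ : E')⟯ E' := by
  obtain ⟨C, hC, hle⟩ := exists_finite_ge_sup_map E x β hβ
  haveI := hC
  have h1 : extE E' ⟨(x : 𝕃), hx⟩ ≤ C := by
    rw [extendScalars_le_iff]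
    exact hE'.trans hle
  haveI : FiniteDimensional K⟮(x : 𝕃)⟯ (extE E' ⟨(x : 𝕃), hx⟩) :=
    Module.Finite.of_injective (inclusion h1).toLinearMap (inclusion h1).injective
  exact finite_of_finite_extE E' ⟨(x : 𝕃), hx⟩

end Compositum

end Fermat.Agent.S48lib.X1.HeckeJ
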