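/-
S48lib / X1 / HeckeJ / LevelP (helper6).
Layer A of block P4, generic in the `q`-model: for an intermediate field `F₀ ≤ ℚ((q))`
(`F₀ = F₀(M)` for `X₁(M)`, `F₀ = modularFunctionFieldFull N` for `X₀(N)`) the model of
"level `Γ ∩ Γ₀(p)`" is `levelP F₀ p = F₀ ⊔ (q ↦ q^p)(F₀)`, with the two degeneracy maps
`alphaBar` (inclusion) and `betaBar` (`q ↦ q^p`) after base change to any field `L ⊇ ℚ`.
`IsQModel F₀`: `F₀` contains `j(q)` and `ℚ̄ F₀` is finite over `ℚ̄(j)`; it is inherited by `levelP F₀ p`.
-/
import Mathlib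
import Fermat.Prelude.Def_ModularCurve_HeckeOperator
import Fermat.Prelude.Thm_ModularCurve_coeffMap_qExpand
import Fermat.Agent.ProgramR.BarField.Degree
import Fermat.Agent.S48lib.X1.HeckeJ.FinGen

set_option autoImplicit false
set_option linter.unusedSectionVars false
set_option linter.style.haveILetI false

noncomputable section

namespace Fermat.Agent.S48lib.X1.HeckeJ

open ModularCurve AlgebraicCurve IntermediateField HahnSeries
open Fermat.Agent.ProgramR Fermat.Agent.ProgramR.BarField

/-! ### the level `p` model -/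

section Level

variable (F₀ : IntermediateField ℚ (LaurentSeries ℚ)) (p : ℕ) [NeZero p]

/-- the `q`-model of level `Γ ∩ Γ₀(p)`: generated by `F₀` and its image under `q ↦ q^p` -/
def levelP : IntermediateField ℚ (LaurentSeries ℚ) := F₀ ⊔ F₀.map (qExpandₐ p)

theorem le_levelP : F₀ ≤ levelP F₀ p := le_sup_left

theorem map_le_levelP : F₀.map (qExpandₐ p) ≤ levelP F₀ p := le_sup_right

theorem qExpand_mem_levelP {y : LaurentSeries ℚ} (hy : y ∈ F₀) : qExpand ℚ p y ∈ levelP F₀ p :=
  map_le_levelP F₀ p ((mem_map _).2 ⟨y, hy, rfl⟩)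

end Level

/-! ### base change -/

section BaseChange

variable (L : Type*) [Field L] [Algebra ℚ L]

theorem coeffEmb_qExpand (n : ℕ) [NeZero n] (x : LaurentSeries ℚ) :
    coeffEmb L (qExpand ℚ n x) = qExpand L n (coeffEmb L x) :=
  coeffMap_qExpand _ n x

theorem laurentBaseChange_mono {F₀ F₁ : IntermediateField ℚ (LaurentSeries ℚ)} (h : F₀ ≤ F₁) :
    laurentBaseChange L F₀ ≤ laurentBaseChange L F₁ := by
  rw [laurentBaseChange, IntermediateField.adjoin_le_iff]
  rintro _ ⟨y, hy, rfl⟩
  exact coeffEmb_mem_laurentBaseChange L (h hy)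

/-- `q ↦ q^n` as an `L`-algebra endomorphism of `L((q))` -/
def qExpandAlg (n : ℕ) [NeZero n] : LaurentSeries L →ₐ[L] LaurentSeries L :=
  { qExpand L n with
    commutes' := fun a => by
      show qExpand L n (algebraMap L (LaurentSeries L) a) = algebraMap L (LaurentSeries L) a
      rw [algebraMap_laurentSeries_eq_single, qExpand_single, mul_zero] }

@[simp] theorem qExpandAlg_apply (n : ℕ) [NeZero n] (x : LaurentSeries L) :
    qExpandAlg L n x = qExpand L n x := rfl

theorem qExpand_mem_laurentBaseChange {F₀ F₁ : IntermediateField ℚ (LaurentSeries ℚ)} (n : ℕ)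
    [NeZero n] (hF : ∀ y ∈ F₀, qExpand ℚ n y ∈ F₁) {x : LaurentSeries L}
    (hx : x ∈ laurentBaseChange L F₀) : qExpand L n x ∈ laurentBaseChange L F₁ := by
  have h1 : laurentBaseChange L F₀ ≤ (laurentBaseChange L F₁).comap (qExpandAlg L n) := by
    rw [laurentBaseChange, IntermediateField.adjoin_le_iff]
    rintro _ ⟨y, hy, rfl⟩
    show qExpand L n (coeffEmb L y) ∈ laurentBaseChange L F₁
    rw [← coeffEmb_qExpand]
    exact coeffEmb_mem_laurentBaseChange L (hF y hy)
  exact h1 hx

variable (F₀ : IntermediateField ℚ (LaurentSeries ℚ)) (p : ℕ) [NeZero p]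

/-- the preimage of an intermediate field of `L((q))` under `coeffEmb` -/
def comapCoeffEmb (T : IntermediateField L (LaurentSeries L)) :
    IntermediateField ℚ (LaurentSeries ℚ) where
  toSubsemiring := T.toSubsemiring.comap (coeffEmb L)
  algebraMap_mem' r := by
    show coeffEmb L (algebraMap ℚ (LaurentSeries ℚ) r) ∈ T
    rw [algebraMap_apply_eq_single, coeffEmb, coeffMap_single,
      ← algebraMap_laurentSeries_eq_single]
    exact T.algebraMap_mem _
  inv_mem' x hx := by
    show coeffEmb L x⁻¹ ∈ T
    rw [map_inv₀]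
    exact T.inv_mem hx

theorem mem_comapCoeffEmb {T : IntermediateField L (LaurentSeries L)} {x : LaurentSeries ℚ} :
    x ∈ comapCoeffEmb L T ↔ coeffEmb L x ∈ T := Iff.rfl

/-- base change is below every field containing the image of `coeffEmb` -/
theorem laurentBaseChange_le_iff {T : IntermediateField L (LaurentSeries L)} :
    laurentBaseChange L F₀ ≤ T ↔ F₀ ≤ comapCoeffEmb L T := by
  rw [laurentBaseChange, IntermediateField.adjoin_le_iff]
  constructor
  · intro h y hy
    exact h ⟨y, hy, rfl⟩
  · rintro h _ ⟨y, hy, rfl⟩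
    exact h hy

/-- the base change of the level `p` model is the compositum of the base change and its image
under `q ↦ q^p` -/
theorem laurentBaseChange_levelP_le :
    laurentBaseChange L (levelP F₀ p) ≤
      laurentBaseChange L F₀ ⊔ (laurentBaseChange L F₀).map (qExpandAlg L p) := by
  rw [laurentBaseChange_le_iff, levelP, sup_le_iff]
  constructor
  · intro y hy
    rw [mem_comapCoeffEmb]
    exact le_sup_left (a := laurentBaseChange L F₀) (coeffEmb_mem_laurentBaseChange L hy)
  · intro z hz
    obtain ⟨y, hy, rfl⟩ := (mem_map _).1 hz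
    rw [mem_comapCoeffEmb, qExpandₐ_apply, coeffEmb_qExpand]
    refine le_sup_right (a := laurentBaseChange L F₀) ((mem_map _).2 ⟨coeffEmb L y, ?_, rfl⟩)
    exact coeffEmb_mem_laurentBaseChange L hy

/-! ### the degeneracy maps -/

/-- `α`: the inclusion -/
def alphaBar : laurentBaseChange L F₀ →ₐ[L] laurentBaseChange L (levelP F₀ p) :=
  IntermediateField.inclusion (laurentBaseChange_mono L (le_levelP F₀ p))

@[simp] theorem coe_alphaBar (x : laurentBaseChange L F₀) :
    (alphaBar L F₀ p x : LaurentSeries L) = (x : LaurentSeries L) :=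
  IntermediateField.coe_inclusion _ x

/-- `β`: `q ↦ q^p`, as a ring hom -/
def betaBarRingHom : laurentBaseChange L F₀ →+* laurentBaseChange L (levelP F₀ p) where
  toFun x := ⟨qExpand L p (x : LaurentSeries L),
    qExpand_mem_laurentBaseChange L p (fun _ hy => qExpand_mem_levelP F₀ p hy) x.2⟩
  map_one' := Subtype.ext (map_one (qExpand L p))
  map_mul' _ _ := Subtype.ext (map_mul (qExpand L p) _ _)
  map_zero' := Subtype.ext (map_zero (qExpand L p))
  map_add' _ _ := Subtype.ext (map_add (qExpand L p) _ _)

/-- `β`: `q ↦ q^p` -/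
def betaBar : laurentBaseChange L F₀ →ₐ[L] laurentBaseChange L (levelP F₀ p) :=
  { betaBarRingHom L F₀ p with
    commutes' := fun a => Subtype.ext <| by
      show qExpand L p (algebraMap L (LaurentSeries L) a) = algebraMap L (LaurentSeries L) a
      rw [algebraMap_laurentSeries_eq_single, qExpand_single, mul_zero] }

@[simp] theorem coe_betaBar (x : laurentBaseChange L F₀) :
    (betaBar L F₀ p x : LaurentSeries L) = qExpand L p (x : LaurentSeries L) := rfl

end BaseChange

end Fermat.Agent.S48lib.X1.HeckeJ
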