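/-
S48lib / X1 / HeckeJ / ModelP (helper6).
Layer B of block P4: an analytic `q`-model `F₀` of `Γ` (`IsAnModel Γ hT F₀`, `PLevel Γ p`) induces
the analytic `q`-model `levelP F₀ p` of `Γ ⊓ Γ₀(p)`, and the comparison maps intertwine the formal
degeneracy maps `alphaBar`, `betaBar` with the analytic ones `alphaAnG`, `betaAnG`.
-/
import Mathlib
import Fermat.Agent.S48lib.X1.HeckeJ.DegenAn
import Fermat.Agent.S48lib.X1.HeckeJ.LevelP

set_option autoImplicit false
set_option linter.unusedSectionVars false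
set_option linter.style.haveILetI false

noncomputable section

namespace Fermat.Agent.S48lib.X1.HeckeJ

open UpperHalfPlane Matrix.SpecialLinearGroup Fermat.Agent.ProgramR CongruenceSubgroup ModularForm
open ModularCurve Fermat.Agent.ProgramR.QExp IntermediateField
open Fermat.Agent.S29lib.H
open scoped MatrixGroups

variable {Γ : Subgroup SL(2, ℤ)} {p : ℕ} [Fact p.Prime] (h : PLevel Γ p)
variable {F₀ : IntermediateField ℚ (LaurentSeries ℚ)}

instance neZero_of_fact_prime : NeZero p := ⟨(Fact.out : p.Prime).ne_zero⟩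

/-- the level `p` model is an analytic `q`-model of `Γ ⊓ Γ₀(p)` -/
theorem IsAnModel.levelP (hM : IsAnModel Γ h.T_mem F₀) :
    IsAnModel (lvlP Γ p) h.T_mem' (levelP F₀ p) := by
  let T : Subfield (LaurentSeries ℚ) :=
    (qExpFFW (lvlP Γ p) 1 h.T_mem').fieldRange.comap (coeffMap (algebraMap ℚ ℂ))
  intro y hy
  suffices hle : (HeckeJ.levelP F₀ p).toSubfield ≤ T from hle hy
  have h1 : HeckeJ.levelP F₀ p =
      IntermediateField.adjoin ℚ ((F₀ : Set (LaurentSeries ℚ)) ∪ (F₀.map (qExpandₐ p) : Set _)) := by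
    rw [HeckeJ.levelP, IntermediateField.adjoin_union, IntermediateField.adjoin_self,
      IntermediateField.adjoin_self]
  rw [h1, IntermediateField.adjoin, Subfield.closure_le]
  rintro x (⟨a, rfl⟩ | hx | hx)
  · show coeffMap (algebraMap ℚ ℂ) (algebraMap ℚ (LaurentSeries ℚ) a) ∈
      (qExpFFW (lvlP Γ p) 1 h.T_mem').fieldRange
    rw [RingHom.mem_fieldRange]
    refine ⟨algebraMap _ _ (algebraMap ℂ (WH0 (lvlP Γ p)) (algebraMap ℚ ℂ a)), ?_⟩
    rw [qExpFFW_const, algebraMap_laurentSeries_eq_single, coeffMap_single]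
    rfl
  · obtain ⟨k, hk⟩ := RingHom.mem_fieldRange.mp (hM x hx)
    show coeffMap (algebraMap ℚ ℂ) x ∈ (qExpFFW (lvlP Γ p) 1 h.T_mem').fieldRange
    rw [RingHom.mem_fieldRange]
    exact ⟨alphaAnG Γ p k, by rw [qExpFFW_alphaAnG h, hk]⟩
  · obtain ⟨y, hy, rfl⟩ := (IntermediateField.mem_map _).1 hx
    obtain ⟨k, hk⟩ := RingHom.mem_fieldRange.mp (hM y hy)
    show coeffMap (algebraMap ℚ ℂ) (qExpandₐ p y) ∈ (qExpFFW (lvlP Γ p) 1 h.T_mem').fieldRange
    rw [RingHom.mem_fieldRange]
    refine ⟨betaAnG h k, ?_⟩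
    rw [qExpFFW_betaAnG h, hk, qExpandₐ_apply, coeffMap_qExpand]

variable {L : Type*} [Field L] [Algebra ℚ L] (e : L →+* ℂ) (hM : IsAnModel Γ h.T_mem F₀)

/-- **`α` is compatible with the comparison maps** -/
theorem alphaAnG_toFunField (x : laurentBaseChange L F₀) :
    alphaAnG Γ p (hM.toFunField e x) = (hM.levelP h).toFunField e (alphaBar L F₀ p x) := by
  symm
  rw [IsAnModel.toFunField_eq_iff, qExpFFW_alphaAnG h, coe_alphaBar]
  exact (hM.qExpFFW_toFunField e x).symm

/-- **`β` is compatible with the comparison maps** -/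
theorem betaAnG_toFunField (x : laurentBaseChange L F₀) :
    betaAnG h (hM.toFunField e x) = (hM.levelP h).toFunField e (betaBar L F₀ p x) := by
  symm
  rw [IsAnModel.toFunField_eq_iff, qExpFFW_betaAnG h, coe_betaBar, hM.qExpFFW_toFunField e x]
  exact coeffMap_qExpand e p _

end Fermat.Agent.S48lib.X1.HeckeJ
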