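/-
S48lib / X1 / HeckeJ / StdNorm (helper6).
Layer B of block P4: **the analytic norm formula for the Hecke correspondence `α_* β^*`** of an
analytic `q`-model `F₀` of a group `Γ` of level prime to `p`:
`toMer (Φ (Norm_α (β f))) = ∏ x : P¹(𝔽_p), (Φ f) ∘ A_x`, `A_x = diag(p,1) g_x` the Hecke transversal
(`PLevel.stdTransversal`), and the resulting Kummer transfer.
Generic version of `S29lib/H/{AlphaNorm,HeckeNorm}` (helper1), which is the case `Γ = Γ₀(N)`.
-/
import Mathlib
import Fermat.Agent.S48lib.X1.HeckeJ.AnNormGen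
import Fermat.Agent.S48lib.X1.HeckeJ.ModelP
import Fermat.Agent.S29lib.H.HeckeNorm

set_option autoImplicit false
set_option linter.unusedSectionVars false
set_option linter.style.haveILetI false

noncomputable section

namespace Fermat.Agent.S48lib.X1.HeckeJ

open UpperHalfPlane Matrix.SpecialLinearGroup Fermat.Agent.ProgramR CongruenceSubgroup ModularForm
open ModularCurve Fermat.Agent.ProgramR.QExp Fermat.Agent.ProgramR.LevelOne IntermediateField
open Fermat.Agent.S29lib.H
open scoped MatrixGroups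

variable {Γ : Subgroup SL(2, ℤ)} {p : ℕ} [Fact p.Prime] (h : PLevel Γ p)
variable {F₀ : IntermediateField ℚ (LaurentSeries ℚ)}

/-! ### the hypotheses of the generic norm formula for `α` -/

theorem hF1_alphaG (x : OnePoint (ZMod p)) (a : WH0 Γ) :
    Hol.comp (h.alphaTransversal.A x) (h.alphaTransversal.isInt x).det_pos
      (WH0.toHol (lvlP Γ p) (alpha₀G Γ p a)) = WH0.toHol Γ a := by
  apply Hol.ext
  intro z
  exact a.2.smul_eq _ (h.rep x).2 z

theorem toHol_beta₀G_j : WH0.toHol (lvlP Γ p) (beta₀G h (WH0.j Γ)) = jN p := by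
  apply Hol.ext
  intro z
  show jInv (heckeDiagMatrix p • z) = (jN p : ℍ → ℂ) z
  rw [jN_apply]
  congr 1
  apply UpperHalfPlane.ext
  rw [coe_levelMat_smul, coe_heckeDiagMatrix_smul (NeZero.ne p)]

variable {L : Type*} [Field L] [Algebra ℚ L] (e : L →+* ℂ) (hM : IsAnModel Γ h.T_mem F₀)

theorem jqModC_mem_lbc (hj : jq ∈ F₀) : jqModC L ∈ laurentBaseChange L F₀ := by
  have h0 : coeffEmb L jq = jqModC L := coeffMap_jqModC (R := ℚ) (algebraMap ℚ L)
  rw [← h0]
  exact coeffEmb_mem_laurentBaseChange L hj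

/-- `j(q^p)` in the level `p` model -/
def jpBar (hj : jq ∈ F₀) : ↥(laurentBaseChange L (levelP F₀ p)) :=
  betaBar L F₀ p ⟨jqModC L, jqModC_mem_lbc hj⟩

theorem toFunField_jpBar (hj : jq ∈ F₀) :
    (hM.levelP h).toFunField e (jpBar (L := L) (p := p) hj) =
      algebraMap _ _ (beta₀G h (WH0.j Γ)) := by
  rw [jpBar, ← betaAnG_toFunField h e hM, hM.toFunField_j e _ rfl, betaAnG_algebraMap]

theorem emb_alphaG_jpBar (hj : jq ∈ F₀) (x : OnePoint (ZMod p)) :
    h.alphaTransversal.emb x ((hM.levelP h).toFunField e (jpBar (L := L) (p := p) hj)) =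
      algebraMap Hol Mer (Hol.slComp ((h.rep x : Γ) : SL(2, ℤ)) (jN p)) := by
  rw [toFunField_jpBar h e hM hj, Transversal.emb_apply, toMer_algebraMap, merComp_algebraMap,
    toHol_beta₀G_j]
  rfl

theorem hinj_alphaG (hj : jq ∈ F₀) :
    Function.Injective
      (fun x => (h.alphaTransversal.emb x).comp ((hM.levelP h).toFunField (L := L) e)) := by
  intro x x' hxx
  have h1 := DFunLike.congr_fun hxx (jpBar (L := L) (p := p) hj)
  simp only [RingHom.comp_apply] at h1
  rw [emb_alphaG_jpBar h e hM hj, emb_alphaG_jpBar h e hM hj] at h1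
  have h2 := IsFractionRing.injective Hol Mer h1
  have h3 := (slComp_inv_jN_eq_iff p ((h.rep x : Γ) : SL(2, ℤ))⁻¹
    ((h.rep x' : Γ) : SL(2, ℤ))⁻¹).mp (by rw [inv_inv, inv_inv]; exact h2)
  rw [inv_inv] at h3
  have h5 := (permS_infty_eq_infty_iff_mem (p := p) _).mpr h3
  rw [permS_mul, h.permS_rep] at h5
  have h6 := congrArg (permS p ((h.rep x' : Γ) : SL(2, ℤ))) h5
  rw [permS_apply_inv, h.permS_rep] at h6
  exact h6

/-! ### the norm formulas -/

/-- **The analytic norm formula along `α`.** -/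
theorem toMer_norm_alphaG (hgen : Generates hM e) (hj : jq ∈ F₀)
    (y : ↥(laurentBaseChange L (levelP F₀ p))) :
    toMer Γ (hM.toFunField e
      (@Algebra.norm ↥(laurentBaseChange L F₀) ↥(laurentBaseChange L (levelP F₀ p)) _ _
        (alphaBar L F₀ p).toRingHom.toAlgebra y)) =
      ∏ x : OnePoint (ZMod p), h.alphaTransversal.emb x ((hM.levelP h).toFunField e y) :=
  toMer_norm_eq_prodG h.alphaTransversal OnePoint.infty (hM.levelP h) hgen hj (alphaBar L F₀ p)
    (alpha₀G Γ p) (alphaAnG Γ p) alphaAnG_algebraMap (hF1_alphaG h)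
    (alphaAnG_toFunField h e hM) alphaAnG_const (hinj_alphaG h e hM hj) y

/-- **The analytic norm formula for the Hecke correspondence**:
`toMer (Φ (Norm_α (β f))) = ∏ x, (Φ f) ∘ A_x`, `A_x = diag(p,1) g_x`. -/
theorem toMer_norm_alpha_betaG (hgen : Generates hM e) (hj : jq ∈ F₀)
    (f : ↥(laurentBaseChange L F₀)) :
    toMer Γ (hM.toFunField e
      (@Algebra.norm ↥(laurentBaseChange L F₀) ↥(laurentBaseChange L (levelP F₀ p)) _ _
        (alphaBar L F₀ p).toRingHom.toAlgebra (betaBar L F₀ p f))) =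
      ∏ x : OnePoint (ZMod p), merComp (h.stdTransversal.A x) (h.stdTransversal.isInt x).det_pos
        (toMer Γ (hM.toFunField e f)) := by
  rw [toMer_norm_alphaG h e hM hgen hj (betaBar L F₀ p f)]
  refine Finset.prod_congr rfl fun x _ => ?_
  rw [Transversal.emb_apply, ← betaAnG_toFunField h e hM, toMer_betaAnG, merComp_comp]
  rfl

end Fermat.Agent.S48lib.X1.HeckeJ
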