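/-
S48lib / X1 / HeckeJ / Reindex (helper6).
Layer B of block P4: **the Hecke norm formula with upper triangular representatives and a
diamond element.**  For `δ ∈ SL(2,ℤ)` with `δ diag(1,p) ∈ Γ diag(p,1) Γ`, the `p + 1` matrices
`diag(p,1)`, `δ (1 j; 0 p)` (`j ∈ ℤ/p`) represent the cosets `Γ \ Γ diag(p,1) Γ`, hence
`∏ x, F ∘ A_x = F ∘ diag(p,1) * ∏ j, (F ∘ δ) ∘ (1 j; 0 p)` for `Γ`-invariant `F`, and
`toMer (Φ (Norm_α (β f))) = (Φ f) ∘ diag(p,1) * ∏ j, (Φ g) ∘ (1 j; 0 p)` if `Φ g = (Φ f) ∘ δ`.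
-/
import Mathlib
import Fermat.Agent.S48lib.X1.HeckeJ.StdNorm

set_option autoImplicit false
set_option linter.unusedSectionVars false
set_option linter.style.haveILetI false

noncomputable section

namespace Fermat.Agent.S48lib.X1.HeckeJ

open UpperHalfPlane Matrix.SpecialLinearGroup Fermat.Agent.ProgramR CongruenceSubgroup ModularForm
open ModularCurve IntermediateField
open Fermat.Agent.S29lib.H
open scoped MatrixGroups

/-! ### matrix identities -/

section Matrices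

variable {p : ℕ}

theorem heckeMatrix_eq_zero_mul_T (hp : p ≠ 0) (j : ℕ) :
    heckeMatrix p j = heckeMatrix p 0 * (mapGL ℝ (ModularGroup.T ^ (j : ℤ)) : GL (Fin 2) ℝ) := by
  have hT : ((mapGL ℝ (ModularGroup.T ^ (j : ℤ)) : GL (Fin 2) ℝ) : Matrix (Fin 2) (Fin 2) ℝ) =
      !![1, (j : ℝ); 0, 1] := by
    ext r s
    rw [mapGL_coe_matrix, Matrix.SpecialLinearGroup.map_apply_coe, RingHom.mapMatrix_apply,
      Matrix.map_apply, ModularGroup.coe_T_zpow]
    fin_cases r <;> fin_cases s <;> simp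
  ext r s
  rw [Matrix.GeneralLinearGroup.coe_mul, hT, val_heckeMatrix hp, val_heckeMatrix hp]
  fin_cases r <;> fin_cases s <;> simp [Matrix.mul_apply, Fin.sum_univ_two]

/-- comparison of entries: `(1 i; 0 p) = G (1 j; 0 p)` -/
theorem heckeMatrix_eq_mapGL_mul (hp : p ≠ 0) {i j : ℕ} {G : SL(2, ℤ)}
    (hG : heckeMatrix p i = (mapGL ℝ G : GL (Fin 2) ℝ) * heckeMatrix p j) :
    ∃ b : ℤ, (i : ℤ) = j + b * p := by
  have h00 := congrArg (fun M : GL (Fin 2) ℝ => (M : Matrix (Fin 2) (Fin 2) ℝ) 0 0) hG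
  have h01 := congrArg (fun M : GL (Fin 2) ℝ => (M : Matrix (Fin 2) (Fin 2) ℝ) 0 1) hG
  simp [hp, Matrix.mul_apply, Fin.sum_univ_two] at h00 h01
  have h00' : (G 0 0 : ℤ) = 1 := by exact_mod_cast h00.symm
  refine ⟨G 0 1, ?_⟩
  rw [h00'] at h01
  have : ((i : ℤ) : ℝ) = ((j + G 0 1 * p : ℤ) : ℝ) := by
    push_cast
    rw [h01]
    push_cast
    ring
  exact_mod_cast this

/-- `diag(p,1) ≠ G (1 j; 0 p)` -/
theorem heckeDiagMatrix_ne_mapGL_mul (hp : 1 < p) {j : ℕ} {G : SL(2, ℤ)}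
    (hG : heckeDiagMatrix p = (mapGL ℝ G : GL (Fin 2) ℝ) * heckeMatrix p j) : False := by
  have hp0 : p ≠ 0 := by omega
  have h10 := congrArg (fun M : GL (Fin 2) ℝ => (M : Matrix (Fin 2) (Fin 2) ℝ) 1 0) hG
  have h11 := congrArg (fun M : GL (Fin 2) ℝ => (M : Matrix (Fin 2) (Fin 2) ℝ) 1 1) hG
  simp [hp0, Matrix.mul_apply, Fin.sum_univ_two] at h10 h11
  have h10' : (G 1 0 : ℤ) = 0 := by exact_mod_cast h10.symm
  rw [h10'] at h11
  have h11' : (1 : ℤ) = G 1 1 * p := by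
    have : ((1 : ℤ) : ℝ) = ((G 1 1 * p : ℤ) : ℝ) := by
      push_cast
      rw [h11]
      push_cast
      ring
    exact_mod_cast this
  have hdvd : (p : ℤ) ∣ 1 := Dvd.intro_left (G 1 1) h11'.symm
  have := Int.le_of_dvd one_pos hdvd
  omega

/-- `(1 j; 0 p) ≠ G diag(p,1)` -/
theorem heckeMatrix_ne_mapGL_mul_diag (hp : 1 < p) {j : ℕ} {G : SL(2, ℤ)}
    (hG : heckeMatrix p j = (mapGL ℝ G : GL (Fin 2) ℝ) * heckeDiagMatrix p) : False := by
  have hp0 : p ≠ 0 := by omega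
  have h00 := congrArg (fun M : GL (Fin 2) ℝ => (M : Matrix (Fin 2) (Fin 2) ℝ) 0 0) hG
  simp [hp0, Matrix.mul_apply, Fin.sum_univ_two] at h00
  have h00' : (1 : ℤ) = G 0 0 * p := by exact_mod_cast h00
  have hdvd : (p : ℤ) ∣ 1 := Dvd.intro_left (G 0 0) h00'.symm
  have := Int.le_of_dvd one_pos hdvd
  omega

end Matrices

/-! ### the twisted representatives -/

variable {Γ : Subgroup SL(2, ℤ)} {p : ℕ} [Fact p.Prime] (h : PLevel Γ p)

/-- the representatives `diag(p,1)`, `δ (1 j; 0 p)` -/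
def twRep (p : ℕ) (δ : SL(2, ℤ)) (x : OnePoint (ZMod p)) : GL (Fin 2) ℝ :=
  x.elim (heckeDiagMatrix p) (fun j => (mapGL ℝ δ : GL (Fin 2) ℝ) * heckeMatrix p j.val)

theorem twRep_infty (δ : SL(2, ℤ)) : twRep p δ OnePoint.infty = heckeDiagMatrix p := rfl

theorem twRep_coe (δ : SL(2, ℤ)) (j : ZMod p) :
    twRep p δ (j : OnePoint (ZMod p)) = (mapGL ℝ δ : GL (Fin 2) ℝ) * heckeMatrix p j.val := rfl

theorem isIntMat_mul_of {A B : GL (Fin 2) ℝ} (hA : IsIntMat A) (hB : IsIntMat B) :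
    IsIntMat (A * B) := by
  obtain ⟨M, hAM, hM⟩ := hA
  obtain ⟨M', hBM, hM'⟩ := hB
  refine ⟨M * M', ?_, ?_⟩
  · rw [Matrix.GeneralLinearGroup.coe_mul, hAM, hBM, Matrix.map_mul_intCast]
  · rw [Matrix.det_mul]
    exact mul_pos hM hM'

theorem isIntMat_twRep (δ : SL(2, ℤ)) (x : OnePoint (ZMod p)) : IsIntMat (twRep p δ x) := by
  induction x using OnePoint.rec with
  | infty => exact isIntMat_heckeDiagMatrix p
  | coe j => exact isIntMat_mul_of (isIntMat_mapGL δ) (isIntMat_heckeMatrix p j.val)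

/-- the representatives are pairwise inequivalent under left multiplication by `SL(2,ℤ)` -/
theorem twRep_injective_mod (δ : SL(2, ℤ)) {x x' : OnePoint (ZMod p)} {g : SL(2, ℤ)}
    (hg : twRep p δ x = (mapGL ℝ g : GL (Fin 2) ℝ) * twRep p δ x') : x = x' := by
  have hp : 1 < p := (Fact.out : p.Prime).one_lt
  have hp0 : p ≠ 0 := by omega
  induction x using OnePoint.rec with
  | infty =>
    induction x' using OnePoint.rec with
    | infty => rfl
    | coe j =>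
      exfalso
      rw [twRep_infty, twRep_coe, ← mul_assoc, ← map_mul] at hg
      exact heckeDiagMatrix_ne_mapGL_mul hp hg
  | coe i =>
    induction x' using OnePoint.rec with
    | infty =>
      exfalso
      rw [twRep_infty, twRep_coe] at hg
      have h1 : heckeMatrix p i.val =
          (mapGL ℝ (δ⁻¹ * g) : GL (Fin 2) ℝ) * heckeDiagMatrix p := by
        rw [map_mul, mul_assoc, ← hg, ← mul_assoc, ← map_mul, inv_mul_cancel, map_one, one_mul]
      exact heckeMatrix_ne_mapGL_mul_diag hp h1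
    | coe j =>
      rw [twRep_coe, twRep_coe] at hg
      have h1 : heckeMatrix p i.val =
          (mapGL ℝ (δ⁻¹ * g * δ) : GL (Fin 2) ℝ) * heckeMatrix p j.val := by
        calc heckeMatrix p i.val
            = (mapGL ℝ δ⁻¹ : GL (Fin 2) ℝ) * ((mapGL ℝ δ : GL (Fin 2) ℝ) * heckeMatrix p i.val) := by
              rw [← mul_assoc, ← map_mul, inv_mul_cancel, map_one, one_mul]
          _ = (mapGL ℝ δ⁻¹ : GL (Fin 2) ℝ) * ((mapGL ℝ g : GL (Fin 2) ℝ) *
                ((mapGL ℝ δ : GL (Fin 2) ℝ) * heckeMatrix p j.val)) := by rw [hg]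
          _ = _ := by rw [map_mul, map_mul, mul_assoc, mul_assoc]
      obtain ⟨b, hb⟩ := heckeMatrix_eq_mapGL_mul hp0 h1
      congr 1
      have h2 := congrArg (Int.cast : ℤ → ZMod p) hb
      push_cast at h2
      rw [ZMod.natCast_zmod_val, ZMod.natCast_zmod_val, ZMod.natCast_self, mul_zero,
        add_zero] at h2
      exact h2

namespace PLevel

include h

theorem T_zpow_mem (k : ℤ) : ModularGroup.T ^ k ∈ Γ := by
  have h1 : ModularGroup.T ∈ Γ := by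
    have := h.T_mem
    rwa [Nat.cast_one, zpow_one] at this
  exact Γ.zpow_mem h1 k

/-- every element of the double coset `Γ diag(p,1) Γ` lies in some `Γ A_x` -/
theorem exists_std_of_dc {γ₁ γ₂ : SL(2, ℤ)} (h1 : γ₁ ∈ Γ) (h2 : γ₂ ∈ Γ) :
    ∃ x : OnePoint (ZMod p), ∃ γ ∈ Γ,
      (mapGL ℝ γ₁ : GL (Fin 2) ℝ) * heckeDiagMatrix p * mapGL ℝ γ₂ =
        mapGL ℝ γ * h.stdTransversal.A x := by
  let r : Γ := h.rep OnePoint.infty
  let γ' : Γ := r⁻¹ * ⟨γ₂, h2⟩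
  have hrel := h.stdTransversal.rel γ' OnePoint.infty
  refine ⟨h.stdTransversal.σ γ' OnePoint.infty,
    γ₁ * ((h.stdTransversal.c γ' OnePoint.infty : Γ) : SL(2, ℤ)),
    Γ.mul_mem h1 (SetLike.coe_mem _), ?_⟩
  rw [map_mul, mul_assoc (mapGL ℝ γ₁ : GL (Fin 2) ℝ) (mapGL ℝ _) _, ← hrel]
  show _ = (mapGL ℝ γ₁ : GL (Fin 2) ℝ) *
    (heckeDiagMatrix p * (mapGL ℝ (r : SL(2, ℤ)) : GL (Fin 2) ℝ) *
      (mapGL ℝ ((γ' : Γ) : SL(2, ℤ)) : GL (Fin 2) ℝ))
  have hγ' : ((γ' : Γ) : SL(2, ℤ)) = (r : SL(2, ℤ))⁻¹ * γ₂ := rfl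
  rw [hγ', map_mul, map_inv]
  group

/-- each twisted representative lies in some `Γ A_x` -/
theorem exists_std_of_twRep {δ : SL(2, ℤ)}
    (hδ : ∃ γ₁ ∈ Γ, ∃ γ₂ ∈ Γ, (mapGL ℝ δ : GL (Fin 2) ℝ) * heckeMatrix p 0 =
      mapGL ℝ γ₁ * heckeDiagMatrix p * mapGL ℝ γ₂) (o : OnePoint (ZMod p)) :
    ∃ x : OnePoint (ZMod p), ∃ γ ∈ Γ, twRep p δ o = mapGL ℝ γ * h.stdTransversal.A x := by
  have hp0 : p ≠ 0 := (Fact.out : p.Prime).ne_zero
  induction o using OnePoint.rec with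
  | infty =>
    obtain ⟨x, γ, hγ, hx⟩ := h.exists_std_of_dc Γ.one_mem Γ.one_mem
    refine ⟨x, γ, hγ, ?_⟩
    rw [twRep_infty, ← hx, map_one, one_mul, mul_one]
  | coe j =>
    obtain ⟨γ₁, h1, γ₂, h2, h12⟩ := hδ
    obtain ⟨x, γ, hγ, hx⟩ := h.exists_std_of_dc h1 (Γ.mul_mem h2 (h.T_zpow_mem (j.val : ℤ)))
    refine ⟨x, γ, hγ, ?_⟩
    rw [twRep_coe, ← hx, heckeMatrix_eq_zero_mul_T hp0, ← mul_assoc, h12, map_mul, mul_assoc]

end PLevel

/-- invariance of `merComp · (toMer Γ k)` under left multiplication by `Γ` -/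
theorem merComp_toMer_eq_of_eq_mul {B A : GL (Fin 2) ℝ} (hB : 0 < B.det.val)
    (hA : 0 < A.det.val) {γ : SL(2, ℤ)} (hγ : γ ∈ Γ)
    (hBA : B = (mapGL ℝ γ : GL (Fin 2) ℝ) * A) (k : WH0.FunField Γ) :
    merComp B hB (toMer Γ k) = merComp A hA (toMer Γ k) := by
  rw [merComp_eq_of_eq hB (det_pos_mul (isIntMat_mapGL γ).det_pos hA) hBA,
    ← merComp_comp (isIntMat_mapGL γ).det_pos hA, merComp_toMer_of_mem Γ hγ]

/-- **reindexing**: the product over the Hecke transversal is the product over the twisted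
representatives -/
theorem prod_merComp_std_eq_twRep {δ : SL(2, ℤ)}
    (hδ : ∃ γ₁ ∈ Γ, ∃ γ₂ ∈ Γ, (mapGL ℝ δ : GL (Fin 2) ℝ) * heckeMatrix p 0 =
      mapGL ℝ γ₁ * heckeDiagMatrix p * mapGL ℝ γ₂) (k : WH0.FunField Γ) :
    ∏ x : OnePoint (ZMod p), merComp (h.stdTransversal.A x) (h.stdTransversal.isInt x).det_pos
        (toMer Γ k) =
      ∏ o : OnePoint (ZMod p), merComp (twRep p δ o) (isIntMat_twRep δ o).det_pos
        (toMer Γ k) := by
  choose φ γ hγ hφ using h.exists_std_of_twRep hδ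
  have hinj : Function.Injective φ := by
    intro o o' hoo
    have h1 := hφ o
    have h2 := hφ o'
    rw [hoo] at h1
    have h3 : twRep p δ o = (mapGL ℝ (γ o * (γ o')⁻¹) : GL (Fin 2) ℝ) * twRep p δ o' := by
      rw [h1, h2, map_mul, map_inv]
      group
    exact twRep_injective_mod δ h3
  have hbij : Function.Bijective φ := hinj.bijective_of_finite
  rw [← (Equiv.ofBijective φ hbij).prod_comp]
  refine Finset.prod_congr rfl fun o _ => ?_
  rw [Equiv.ofBijective_apply]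
  exact (merComp_toMer_eq_of_eq_mul _ _ (hγ o) (hφ o) k).symm

variable {F₀ : IntermediateField ℚ (LaurentSeries ℚ)}
variable {L : Type*} [Field L] [Algebra ℚ L] (e : L →+* ℂ) (hM : IsAnModel Γ h.T_mem F₀)

/-- **The analytic norm formula for the Hecke correspondence, with a diamond element**:
`toMer (Φ (Norm_α (β f))) = (Φ f) ∘ diag(p,1) * ∏ j, (Φ g) ∘ (1 j; 0 p)` if `Φ g = (Φ f) ∘ δ`
and `δ diag(1,p) ∈ Γ diag(p,1) Γ`. -/
theorem toMer_norm_alpha_betaG_tw (hgen : Generates hM e) (hj : jq ∈ F₀) {δ : SL(2, ℤ)}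
    (hδ : ∃ γ₁ ∈ Γ, ∃ γ₂ ∈ Γ, (mapGL ℝ δ : GL (Fin 2) ℝ) * heckeMatrix p 0 =
      mapGL ℝ γ₁ * heckeDiagMatrix p * mapGL ℝ γ₂)
    (f g : ↥(laurentBaseChange L F₀))
    (hfg : toMer Γ (hM.toFunField e g) =
      merComp (mapGL ℝ δ : GL (Fin 2) ℝ) (isIntMat_mapGL δ).det_pos
        (toMer Γ (hM.toFunField e f))) :
    toMer Γ (hM.toFunField e
      (@Algebra.norm ↥(laurentBaseChange L F₀) ↥(laurentBaseChange L (levelP F₀ p)) _ _
        (alphaBar L F₀ p).toRingHom.toAlgebra (betaBar L F₀ p f))) =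
      merComp (heckeDiagMatrix p) (isIntMat_heckeDiagMatrix p).det_pos
          (toMer Γ (hM.toFunField e f)) *
        ∏ j : ZMod p, merComp (heckeMatrix p j.val) (isIntMat_heckeMatrix p j.val).det_pos
          (toMer Γ (hM.toFunField e g)) := by
  rw [toMer_norm_alpha_betaG h e hM hgen hj f, prod_merComp_std_eq_twRep h hδ]
  have := Fintype.prod_option (fun o : OnePoint (ZMod p) =>
    merComp (twRep p δ o) (isIntMat_twRep δ o).det_pos (toMer Γ (hM.toFunField e f)))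
  refine this.trans ?_
  congr 1
  refine Finset.prod_congr rfl fun j _ => ?_
  rw [hfg, merComp_comp]
  rfl

end Fermat.Agent.S48lib.X1.HeckeJ
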