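/-
S48lib / X1 / HeckeJ / QNorm (helper6).
Layer B of block P4: **the Hecke norm formula in `q`-expansions, with a diamond element.**
For an analytic `q`-model `F₀` of `Γ` (`PLevel Γ p`, `Generates`), `δ ∈ SL(2,ℤ)` with
`δ diag(1,p) ∈ Γ diag(p,1) Γ`, and `f, g ∈ L F₀` with `Φ g = (Φ f) ∘ δ`:

  `N_α (β f) (Q^p) = f(Q^(p²)) * ∏_{i < p} g(ζ^i Q)`   in `L((Q))`,

`ζ ∈ L` any primitive `p`-th root of unity.  The `Q`-expansions (`Q = e(τ/p)`) are computed on
the auxiliary group `⟨T^p⟩` with the generic `qExpFFW`.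
-/
import Mathlib
import Fermat.Agent.S48lib.X1.HeckeJ.Reindex
import Fermat.Agent.S28lib.Twist

set_option autoImplicit false
set_option linter.unusedSectionVars false
set_option linter.style.haveILetI false

noncomputable section

namespace Fermat.Agent.S48lib.X1.HeckeJ

open Complex Filter Function Topology CongruenceSubgroup
open UpperHalfPlane hiding I
open scoped Real Manifold MatrixGroups
open Matrix.SpecialLinearGroup ModularForm
open ModularCurve Fermat.Agent.ProgramR Fermat.Agent.ProgramR.QExp Fermat.Agent.ProgramR.LevelOne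
open Fermat.Agent.S29lib.H Fermat.Agent.S28lib IntermediateField

local notation "𝕢" => Periodic.qParam

/-! ### function level: `Q`-expansions of `a ∘ (1 j; 0 p)` and `a ∘ diag(p,1)` -/

section FunctionLevel

variable {p : ℕ} [NeZero p]

theorem width_pos' : (0 : ℝ) < (p : ℝ) := Nat.cast_pos.mpr (NeZero.pos p)

theorem qParam_one_heckeMatrix_zero (τ : ℍ) :
    𝕢 1 ((heckeMatrix p 0 • τ : ℍ) : ℂ) = 𝕢 (p : ℝ) (τ : ℂ) ^ 1 := by
  rw [pow_one, coe_heckeMatrix_smul (NeZero.ne p), Periodic.qParam, Periodic.qParam]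
  congr 1
  push_cast
  ring

theorem heckeMatrix_smul_eq_zero_vadd (j : ℕ) (τ : ℍ) :
    heckeMatrix p j • τ = heckeMatrix p 0 • ((j : ℝ) +ᵥ τ) := by
  apply UpperHalfPlane.ext
  rw [coe_heckeMatrix_smul (NeZero.ne p), coe_heckeMatrix_smul (NeZero.ne p), coe_vadd]
  push_cast
  ring

/-- the `Q`-expansion of `τ ↦ a((τ + j)/p)` is the `q`-expansion of `a` twisted by `e(j/p)` -/
theorem laurentExp_comp_heckeMatrix {m m' : ℕ} {a : ℍ → ℂ} (ha : IsMeroAtInfty 1 m a) (j : ℕ)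
    (hb₀ : IsMeroAtInfty (p : ℝ) m' (fun τ => a (heckeMatrix p 0 • τ)))
    (hb : MDiff (fun τ => a (heckeMatrix p j • τ))) (n : ℤ) :
    (laurentExp (p : ℝ) (fun τ => a (heckeMatrix p j • τ))).coeff n =
      CuspLocal.twistFactor (p : ℝ) (j : ℝ) ^ n * (laurentExp 1 a).coeff n := by
  have hp : (0 : ℝ) < (p : ℝ) := width_pos'
  have ha' : IsMeroAtInfty 1 (max m m') a := ha.mono one_pos (le_max_left m m')
  have hb₀' : IsMeroAtInfty (p : ℝ) (1 * max m m') (fun τ => a (heckeMatrix p 0 • τ)) := by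
    rw [one_mul]
    exact hb₀.mono hp (le_max_right m m')
  have h1 : laurentExp (p : ℝ) (fun τ => a (heckeMatrix p 0 • τ)) =
      qExpand ℂ 1 (laurentExp 1 a) :=
    laurentExp_comp_of_qParam_pow one_pos hp ha' hb₀' (fun τ => heckeMatrix p 0 • τ)
      (fun τ => rfl) qParam_one_heckeMatrix_zero
  rw [qExpand_one_apply] at h1
  have h2 := (CuspLocal.laurentExp_coeff_of_vadd hp hb₀' hb (j : ℝ)
    (fun τ => by rw [heckeMatrix_smul_eq_zero_vadd j τ])).2 n
  rw [h2, h1]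

/-- the `Q`-expansion of `τ ↦ a(p τ)` is the `q`-expansion of `a` with `q ↦ Q^(p²)` -/
theorem laurentExp_comp_heckeDiag {m : ℕ} {a : ℍ → ℂ} (ha : IsMeroAtInfty 1 m a) :
    laurentExp (p : ℝ) (fun τ => a (heckeDiagMatrix p • τ)) =
      qExpand ℂ (p * p) (laurentExp 1 a) := by
  have hφ : ∀ τ : ℍ, ((heckeDiagMatrix p • τ : ℍ) : ℂ) = (p : ℂ) * τ :=
    fun τ => coe_heckeDiagMatrix_smul (NeZero.ne p) τ
  have h1 := laurentExp_scale (d := p) ha (fun τ => heckeDiagMatrix p • τ) hφ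
  have h2 := isMeroAtInfty_scale (NeZero.pos p) ha (fun τ => heckeDiagMatrix p • τ) hφ
  have h3 := laurentExp_period_mul one_pos (n := p) h2
  rw [mul_one] at h3
  have h4 : (fun τ => a (heckeDiagMatrix p • τ)) = a ∘ fun τ => heckeDiagMatrix p • τ := rfl
  rw [h4, h3, h1, qExpand_qExpand]

/-- the `Q`-expansion of a `1`-periodic function is its `q`-expansion with `q ↦ Q^p` -/
theorem laurentExp_width_p {m : ℕ} {a : ℍ → ℂ} (ha : IsMeroAtInfty 1 m a) :
    laurentExp (p : ℝ) a = qExpand ℂ p (laurentExp 1 a) := by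
  have h3 := laurentExp_period_mul one_pos (n := p) ha
  rwa [mul_one] at h3

end FunctionLevel

/-! ### the root of unity `e(1/p)` -/

section ZetaC

variable (p : ℕ) [NeZero p]

/-- `e(1/p)` as a unit of `ℂ` -/
def zetaC : ℂˣ :=
  Units.mk0 (CuspLocal.twistFactor (p : ℝ) 1) (CuspLocal.twistFactor_ne_zero _ _)

@[simp] theorem coe_zetaC : ((zetaC p : ℂˣ) : ℂ) = CuspLocal.twistFactor (p : ℝ) 1 := rfl

theorem twistFactor_nat (j : ℕ) :
    CuspLocal.twistFactor (p : ℝ) (j : ℝ) = CuspLocal.twistFactor (p : ℝ) 1 ^ j := by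
  rw [CuspLocal.twistFactor, CuspLocal.twistFactor, ← Complex.exp_nat_mul]
  congr 1
  push_cast
  ring

theorem isPrimitiveRoot_zetaC : IsPrimitiveRoot (zetaC p) p := by
  rw [← IsPrimitiveRoot.coe_units_iff]
  show IsPrimitiveRoot (CuspLocal.twistFactor (p : ℝ) 1) p
  have h := Complex.isPrimitiveRoot_exp p (NeZero.ne p)
  convert h using 1
  rw [CuspLocal.twistFactor]
  congr 1
  push_cast
  ring

end ZetaC

/-! ### the auxiliary group `⟨T^p⟩` -/

section Aux

variable (p : ℕ) [NeZero p]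

/-- the auxiliary group `⟨T^p⟩` -/
def GT : Subgroup SL(2, ℤ) := Subgroup.zpowers (ModularGroup.T ^ ((p : ℕ) : ℤ))

theorem T_pow_mem_GT : ModularGroup.T ^ ((p : ℕ) : ℤ) ∈ GT p := Subgroup.mem_zpowers _

theorem smul_eq_vadd_of_mem_GT {γ : SL(2, ℤ)} (hγ : γ ∈ GT p) :
    ∃ k : ℤ, ∀ z : ℍ, γ • z = (((p : ℤ) * k : ℤ) : ℝ) +ᵥ z := by
  obtain ⟨k, rfl⟩ := Subgroup.mem_zpowers_iff.mp hγ
  refine ⟨k, fun z => ?_⟩
  rw [← zpow_mul, modular_T_zpow_smul]

variable {Γ : Subgroup SL(2, ℤ)}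

theorem GT_le (hT : ModularGroup.T ∈ Γ) : GT p ≤ Γ := by
  rw [GT, Subgroup.zpowers_le]
  exact Γ.zpow_mem hT _

/-- `a ↦ a ∘ B`, `WH0 Γ → WH0 ⟨T^p⟩`, for an integral matrix `B` with `B (τ + p k) ∈ Γ · B τ` -/
def compGT (B : GL (Fin 2) ℝ) (hB : IsIntMat B)
    (hinv : ∀ (k : ℤ) (z : ℍ), ∃ γ ∈ Γ, B • ((((p : ℤ) * k : ℤ) : ℝ) +ᵥ z) = γ • (B • z)) :
    WH0 Γ →+* WH0 (GT p) where
  toFun a := ⟨fun z => a.1 (B • z), by
    have h1 := (glTranslate B hB (WH0.incl Γ a)).2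
    refine ⟨h1.mdiff, ?_, h1.exists_bdd⟩
    intro γ hγ z
    obtain ⟨k, hk⟩ := smul_eq_vadd_of_mem_GT p hγ
    obtain ⟨γ', hγ', h2⟩ := hinv k z
    rw [hk z, h2]
    exact a.2.smul_eq γ' hγ' _⟩
  map_one' := rfl
  map_mul' _ _ := rfl
  map_zero' := rfl
  map_add' _ _ := rfl

variable {p}
variable (B : GL (Fin 2) ℝ) (hB : IsIntMat B)
    (hinv : ∀ (k : ℤ) (z : ℍ), ∃ γ ∈ Γ, B • ((((p : ℤ) * k : ℤ) : ℝ) +ᵥ z) = γ • (B • z))

@[simp] theorem compGT_apply (a : WH0 Γ) (z : ℍ) : (compGT p B hB hinv a).1 z = a.1 (B • z) := rfl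

theorem toHol_compGT (a : WH0 Γ) :
    WH0.toHol (GT p) (compGT p B hB hinv a) = Hol.comp B hB.det_pos (WH0.toHol Γ a) := rfl

theorem compGT_injective : Function.Injective (compGT p B hB hinv) := by
  intro a b hab
  apply WH0.toHol_injective Γ
  apply Hol.comp_injective B hB.det_pos
  rw [← toHol_compGT B hB hinv, ← toHol_compGT B hB hinv, hab]

/-- `k ↦ k ∘ B` on function fields -/
def compFF : WH0.FunField Γ →+* WH0.FunField (GT p) :=
  funFieldMap (compGT p B hB hinv) (compGT_injective B hB hinv)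

theorem compFF_algebraMap (a : WH0 Γ) :
    compFF B hB hinv (algebraMap _ _ a) = algebraMap _ _ (compGT p B hB hinv a) :=
  funFieldMap_algebraMap _ _ a

theorem toMer_compFF (k : WH0.FunField Γ) :
    toMer (GT p) (compFF B hB hinv k) = merComp B hB.det_pos (toMer Γ k) := by
  have : (toMer (GT p)).comp (compFF B hB hinv) = (merComp B hB.det_pos).comp (toMer Γ) := by
    apply funField_ringHom_ext
    intro a
    rw [RingHom.comp_apply, RingHom.comp_apply, compFF_algebraMap, toMer_algebraMap,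
      toMer_algebraMap, merComp_algebraMap, toHol_compGT]
  exact congrArg (fun φ : WH0.FunField Γ →+* Mer => φ k) this

end Aux

/-! ### the three maps `Frac (WH0 Γ) → Frac (WH0 ⟨T^p⟩)` and their `Q`-expansions -/

section Instances

variable {p : ℕ} [NeZero p] {Γ : Subgroup SL(2, ℤ)} (hT : ModularGroup.T ∈ Γ)

include hT in
theorem hinv_heckeMatrix (j : ℕ) (k : ℤ) (z : ℍ) :
    ∃ γ ∈ Γ, heckeMatrix p j • ((((p : ℤ) * k : ℤ) : ℝ) +ᵥ z) = γ • (heckeMatrix p j • z) := by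
  refine ⟨ModularGroup.T ^ k, Γ.zpow_mem hT k, ?_⟩
  rw [modular_T_zpow_smul]
  apply UpperHalfPlane.ext
  rw [coe_heckeMatrix_smul (NeZero.ne p), coe_vadd, coe_vadd,
    coe_heckeMatrix_smul (NeZero.ne p)]
  have hp : (p : ℂ) ≠ 0 := Nat.cast_ne_zero.mpr (NeZero.ne p)
  push_cast
  field_simp
  ring

include hT in
theorem hinv_heckeDiag (k : ℤ) (z : ℍ) :
    ∃ γ ∈ Γ, heckeDiagMatrix p • ((((p : ℤ) * k : ℤ) : ℝ) +ᵥ z) =
      γ • (heckeDiagMatrix p • z) := by
  refine ⟨ModularGroup.T ^ ((p : ℤ) * ((p : ℤ) * k)), Γ.zpow_mem hT _, ?_⟩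
  rw [modular_T_zpow_smul]
  apply UpperHalfPlane.ext
  rw [coe_heckeDiagMatrix_smul (NeZero.ne p), coe_vadd, coe_vadd,
    coe_heckeDiagMatrix_smul (NeZero.ne p)]
  push_cast
  ring

/-- `k ↦ k ∘ (1 j; 0 p)` -/
def hmFF (j : ℕ) : WH0.FunField Γ →+* WH0.FunField (GT p) :=
  compFF (heckeMatrix p j) (isIntMat_heckeMatrix p j) (hinv_heckeMatrix hT j)

/-- `k ↦ k ∘ diag(p,1)` -/
def hdFF : WH0.FunField Γ →+* WH0.FunField (GT p) :=
  compFF (heckeDiagMatrix p) (isIntMat_heckeDiagMatrix p) (hinv_heckeDiag hT)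

/-- the inclusion -/
def incFF : WH0.FunField Γ →+* WH0.FunField (GT p) :=
  funFieldMap (inclWH0 (GT_le p hT)) (inclWH0_injective (GT_le p hT))

theorem toMer_hmFF (j : ℕ) (k : WH0.FunField Γ) :
    toMer (GT p) (hmFF hT j k) =
      merComp (heckeMatrix p j) (isIntMat_heckeMatrix p j).det_pos (toMer Γ k) :=
  toMer_compFF _ _ _ k

theorem toMer_hdFF (k : WH0.FunField Γ) :
    toMer (GT p) (hdFF hT k) =
      merComp (heckeDiagMatrix p) (isIntMat_heckeDiagMatrix p).det_pos (toMer Γ k) :=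
  toMer_compFF _ _ _ k

theorem toMer_incFF (k : WH0.FunField Γ) : toMer (GT p) (incFF (p := p) hT k) = toMer Γ k := by
  have : (toMer (GT p)).comp (incFF (p := p) hT) = toMer Γ := by
    apply funField_ringHom_ext
    intro a
    rw [RingHom.comp_apply, incFF, funFieldMap_algebraMap, toMer_algebraMap, toMer_algebraMap]
    rfl
  exact congrArg (fun φ : WH0.FunField Γ →+* Mer => φ k) this

variable (hT1 : ModularGroup.T ^ ((1 : ℕ) : ℤ) ∈ Γ)

theorem qExpFFW_incFF (k : WH0.FunField Γ) :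
    qExpFFW (GT p) p (T_pow_mem_GT p) (incFF (p := p) hT k) =
      qExpand ℂ p (qExpFFW Γ 1 hT1 k) := by
  have : (qExpFFW (GT p) p (T_pow_mem_GT p)).comp (incFF (p := p) hT) =
      (qExpand ℂ p).comp (qExpFFW Γ 1 hT1) := by
    apply funField_ringHom_ext
    intro a
    rw [RingHom.comp_apply, RingHom.comp_apply, incFF, funFieldMap_algebraMap,
      qExpFFW_algebraMap, qExpFFW_algebraMap]
    obtain ⟨m, hm⟩ := mem_merRing_of_mem_WH0_width Γ 1 hT1 a.2
    rw [Nat.cast_one] at hm ⊢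
    exact laurentExp_width_p hm
  exact congrArg (fun φ : WH0.FunField Γ →+* LaurentSeries ℂ => φ k) this

theorem qExpFFW_hdFF (k : WH0.FunField Γ) :
    qExpFFW (GT p) p (T_pow_mem_GT p) (hdFF hT k) =
      qExpand ℂ (p * p) (qExpFFW Γ 1 hT1 k) := by
  have : (qExpFFW (GT p) p (T_pow_mem_GT p)).comp (hdFF hT) =
      (qExpand ℂ (p * p)).comp (qExpFFW Γ 1 hT1) := by
    apply funField_ringHom_ext
    intro a
    rw [RingHom.comp_apply, RingHom.comp_apply, hdFF, compFF_algebraMap,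
      qExpFFW_algebraMap, qExpFFW_algebraMap]
    obtain ⟨m, hm⟩ := mem_merRing_of_mem_WH0_width Γ 1 hT1 a.2
    rw [Nat.cast_one] at hm ⊢
    exact laurentExp_comp_heckeDiag hm
  exact congrArg (fun φ : WH0.FunField Γ →+* LaurentSeries ℂ => φ k) this

theorem qExpFFW_hmFF (j : ℕ) (k : WH0.FunField Γ) :
    qExpFFW (GT p) p (T_pow_mem_GT p) (hmFF hT j k) =
      twist (zetaC p ^ j) (qExpFFW Γ 1 hT1 k) := by
  have : (qExpFFW (GT p) p (T_pow_mem_GT p)).comp (hmFF hT j) =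
      (twist (zetaC p ^ j)).comp (qExpFFW Γ 1 hT1) := by
    apply funField_ringHom_ext
    intro a
    rw [RingHom.comp_apply, RingHom.comp_apply, hmFF, compFF_algebraMap,
      qExpFFW_algebraMap, qExpFFW_algebraMap]
    obtain ⟨m, hm⟩ := mem_merRing_of_mem_WH0_width Γ 1 hT1 a.2
    rw [Nat.cast_one] at hm ⊢
    obtain ⟨m', hm'⟩ := mem_merRing_of_mem_WH0_width (GT p) p (T_pow_mem_GT p)
      (compGT p (heckeMatrix p 0) (isIntMat_heckeMatrix p 0) (hinv_heckeMatrix hT 0) a).2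
    ext n
    have h1 := laurentExp_comp_heckeMatrix hm j hm'
      (compGT p (heckeMatrix p j) (isIntMat_heckeMatrix p j) (hinv_heckeMatrix hT j) a).2.mdiff n
    rw [twist_coeff]
    refine h1.trans ?_
    congr 1
    rw [twistFactor_nat, Units.val_zpow_eq_zpow_val, Units.val_pow_eq_pow_val, coe_zetaC]
  exact congrArg (fun φ : WH0.FunField Γ →+* LaurentSeries ℂ => φ k) this

end Instances

/-! ### products over the powers of a primitive root -/

section Roots

theorem prod_range_eq_prod_zmod' {p : ℕ} [NeZero p] {M : Type*} [CommMonoid M] (F : ℕ → M) :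
    ∏ j ∈ Finset.range p, F j = ∏ x : ZMod p, F x.val := by
  refine Finset.prod_nbij' (fun j : ℕ ↦ (j : ZMod p)) (fun x : ZMod p ↦ x.val)
    (fun _ _ ↦ Finset.mem_univ _) (fun x _ ↦ Finset.mem_range.mpr x.val_lt) (fun j hj ↦ ?_)
    (fun x _ ↦ ?_) (fun j hj ↦ ?_)
  · exact ZMod.val_cast_of_lt (Finset.mem_range.mp hj)
  · exact ZMod.natCast_zmod_val x
  · rw [ZMod.val_cast_of_lt (Finset.mem_range.mp hj)]

/-- a product over the powers of a primitive root does not depend on the primitive root -/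
theorem prod_pow_eq_of_isPrimitiveRoot {R : Type*} [CommRing R] [IsDomain R] {M : Type*}
    [CommMonoid M] {k : ℕ} {ζ₁ ζ₂ : Rˣ} (h₁ : IsPrimitiveRoot ζ₁ k) (h₂ : IsPrimitiveRoot ζ₂ k)
    (G : Rˣ → M) :
    ∏ i ∈ Finset.range k, G (ζ₁ ^ i) = ∏ i ∈ Finset.range k, G (ζ₂ ^ i) := by
  classical
  let G' : R → M := fun c => if hc : IsUnit c then G hc.unit else 1
  have hG' : ∀ u : Rˣ, G' (u : R) = G u := by
    intro u
    show (if hc : IsUnit (u : R) then G hc.unit else 1) = G u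
    rw [dif_pos u.isUnit, IsUnit.unit_of_val_units]
  have key : ∀ ζ : Rˣ, IsPrimitiveRoot ζ k →
      ∏ i ∈ Finset.range k, G (ζ ^ i) = ((Polynomial.nthRoots k (1 : R)).map G').prod := by
    intro ζ hζ
    have hζ' : IsPrimitiveRoot (ζ : R) k := IsPrimitiveRoot.coe_units_iff.mpr hζ
    rw [hζ'.nthRoots_eq (one_pow k), Multiset.map_map, Finset.prod_eq_multiset_prod,
      Finset.range_val]
    congr 1
    apply Multiset.map_congr rfl
    intro i _
    show G (ζ ^ i) = G' ((ζ : R) ^ i * 1)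
    rw [mul_one, ← Units.val_pow_eq_pow_val, hG']
  rw [key ζ₁ h₁, key ζ₂ h₂]

end Roots

/-! ### the main theorem -/

section Main

variable {Γ : Subgroup SL(2, ℤ)} {p : ℕ} [Fact p.Prime] (h : PLevel Γ p)
variable {F₀ : IntermediateField ℚ (LaurentSeries ℚ)}
variable {L : Type*} [Field L] [Algebra ℚ L] (e : L →+* ℂ) (hM : IsAnModel Γ h.T_mem F₀)

/-- **The Hecke norm formula in `q`-expansions, with a diamond element**:
`N_α (β f) (Q^p) = f(Q^(p²)) * ∏_{i < p} g(ζ^i Q)` whenever `Φ g = (Φ f) ∘ δ` and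
`δ diag(1,p) ∈ Γ diag(p,1) Γ`. -/
theorem qExpand_norm_alpha_beta (hgen : Generates hM e) (hj : jq ∈ F₀) {δ : SL(2, ℤ)}
    (hδ : ∃ γ₁ ∈ Γ, ∃ γ₂ ∈ Γ, (mapGL ℝ δ : GL (Fin 2) ℝ) * heckeMatrix p 0 =
      mapGL ℝ γ₁ * heckeDiagMatrix p * mapGL ℝ γ₂)
    (f g : ↥(laurentBaseChange L F₀))
    (hfg : toMer Γ (hM.toFunField e g) =
      merComp (mapGL ℝ δ : GL (Fin 2) ℝ) (isIntMat_mapGL δ).det_pos
        (toMer Γ (hM.toFunField e f)))
    {ζ : Lˣ} (hζ : IsPrimitiveRoot ζ p) :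
    qExpand L p
        ((@Algebra.norm ↥(laurentBaseChange L F₀) ↥(laurentBaseChange L (levelP F₀ p)) _ _
          (alphaBar L F₀ p).toRingHom.toAlgebra (betaBar L F₀ p f) :
            ↥(laurentBaseChange L F₀)) : LaurentSeries L) =
      qExpand L (p * p) (f : LaurentSeries L) *
        ∏ i ∈ Finset.range p, twist (ζ ^ i) (g : LaurentSeries L) := by
  have hT : ModularGroup.T ∈ Γ := by
    have := h.T_mem
    rwa [Nat.cast_one, zpow_one] at this
  set ν : ↥(laurentBaseChange L F₀) :=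
    @Algebra.norm ↥(laurentBaseChange L F₀) ↥(laurentBaseChange L (levelP F₀ p)) _ _
      (alphaBar L F₀ p).toRingHom.toAlgebra (betaBar L F₀ p f) with hν
  have hmer := toMer_norm_alpha_betaG_tw h e hM hgen hj hδ f g hfg
  -- the identity in `Frac (WH0 ⟨T^p⟩)`
  have hFF : incFF (p := p) hT (hM.toFunField e ν) =
      hdFF hT (hM.toFunField e f) * ∏ j : ZMod p, hmFF hT j.val (hM.toFunField e g) := by
    apply toMer_injective (GT p)
    rw [map_mul, map_prod, toMer_incFF, toMer_hdFF, hmer]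
    congr 1
    refine Finset.prod_congr rfl fun j _ => ?_
    rw [toMer_hmFF]
  -- `Q`-expansions
  have hQ := congrArg (qExpFFW (GT p) p (T_pow_mem_GT p)) hFF
  rw [map_mul, map_prod, qExpFFW_incFF hT h.T_mem, qExpFFW_hdFF hT h.T_mem,
    hM.qExpFFW_toFunField e, hM.qExpFFW_toFunField e] at hQ
  have hQ' : qExpand ℂ p (coeffMap e (ν : LaurentSeries L)) =
      qExpand ℂ (p * p) (coeffMap e (f : LaurentSeries L)) *
        ∏ j : ZMod p, twist (zetaC p ^ j.val) (coeffMap e (g : LaurentSeries L)) := by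
    rw [hQ]
    congr 1
    refine Finset.prod_congr rfl fun j _ => ?_
    rw [qExpFFW_hmFF hT h.T_mem, hM.qExpFFW_toFunField e]
  -- back to `L`
  have hinj : Function.Injective (coeffMap e : LaurentSeries L → LaurentSeries ℂ) := by
    intro x y hxy
    ext n
    apply e.injective
    rw [← coeffMap_coeff, ← coeffMap_coeff, hxy]
  apply hinj
  rw [map_mul, map_prod, coeffMap_qExpand, coeffMap_qExpand, hQ']
  congr 1
  have hζ' : IsPrimitiveRoot (Units.map (e : L →* ℂ) ζ) p :=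
    hζ.map_of_injective (Units.map_injective (f := (e : L →* ℂ)) e.injective)
  have h1 : ∏ i ∈ Finset.range p, coeffMap e (twist (ζ ^ i) (g : LaurentSeries L)) =
      ∏ i ∈ Finset.range p,
        twist ((Units.map (e : L →* ℂ) ζ) ^ i) (coeffMap e (g : LaurentSeries L)) := by
    refine Finset.prod_congr rfl fun i _ => ?_
    rw [coeffMap_twist, map_pow]
  rw [h1, ← prod_range_eq_prod_zmod'
    (fun j => twist (zetaC p ^ j) (coeffMap e (g : LaurentSeries L)))]
  exact prod_pow_eq_of_isPrimitiveRoot (isPrimitiveRoot_zetaC p) hζ'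
    (fun u => twist u (coeffMap e (g : LaurentSeries L)))

end Main

end Fermat.Agent.S48lib.X1.HeckeJ
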