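/-
S48lib / X1 / HeckeJ / Diamond (helper6).
**Diamond operators on a `q`-model, generically.**  `δ ∈ SL(2,ℤ)` normalising `Γ`:
* `diaWH0 δ hn : WH0 Γ →+* WH0 Γ`, `diaFF δ hn : Frac (WH0 Γ) →+* Frac (WH0 Γ)` (`k ↦ k ∘ δ`),
  `toMer_diaFF`;
* `DiaStable hM e δ hn` : the image of the comparison map `Φ : L F₀ → Frac (WH0 Γ)` is stable under
  `k ↦ k ∘ δ`; it is enough to check it on field generators (`diaStable_of_gen`);
* `diaAlg : L F₀ →ₐ[L] L F₀` with `Φ (dia x) = (Φ x) ∘ δ`, `dia j = j`; `diaEquiv` if `δ⁻¹` is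
  stable too;
* `forall_mem_of_gen` : a subfield of `L F₀` containing the constants and generators is everything
  (used for: `dia` commutes with the arithmetic Galois action, check on generators).
-/
import Mathlib
import Fermat.Agent.S48lib.X1.HeckeJ.QNorm

set_option autoImplicit false
set_option linter.unusedSectionVars false
set_option linter.style.haveILetI false

noncomputable section

namespace Fermat.Agent.S48lib.X1.HeckeJ

open UpperHalfPlane Matrix.SpecialLinearGroup Fermat.Agent.ProgramR CongruenceSubgroup ModularForm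
open ModularCurve IntermediateField Fermat.Agent.ProgramR.LevelOne
open Fermat.Agent.S29lib.H
open scoped MatrixGroups

/-! ### the analytic diamond -/

section An

variable {Γ : Subgroup SL(2, ℤ)} (δ : SL(2, ℤ)) (hn : ∀ γ ∈ Γ, δ * γ * δ⁻¹ ∈ Γ)

/-- `a ↦ a ∘ δ` on `WH0 Γ`, for `δ` normalising `Γ` -/
def diaWH0 : WH0 Γ →+* WH0 Γ where
  toFun a := ⟨fun z => a.1 ((mapGL ℝ δ : GL (Fin 2) ℝ) • z), by
    have h1 := (glTranslate (mapGL ℝ δ) (isIntMat_mapGL δ) (WH0.incl Γ a)).2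
    refine ⟨h1.mdiff, ?_, h1.exists_bdd⟩
    intro γ hγ z
    have h2 : (mapGL ℝ δ : GL (Fin 2) ℝ) • (γ • z) =
        (δ * γ * δ⁻¹) • ((mapGL ℝ δ : GL (Fin 2) ℝ) • z) := by
      show (mapGL ℝ δ : GL (Fin 2) ℝ) • ((mapGL ℝ γ : GL (Fin 2) ℝ) • z) =
        (mapGL ℝ (δ * γ * δ⁻¹) : GL (Fin 2) ℝ) • ((mapGL ℝ δ : GL (Fin 2) ℝ) • z)
      rw [← mul_smul, ← mul_smul, ← map_mul, ← map_mul]
      congr 2
      group
    rw [h2]
    exact a.2.smul_eq _ (hn γ hγ) _⟩
  map_one' := rfl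
  map_mul' _ _ := rfl
  map_zero' := rfl
  map_add' _ _ := rfl

@[simp] theorem diaWH0_apply (a : WH0 Γ) (z : ℍ) :
    (diaWH0 δ hn a).1 z = a.1 ((mapGL ℝ δ : GL (Fin 2) ℝ) • z) := rfl

theorem toHol_diaWH0 (a : WH0 Γ) :
    WH0.toHol Γ (diaWH0 δ hn a) =
      Hol.comp (mapGL ℝ δ) (isIntMat_mapGL δ).det_pos (WH0.toHol Γ a) := rfl

theorem diaWH0_injective : Function.Injective (diaWH0 δ hn) := by
  intro a b hab
  apply WH0.toHol_injective Γ
  apply Hol.comp_injective (mapGL ℝ δ) (isIntMat_mapGL δ).det_pos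
  rw [← toHol_diaWH0 δ hn, ← toHol_diaWH0 δ hn, hab]

theorem diaWH0_const (c : ℂ) : diaWH0 δ hn (algebraMap ℂ (WH0 Γ) c) = algebraMap ℂ (WH0 Γ) c :=
  rfl

theorem diaWH0_j : diaWH0 δ hn (WH0.j Γ) = WH0.j Γ := by
  apply Subtype.ext
  funext z
  show jInv ((mapGL ℝ δ : GL (Fin 2) ℝ) • z) = jInv z
  exact jInv_smul δ z

/-- `k ↦ k ∘ δ` on the analytic function field -/
def diaFF : WH0.FunField Γ →+* WH0.FunField Γ :=
  funFieldMap (diaWH0 δ hn) (diaWH0_injective δ hn)

theorem diaFF_algebraMap (a : WH0 Γ) :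
    diaFF δ hn (algebraMap _ _ a) = algebraMap _ _ (diaWH0 δ hn a) :=
  funFieldMap_algebraMap _ _ a

theorem toMer_diaFF (k : WH0.FunField Γ) :
    toMer Γ (diaFF δ hn k) =
      merComp (mapGL ℝ δ : GL (Fin 2) ℝ) (isIntMat_mapGL δ).det_pos (toMer Γ k) := by
  have : (toMer Γ).comp (diaFF δ hn) =
      (merComp (mapGL ℝ δ : GL (Fin 2) ℝ) (isIntMat_mapGL δ).det_pos).comp (toMer Γ) := by
    apply funField_ringHom_ext
    intro a
    rw [RingHom.comp_apply, RingHom.comp_apply, diaFF_algebraMap, toMer_algebraMap,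
      toMer_algebraMap, merComp_algebraMap, toHol_diaWH0]
  exact congrArg (fun φ : WH0.FunField Γ →+* Mer => φ k) this

theorem diaFF_const (c : ℂ) : diaFF δ hn (algebraMap ℂ _ c) = algebraMap ℂ _ c := by
  rw [IsScalarTower.algebraMap_apply ℂ (WH0 Γ) (WH0.FunField Γ), diaFF_algebraMap, diaWH0_const]

theorem diaFF_j :
    diaFF δ hn (algebraMap _ (WH0.FunField Γ) (WH0.j Γ)) =
      algebraMap _ (WH0.FunField Γ) (WH0.j Γ) := by
  rw [diaFF_algebraMap, diaWH0_j]

end An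

/-! ### subfields of `L F₀` containing generators -/

section Gen

variable {F₀ : IntermediateField ℚ (LaurentSeries ℚ)} {L : Type*} [Field L] [Algebra ℚ L]

/-- a subfield of `L F₀` containing the constants and a set of field generators is everything -/
theorem forall_mem_of_gen (S : Subfield ↥(laurentBaseChange L F₀)) (G : Set (LaurentSeries L))
    (hG : (laurentBaseChange L F₀ : IntermediateField L (LaurentSeries L)) ≤
      IntermediateField.adjoin L G)
    (hc : ∀ c : L, algebraMap L ↥(laurentBaseChange L F₀) c ∈ S)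
    (hgen : ∀ x ∈ G, ∃ hx : x ∈ laurentBaseChange L F₀,
      (⟨x, hx⟩ : ↥(laurentBaseChange L F₀)) ∈ S)
    (x : ↥(laurentBaseChange L F₀)) : x ∈ S := by
  obtain ⟨x, hx⟩ := x
  let K := laurentBaseChange L F₀
  let T : Subfield (LaurentSeries L) := S.map K.val.toRingHom
  have hT : ∀ y, y ∈ T ↔ ∃ hy : y ∈ K, (⟨y, hy⟩ : ↥K) ∈ S := by
    intro y
    constructor
    · rintro ⟨z, hz, rfl⟩
      exact ⟨z.2, hz⟩
    · rintro ⟨hy, hyS⟩
      exact ⟨⟨y, hy⟩, hyS, rfl⟩
  have hle : (IntermediateField.adjoin L G).toSubfield ≤ T := by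
    rw [IntermediateField.adjoin, Subfield.closure_le]
    rintro z (⟨a, rfl⟩ | hzG)
    · exact (hT _).mpr ⟨(algebraMap L ↥K a).2, hc a⟩
    · exact (hT _).mpr (hgen z hzG)
  obtain ⟨_, h⟩ := (hT x).mp (hle (hG hx))
  exact h

end Gen

/-! ### the formal diamond -/

section Formal

variable {Γ : Subgroup SL(2, ℤ)} {hT : ModularGroup.T ^ ((1 : ℕ) : ℤ) ∈ Γ}
variable {F₀ : IntermediateField ℚ (LaurentSeries ℚ)} (hM : IsAnModel Γ hT F₀)
variable {L : Type*} [Field L] [Algebra ℚ L] (e : L →+* ℂ)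
variable (δ : SL(2, ℤ)) (hn : ∀ γ ∈ Γ, δ * γ * δ⁻¹ ∈ Γ)

/-- the image of `Φ` is stable under `k ↦ k ∘ δ` -/
def DiaStable : Prop :=
  ∀ x : ↥(laurentBaseChange L F₀), ∃ y : ↥(laurentBaseChange L F₀),
    hM.toFunField e y = diaFF δ hn (hM.toFunField e x)

/-- the subfield of `L F₀` of elements `x` with `(Φ x) ∘ δ ∈ Φ (L F₀)` -/
def diaSubfield : Subfield ↥(laurentBaseChange L F₀) :=
  (hM.toFunField e).fieldRange.comap ((diaFF δ hn).comp (hM.toFunField e))

theorem mem_diaSubfield (x : ↥(laurentBaseChange L F₀)) :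
    x ∈ diaSubfield hM e δ hn ↔
      ∃ y : ↥(laurentBaseChange L F₀), hM.toFunField e y = diaFF δ hn (hM.toFunField e x) := by
  rw [diaSubfield, Subfield.mem_comap, RingHom.mem_fieldRange]
  rfl

/-- stability can be checked on field generators -/
theorem diaStable_of_gen (G : Set (LaurentSeries L))
    (hG : (laurentBaseChange L F₀ : IntermediateField L (LaurentSeries L)) ≤
      IntermediateField.adjoin L G)
    (hgen : ∀ x ∈ G, ∃ hx : x ∈ laurentBaseChange L F₀, ∃ y : ↥(laurentBaseChange L F₀),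
      hM.toFunField e y = diaFF δ hn (hM.toFunField e ⟨x, hx⟩)) :
    DiaStable hM e δ hn := by
  intro x
  rw [← mem_diaSubfield]
  refine forall_mem_of_gen _ G hG ?_ ?_ x
  · intro c
    rw [mem_diaSubfield]
    exact ⟨algebraMap L _ c, by rw [hM.toFunField_algebraMap, diaFF_const]⟩
  · intro x hx
    obtain ⟨hxK, y, hy⟩ := hgen x hx
    exact ⟨hxK, (mem_diaSubfield hM e δ hn _).mpr ⟨y, hy⟩⟩

/-- `Φ` as an isomorphism onto its range -/
def toFunFieldEquiv : ↥(laurentBaseChange L F₀) ≃+* (hM.toFunField e).fieldRange :=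
  RingEquiv.ofBijective (hM.toFunField e).rangeRestrictField
    ⟨fun a b h => (hM.toFunField e).injective (congrArg Subtype.val h),
     fun ⟨y, hy⟩ => by
      obtain ⟨x, rfl⟩ := RingHom.mem_fieldRange.mp hy
      exact ⟨x, rfl⟩⟩

theorem coe_toFunFieldEquiv (x : ↥(laurentBaseChange L F₀)) :
    ((toFunFieldEquiv hM e x : (hM.toFunField e).fieldRange) : WH0.FunField Γ) =
      hM.toFunField e x := rfl

variable (hst : DiaStable hM e δ hn)

/-- **the formal diamond** as a ring endomorphism of `L F₀` -/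
def diaHom : ↥(laurentBaseChange L F₀) →+* ↥(laurentBaseChange L F₀) :=
  ((toFunFieldEquiv hM e).symm :
      (hM.toFunField e).fieldRange →+* ↥(laurentBaseChange L F₀)).comp
    (((diaFF δ hn).comp (hM.toFunField e)).codRestrict (hM.toFunField e).fieldRange
      (fun x => by
        obtain ⟨y, hy⟩ := hst x
        exact RingHom.mem_fieldRange.mpr ⟨y, hy⟩))

/-- characterisation: `Φ (dia x) = (Φ x) ∘ δ` -/
theorem toFunField_diaHom (x : ↥(laurentBaseChange L F₀)) :
    hM.toFunField e (diaHom hM e δ hn hst x) = diaFF δ hn (hM.toFunField e x) := by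
  have h := coe_toFunFieldEquiv hM e (diaHom hM e δ hn hst x)
  rw [← h]
  simp only [diaHom, RingHom.coe_comp, Function.comp_apply, RingHom.coe_coe,
    RingEquiv.apply_symm_apply]
  rfl

theorem toMer_toFunField_diaHom (x : ↥(laurentBaseChange L F₀)) :
    toMer Γ (hM.toFunField e (diaHom hM e δ hn hst x)) =
      merComp (mapGL ℝ δ : GL (Fin 2) ℝ) (isIntMat_mapGL δ).det_pos
        (toMer Γ (hM.toFunField e x)) := by
  rw [toFunField_diaHom, toMer_diaFF]

theorem diaHom_eq_iff (x y : ↥(laurentBaseChange L F₀)) :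
    diaHom hM e δ hn hst x = y ↔ hM.toFunField e y = diaFF δ hn (hM.toFunField e x) := by
  rw [← toFunField_diaHom hM e δ hn hst x]
  exact ⟨fun h => by rw [h], fun h => (hM.toFunField e).injective h.symm⟩

/-- **the formal diamond** as an `L`-algebra endomorphism -/
def diaAlg : ↥(laurentBaseChange L F₀) →ₐ[L] ↥(laurentBaseChange L F₀) :=
  { diaHom hM e δ hn hst with
    commutes' := fun c => by
      show diaHom hM e δ hn hst (algebraMap L _ c) = algebraMap L _ c
      rw [diaHom_eq_iff, hM.toFunField_algebraMap, diaFF_const] }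

@[simp] theorem diaAlg_apply (x : ↥(laurentBaseChange L F₀)) :
    diaAlg hM e δ hn hst x = diaHom hM e δ hn hst x := rfl

/-- the diamond fixes `j` -/
theorem diaHom_j (x : ↥(laurentBaseChange L F₀)) (hx : (x : LaurentSeries L) = jqModC L) :
    diaHom hM e δ hn hst x = x := by
  rw [diaHom_eq_iff, hM.toFunField_j e x hx, diaFF_j]

end Formal

/-! ### inverse -/

section Inverse

variable {Γ : Subgroup SL(2, ℤ)} {hT : ModularGroup.T ^ ((1 : ℕ) : ℤ) ∈ Γ}
variable {F₀ : IntermediateField ℚ (LaurentSeries ℚ)} (hM : IsAnModel Γ hT F₀)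
variable {L : Type*} [Field L] [Algebra ℚ L] (e : L →+* ℂ)
variable (δ : SL(2, ℤ)) (hn : ∀ γ ∈ Γ, δ * γ * δ⁻¹ ∈ Γ) (hn' : ∀ γ ∈ Γ, δ⁻¹ * γ * δ⁻¹⁻¹ ∈ Γ)

theorem diaWH0_inv_cancel (a : WH0 Γ) : diaWH0 δ⁻¹ hn' (diaWH0 δ hn a) = a := by
  apply Subtype.ext
  funext z
  show a.1 ((mapGL ℝ δ : GL (Fin 2) ℝ) • ((mapGL ℝ δ⁻¹ : GL (Fin 2) ℝ) • z)) = a.1 z
  rw [← mul_smul, ← map_mul, mul_inv_cancel, map_one, one_smul]

theorem diaWH0_cancel_inv (a : WH0 Γ) : diaWH0 δ hn (diaWH0 δ⁻¹ hn' a) = a := by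
  apply Subtype.ext
  funext z
  show a.1 ((mapGL ℝ δ⁻¹ : GL (Fin 2) ℝ) • ((mapGL ℝ δ : GL (Fin 2) ℝ) • z)) = a.1 z
  rw [← mul_smul, ← map_mul, inv_mul_cancel, map_one, one_smul]

theorem diaFF_inv_cancel (k : WH0.FunField Γ) : diaFF δ⁻¹ hn' (diaFF δ hn k) = k := by
  have : (diaFF δ⁻¹ hn').comp (diaFF δ hn) = RingHom.id _ := by
    apply funField_ringHom_ext
    intro a
    rw [RingHom.comp_apply, diaFF_algebraMap, diaFF_algebraMap, diaWH0_inv_cancel]
    rfl
  exact congrArg (fun φ : WH0.FunField Γ →+* WH0.FunField Γ => φ k) this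

theorem diaFF_cancel_inv (k : WH0.FunField Γ) : diaFF δ hn (diaFF δ⁻¹ hn' k) = k := by
  have : (diaFF δ hn).comp (diaFF δ⁻¹ hn') = RingHom.id _ := by
    apply funField_ringHom_ext
    intro a
    rw [RingHom.comp_apply, diaFF_algebraMap, diaFF_algebraMap, diaWH0_cancel_inv]
    rfl
  exact congrArg (fun φ : WH0.FunField Γ →+* WH0.FunField Γ => φ k) this

variable (hst : DiaStable hM e δ hn) (hst' : DiaStable hM e δ⁻¹ hn')

/-- **the formal diamond** as an `L`-algebra automorphism -/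
def diaEquiv : ↥(laurentBaseChange L F₀) ≃ₐ[L] ↥(laurentBaseChange L F₀) :=
  AlgEquiv.ofAlgHom (diaAlg hM e δ hn hst) (diaAlg hM e δ⁻¹ hn' hst')
    (by
      apply AlgHom.ext
      intro x
      show diaHom hM e δ hn hst (diaHom hM e δ⁻¹ hn' hst' x) = x
      rw [diaHom_eq_iff, toFunField_diaHom, diaFF_cancel_inv])
    (by
      apply AlgHom.ext
      intro x
      show diaHom hM e δ⁻¹ hn' hst' (diaHom hM e δ hn hst x) = x
      rw [diaHom_eq_iff, toFunField_diaHom, diaFF_inv_cancel])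

@[simp] theorem diaEquiv_apply (x : ↥(laurentBaseChange L F₀)) :
    diaEquiv hM e δ hn hn' hst hst' x = diaHom hM e δ hn hst x := rfl

end Inverse

/-! ### commutation with the arithmetic Galois action, on generators -/

section Galois

variable {Γ : Subgroup SL(2, ℤ)} {hT : ModularGroup.T ^ ((1 : ℕ) : ℤ) ∈ Γ}
variable {F₀ : IntermediateField ℚ (LaurentSeries ℚ)} (hM : IsAnModel Γ hT F₀)
variable {L : Type*} [Field L] [Algebra ℚ L] (e : L →+* ℂ)
variable (δ : SL(2, ℤ)) (hn : ∀ γ ∈ Γ, δ * γ * δ⁻¹ ∈ Γ) (hst : DiaStable hM e δ hn)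

/-- `dia` commutes with the coefficientwise action of `σ ∈ Aut(L/ℚ)` if it does so on field
generators -/
theorem diaHom_arithmeticRingAut_of_gen (σ : L ≃ₐ[ℚ] L) (G : Set (LaurentSeries L))
    (hG : (laurentBaseChange L F₀ : IntermediateField L (LaurentSeries L)) ≤
      IntermediateField.adjoin L G)
    (hgen : ∀ x ∈ G, ∃ hx : x ∈ laurentBaseChange L F₀,
      diaHom hM e δ hn hst (arithmeticRingAut F₀ σ ⟨x, hx⟩) =
        arithmeticRingAut F₀ σ (diaHom hM e δ hn hst ⟨x, hx⟩))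
    (x : ↥(laurentBaseChange L F₀)) :
    diaHom hM e δ hn hst (arithmeticRingAut F₀ σ x) =
      arithmeticRingAut F₀ σ (diaHom hM e δ hn hst x) := by
  let f₁ : ↥(laurentBaseChange L F₀) →+* ↥(laurentBaseChange L F₀) :=
    (diaHom hM e δ hn hst).comp (arithmeticRingAut F₀ σ : _ ≃+* _).toRingHom
  let f₂ : ↥(laurentBaseChange L F₀) →+* ↥(laurentBaseChange L F₀) :=
    (arithmeticRingAut F₀ σ : _ ≃+* _).toRingHom.comp (diaHom hM e δ hn hst)
  have h : x ∈ RingHom.eqLocusField f₁ f₂ := by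
    refine forall_mem_of_gen _ G hG ?_ ?_ x
    · intro c
      show diaHom hM e δ hn hst (arithmeticRingAut F₀ σ (algebraMap L _ c)) =
        arithmeticRingAut F₀ σ (diaHom hM e δ hn hst (algebraMap L _ c))
      have h1 : ∀ a : L, diaHom hM e δ hn hst (algebraMap L _ a) = algebraMap L _ a :=
        fun a => (diaAlg hM e δ hn hst).commutes a
      rw [arithmeticRingAut_algebraMap, h1, h1, arithmeticRingAut_algebraMap]
    · intro y hy
      obtain ⟨hyK, h1⟩ := hgen y hy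
      exact ⟨hyK, h1⟩
  exact h

end Galois

end Fermat.Agent.S48lib.X1.HeckeJ
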