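/-
S48lib / X1 / HeckeJ / QExpGen (helper6).
The `q`-expansion at `i∞` on the analytic function field `Frac (WH0 Γ)` of ANY subgroup
`Γ ≤ SL(2,ℤ)` with `T^w ∈ Γ` (`w ≥ 1` the width, local parameter `Q = e(τ / w)`):
`qExpW Γ w hT : WH0 Γ →+* ℂ((Q))`, `qExpFFW Γ w hT : WH0.FunField Γ →+* ℂ((Q))`, injective;
constants; functoriality in `Γ` (inclusion `Γ' ≤ Γ`, same width); change of width
(`Q_{nw}`-expansion = `Q_w`-expansion with `Q ↦ Q^n`); translation `τ ↦ τ + 1`
(coefficientwise twist by `e(1/w)`); scaling `τ ↦ d τ` in width one (`q ↦ q^d`).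
Generic version of `ProgramR/BarField/ToFunField` (which is the case `Γ = Γ₀(N)`, `w = 1`).
-/
import Mathlib
import Fermat.Prelude.Def_ModularCurve_X0ModL
import Fermat.Agent.ProgramR.BarField.ToFunField
import Fermat.Agent.ProgramR.CuspLocal.Twist
import Fermat.Agent.S29lib.H.MerComp

set_option autoImplicit false
set_option linter.unusedSectionVars false
set_option linter.style.haveILetI false

noncomputable section

namespace Fermat.Agent.S48lib.X1.HeckeJ

open Complex Filter Function Topology CongruenceSubgroup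
open UpperHalfPlane hiding I
open scoped Real Manifold MatrixGroups
open ModularCurve Fermat.Agent.ProgramR Fermat.Agent.ProgramR.QExp Fermat.Agent.ProgramR.LevelOne
open Fermat.Agent.S29lib.H

section Def

variable (Γ : Subgroup SL(2, ℤ)) (w : ℕ) [NeZero w]

theorem width_pos_real : (0 : ℝ) < (w : ℝ) := Nat.cast_pos.mpr (NeZero.pos w)

variable (hT : ModularGroup.T ^ (w : ℤ) ∈ Γ)

include hT in
/-- elements of `WH0 Γ` are `w`-periodic and meromorphic at `i∞` -/
theorem mem_merRing_of_mem_WH0_width {h : ℍ → ℂ} (hh : h ∈ WH0 Γ) :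
    h ∈ merRing (w : ℝ) (width_pos_real w) := by
  have hT' : (1 : SL(2, ℤ))⁻¹ * (ModularGroup.T ^ (w : ℤ) * 1) ∈ Γ := by simpa using hT
  obtain ⟨m, hm⟩ := CuspLocal.exists_isMeroAtInfty_slTranslate (mem_WH0.mp hh) 1
    (NeZero.pos w) hT'
  rw [CuspLocal.slTranslate_one] at hm
  exact ⟨m, hm⟩

/-- the inclusion `WH0 Γ → merRing w` -/
def wh0ToMerW : ↥(WH0 Γ) →+* merRing (w : ℝ) (width_pos_real w) where
  toFun h := ⟨h.1, mem_merRing_of_mem_WH0_width Γ w hT h.2⟩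
  map_one' := rfl
  map_mul' _ _ := rfl
  map_zero' := rfl
  map_add' _ _ := rfl

theorem wh0ToMerW_injective : Function.Injective (wh0ToMerW Γ w hT) := by
  intro a b h
  exact Subtype.ext (congrArg (fun f : merRing (w : ℝ) (width_pos_real w) => (f : ℍ → ℂ)) h)

/-- **the `Q`-expansion at `i∞`** on `WH0 Γ`, `Q = e(τ/w)` -/
def qExpW : ↥(WH0 Γ) →+* LaurentSeries ℂ :=
  (laurentExpHom (w : ℝ) (width_pos_real w)).comp (wh0ToMerW Γ w hT)

theorem qExpW_apply (h : ↥(WH0 Γ)) : qExpW Γ w hT h = laurentExp (w : ℝ) (h : ℍ → ℂ) := rfl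

theorem qExpW_injective : Function.Injective (qExpW Γ w hT) :=
  (laurentExpHom_injective (w : ℝ) (width_pos_real w)).comp (wh0ToMerW_injective Γ w hT)

/-- **the `Q`-expansion at `i∞`** on the function field `Frac (WH0 Γ)` -/
def qExpFFW : WH0.FunField Γ →+* LaurentSeries ℂ :=
  IsFractionRing.lift (qExpW_injective Γ w hT)

theorem qExpFFW_algebraMap (h : ↥(WH0 Γ)) :
    qExpFFW Γ w hT (algebraMap _ (WH0.FunField Γ) h) = laurentExp (w : ℝ) (h : ℍ → ℂ) :=
  IsFractionRing.lift_algebraMap _ h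

theorem qExpFFW_injective : Function.Injective (qExpFFW Γ w hT) := (qExpFFW Γ w hT).injective

theorem qExpFFW_const (c : ℂ) :
    qExpFFW Γ w hT (algebraMap _ (WH0.FunField Γ) (algebraMap ℂ (WH0 Γ) c)) = HahnSeries.C c := by
  rw [qExpFFW_algebraMap]
  exact laurentExp_const (width_pos_real w) c

theorem qExpFFW_const' (c : ℂ) :
    qExpFFW Γ w hT (algebraMap ℂ (WH0.FunField Γ) c) = HahnSeries.C c := by
  rw [IsScalarTower.algebraMap_apply ℂ (WH0 Γ) (WH0.FunField Γ), qExpFFW_const]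

/-- the `Q`-expansion of `j` in width one is `j(q)` -/
theorem qExpFFW_j (hT1 : ModularGroup.T ^ ((1 : ℕ) : ℤ) ∈ Γ) :
    qExpFFW Γ 1 hT1 (algebraMap _ (WH0.FunField Γ) (WH0.j Γ)) = jqModC ℂ := by
  rw [qExpFFW_algebraMap]
  show laurentExp ((1 : ℕ) : ℝ) jInv = jqModC ℂ
  rw [Nat.cast_one]
  exact laurentExp_jInv

end Def

/-! ### comparison with the `Γ₀(N)` version -/

theorem T_pow_one_mem_Gamma0 (N : ℕ) : ModularGroup.T ^ ((1 : ℕ) : ℤ) ∈ Gamma0 N := by
  rw [Nat.cast_one, zpow_one, Gamma0_mem]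
  simp [ModularGroup.T]

theorem qExpFFW_Gamma0 (N : ℕ) [NeZero N] :
    qExpFFW (Gamma0 N) 1 (T_pow_one_mem_Gamma0 N) = BarField.qExpFF N := by
  apply funField_ringHom_ext
  intro a
  rw [qExpFFW_algebraMap, BarField.qExpFF_algebraMap, Nat.cast_one]

/-! ### functoriality in `Γ` -/

section Incl

variable {Γ Γ' : Subgroup SL(2, ℤ)} (hle : Γ' ≤ Γ) (w : ℕ) [NeZero w]
  (hT : ModularGroup.T ^ (w : ℤ) ∈ Γ) (hT' : ModularGroup.T ^ (w : ℤ) ∈ Γ')

/-- `WH0 Γ ⊆ WH0 Γ'` for `Γ' ≤ Γ` -/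
def inclWH0 : WH0 Γ →+* WH0 Γ' :=
  (Subalgebra.inclusion (WH0_mono hle) : WH0 Γ →ₐ[ℂ] WH0 Γ').toRingHom

@[simp] theorem inclWH0_apply (a : WH0 Γ) (z : ℍ) : (inclWH0 hle a).1 z = a.1 z := rfl

theorem inclWH0_injective : Function.Injective (inclWH0 hle) := by
  intro a b h
  apply Subtype.ext
  exact congrArg (fun c : WH0 Γ' => c.1) h

theorem qExpW_inclWH0 (a : WH0 Γ) : qExpW Γ' w hT' (inclWH0 hle a) = qExpW Γ w hT a := rfl

end Incl

/-! ### change of width -/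

section Width

variable (Γ : Subgroup SL(2, ℤ)) (w : ℕ) [NeZero w] (hT : ModularGroup.T ^ (w : ℤ) ∈ Γ)
  (n : ℕ) [NeZero n]

instance neZero_mul_width : NeZero (n * w) := ⟨Nat.mul_ne_zero (NeZero.ne n) (NeZero.ne w)⟩

include hT in
theorem T_pow_mul_mem : ModularGroup.T ^ ((n * w : ℕ) : ℤ) ∈ Γ := by
  have h := Γ.pow_mem hT n
  rw [← zpow_natCast, ← zpow_mul] at h
  have e : (w : ℤ) * (n : ℤ) = ((n * w : ℕ) : ℤ) := by push_cast; ring
  rwa [e] at h

/-- the expansion in `Q_{nw} = e(τ/(nw))` is the expansion in `Q_w` with `Q_w = Q_{nw}^n` -/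
theorem qExpFFW_mul_width (k : WH0.FunField Γ) :
    qExpFFW Γ (n * w) (T_pow_mul_mem Γ w hT n) k = qExpand ℂ n (qExpFFW Γ w hT k) := by
  have : qExpFFW Γ (n * w) (T_pow_mul_mem Γ w hT n) = (qExpand ℂ n).comp (qExpFFW Γ w hT) := by
    apply funField_ringHom_ext
    intro a
    rw [RingHom.comp_apply, qExpFFW_algebraMap, qExpFFW_algebraMap]
    obtain ⟨m, hm⟩ := mem_merRing_of_mem_WH0_width Γ w hT a.2
    have h1 := laurentExp_period_mul (width_pos_real w) (n := n) hm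
    rw [← h1]
    congr 1
    push_cast
    ring
  exact congrArg (fun φ : WH0.FunField Γ →+* LaurentSeries ℂ => φ k) this

end Width

/-! ### translation `τ ↦ τ + c` -/

section Translate

variable (Γ : Subgroup SL(2, ℤ)) (w : ℕ) [NeZero w] (hT : ModularGroup.T ^ (w : ℤ) ∈ Γ)

/-- if `b(τ) = a(τ + c)` then the `n`-th coefficient of `b` is `e(c/w)^n` times that of `a` -/
theorem qExpW_coeff_of_vadd (a b : WH0 Γ) (c : ℝ) (hc : ∀ τ : ℍ, b.1 τ = a.1 (c +ᵥ τ)) (n : ℤ) :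
    (qExpW Γ w hT b).coeff n =
      CuspLocal.twistFactor (w : ℝ) c ^ n * (qExpW Γ w hT a).coeff n := by
  obtain ⟨m, hm⟩ := mem_merRing_of_mem_WH0_width Γ w hT a.2
  exact (CuspLocal.laurentExp_coeff_of_vadd (width_pos_real w) hm b.2.mdiff c hc).2 n

end Translate

/-! ### scaling `τ ↦ d τ`, width one -/

section Scale

variable {Γ Γ' : Subgroup SL(2, ℤ)} (hT : ModularGroup.T ^ ((1 : ℕ) : ℤ) ∈ Γ)
  (hT' : ModularGroup.T ^ ((1 : ℕ) : ℤ) ∈ Γ') (d : ℕ) [NeZero d]

/-- if `b(τ) = a(d τ)` then the `q`-expansion of `b` is that of `a` with `q ↦ q^d` -/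
theorem qExpW_of_scale (a : WH0 Γ) (b : WH0 Γ') (φ : ℍ → ℍ)
    (hφ : ∀ τ : ℍ, (φ τ : ℂ) = (d : ℂ) * τ) (hb : ∀ τ : ℍ, b.1 τ = a.1 (φ τ)) :
    qExpW Γ' 1 hT' b = qExpand ℂ d (qExpW Γ 1 hT a) := by
  obtain ⟨m, hm⟩ := mem_merRing_of_mem_WH0_width Γ 1 hT a.2
  rw [Nat.cast_one] at hm
  have h1 := laurentExp_scale (d := d) hm φ hφ
  rw [qExpW_apply, qExpW_apply, Nat.cast_one]
  rw [← h1]
  congr 1
  funext τ
  exact hb τ

end Scale

/-! ### the comparison map from a `q`-model -/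

section Compare

variable (Γ : Subgroup SL(2, ℤ)) (hT : ModularGroup.T ^ ((1 : ℕ) : ℤ) ∈ Γ)
variable (F₀ : IntermediateField ℚ (LaurentSeries ℚ))

/-- `F₀` is an **analytic `q`-model of `Γ`**: its elements are `q`-expansions (width one, at
`i∞`) of elements of the analytic function field `Frac (WH0 Γ)`. -/
def IsAnModel : Prop :=
  ∀ y ∈ F₀, coeffMap (algebraMap ℚ ℂ) y ∈ (qExpFFW Γ 1 hT).fieldRange

/-- it is enough to check generators -/
theorem isAnModel_adjoin (S : Set (LaurentSeries ℚ))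
    (hS : ∀ y ∈ S, coeffMap (algebraMap ℚ ℂ) y ∈ (qExpFFW Γ 1 hT).fieldRange) :
    IsAnModel Γ hT (IntermediateField.adjoin ℚ S) := by
  intro y hy
  let T : Subfield (LaurentSeries ℚ) :=
    (qExpFFW Γ 1 hT).fieldRange.comap (coeffMap (algebraMap ℚ ℂ))
  suffices h : (IntermediateField.adjoin ℚ S).toSubfield ≤ T from h hy
  rw [IntermediateField.adjoin, Subfield.closure_le]
  rintro x (⟨a, rfl⟩ | hx)
  · show coeffMap (algebraMap ℚ ℂ) (algebraMap ℚ (LaurentSeries ℚ) a) ∈ (qExpFFW Γ 1 hT).fieldRange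
    rw [RingHom.mem_fieldRange]
    refine ⟨algebraMap _ _ (algebraMap ℂ (WH0 Γ) (algebraMap ℚ ℂ a)), ?_⟩
    rw [qExpFFW_const, algebraMap_laurentSeries_eq_single, coeffMap_single]
    rfl
  · exact hS x hx

variable {Γ hT F₀}
variable {L : Type*} [Field L] [Algebra ℚ L] (e : L →+* ℂ)

theorem IsAnModel.coeffMap_mem (hM : IsAnModel Γ hT F₀) {x : LaurentSeries L}
    (hx : x ∈ laurentBaseChange L F₀) : coeffMap e x ∈ (qExpFFW Γ 1 hT).fieldRange := by
  let T : Subfield (LaurentSeries L) := (qExpFFW Γ 1 hT).fieldRange.comap (coeffMap e)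
  suffices h : (laurentBaseChange L F₀).toSubfield ≤ T from h hx
  rw [laurentBaseChange, IntermediateField.adjoin, Subfield.closure_le]
  rintro x (⟨a, rfl⟩ | ⟨y, hy, rfl⟩)
  · show coeffMap e (algebraMap L (LaurentSeries L) a) ∈ (qExpFFW Γ 1 hT).fieldRange
    rw [RingHom.mem_fieldRange]
    refine ⟨algebraMap _ _ (algebraMap ℂ (WH0 Γ) (e a)), ?_⟩
    rw [qExpFFW_const, BarField.coeffMap_algebraMap']
  · show coeffMap e (coeffEmb L y) ∈ (qExpFFW Γ 1 hT).fieldRange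
    rw [BarField.coeffMap_coeffEmb]
    exact hM y hy

variable (Γ hT) in
/-- `qExpFFW` as an isomorphism onto its range -/
def qExpFFWEquiv : WH0.FunField Γ ≃+* (qExpFFW Γ 1 hT).fieldRange :=
  RingEquiv.ofBijective (qExpFFW Γ 1 hT).rangeRestrictField
    ⟨fun a b h => qExpFFW_injective Γ 1 hT (congrArg Subtype.val h),
     fun ⟨y, hy⟩ => by
      obtain ⟨x, rfl⟩ := RingHom.mem_fieldRange.mp hy
      exact ⟨x, rfl⟩⟩

theorem coe_qExpFFWEquiv (x : WH0.FunField Γ) :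
    ((qExpFFWEquiv Γ hT x : (qExpFFW Γ 1 hT).fieldRange) : LaurentSeries ℂ) = qExpFFW Γ 1 hT x :=
  rfl

/-- **the comparison map** `Φ : L F₀ →+* Frac (WH0 Γ)` of an analytic `q`-model -/
def IsAnModel.toFunField (hM : IsAnModel Γ hT F₀) :
    ↥(laurentBaseChange L F₀) →+* WH0.FunField Γ :=
  ((qExpFFWEquiv Γ hT).symm : (qExpFFW Γ 1 hT).fieldRange →+* WH0.FunField Γ).comp
    (((coeffMap e).comp (laurentBaseChange L F₀).val.toRingHom).codRestrict
      (qExpFFW Γ 1 hT).fieldRange (fun x => hM.coeffMap_mem e x.2))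

/-- characterisation: the `q`-expansion of `Φ x` is `x` with coefficients mapped by `e` -/
theorem IsAnModel.qExpFFW_toFunField (hM : IsAnModel Γ hT F₀) (x : ↥(laurentBaseChange L F₀)) :
    qExpFFW Γ 1 hT (hM.toFunField e x) = coeffMap e (x : LaurentSeries L) := by
  have h := coe_qExpFFWEquiv (Γ := Γ) (hT := hT) (hM.toFunField e x)
  rw [← h]
  simp only [IsAnModel.toFunField, RingHom.coe_comp, Function.comp_apply, RingHom.coe_coe,
    RingEquiv.apply_symm_apply]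
  rfl

theorem IsAnModel.toFunField_eq_iff (hM : IsAnModel Γ hT F₀) (x : ↥(laurentBaseChange L F₀))
    (y : WH0.FunField Γ) :
    hM.toFunField e x = y ↔ coeffMap e (x : LaurentSeries L) = qExpFFW Γ 1 hT y := by
  rw [← hM.qExpFFW_toFunField e]
  exact ⟨fun h => by rw [h], fun h => qExpFFW_injective Γ 1 hT h⟩

theorem IsAnModel.toFunField_injective (hM : IsAnModel Γ hT F₀) :
    Function.Injective (hM.toFunField e) := (hM.toFunField e).injective

theorem IsAnModel.toFunField_algebraMap (hM : IsAnModel Γ hT F₀) (a : L) :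
    hM.toFunField e (algebraMap L _ a) = algebraMap ℂ (WH0.FunField Γ) (e a) := by
  rw [hM.toFunField_eq_iff, qExpFFW_const']
  exact BarField.coeffMap_algebraMap' e a

/-- the comparison map sends `j(q)` to `j` -/
theorem IsAnModel.toFunField_j (hM : IsAnModel Γ hT F₀) (x : ↥(laurentBaseChange L F₀))
    (hx : (x : LaurentSeries L) = jqModC L) :
    hM.toFunField e x = algebraMap _ (WH0.FunField Γ) (WH0.j Γ) := by
  rw [hM.toFunField_eq_iff, qExpFFW_j, hx, coeffMap_jqModC]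

end Compare

end Fermat.Agent.S48lib.X1.HeckeJ
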