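/-
S48lib / X1 / HeckeJ / QModel (helper6).
Layer A of block P4: `IsQModel F₀` (`j(q) ∈ F₀`, `ℚ̄ F₀` finite over `ℚ̄(j)`), its inheritance by
`levelP F₀ p`, the function-field package over `ℚ̄` (principal divisors, places of degree one),
finiteness / integrality / separability of `α` and `β`, the fundamental identity and the norm
formula along both, and the two Hecke correspondences
`TJstd F₀ p = α_* β^*`, `TJtr F₀ p = β_* α^*` on `Pic⁰ (ℚ̄ F₀)`, which commute with `G_ℚ`.
-/
import Mathlib
import Fermat.Agent.S48lib.X1.HeckeJ.LevelP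
import Fermat.Agent.S37lib.HeckeInst.Final
import Fermat.Agent.S29lib.GH.Intertwine

set_option autoImplicit false
set_option linter.unusedSectionVars false
set_option linter.style.haveILetI false

noncomputable section

namespace Fermat.Agent.S48lib.X1.HeckeJ

open ModularCurve AlgebraicCurve IntermediateField HahnSeries AlgebraicCurve.SemilinearAut
open Fermat.Agent.ProgramR Fermat.Agent.ProgramR.BarField
open Fermat.Agent.S37lib.HeckeInst

local notation "Qb" => AlgebraicClosure ℚ
local notation "GQ" => (AlgebraicClosure ℚ ≃ₐ[ℚ] AlgebraicClosure ℚ)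

/-- the function field over `ℚ̄` of the `q`-model `F₀` -/
abbrev FBq (F₀ : IntermediateField ℚ (LaurentSeries ℚ)) : Type := ↥(laurentBaseChange Qb F₀)

section Defs

variable (F₀ : IntermediateField ℚ (LaurentSeries ℚ))

theorem jqModC_mem (hj : jq ∈ F₀) : jqModC Qb ∈ laurentBaseChange Qb F₀ := by
  rw [← coeffEmb_jq]
  exact coeffEmb_mem_laurentBaseChange Qb hj

/-- `j(q)` in the function field -/
def jBq (hj : jq ∈ F₀) : FBq F₀ := ⟨jqModC Qb, jqModC_mem F₀ hj⟩

@[simp] theorem coe_jBq (hj : jq ∈ F₀) : ((jBq F₀ hj : FBq F₀) : LaurentSeries Qb) = jqModC Qb :=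
  rfl

theorem transcendental_jBq (hj : jq ∈ F₀) : Transcendental Qb (jBq F₀ hj) := by
  intro halg
  obtain ⟨P, hP0, hP⟩ := halg
  apply aeval_jqModC_ne_zero Qb hP0
  have h := Polynomial.aeval_algHom_apply (laurentBaseChange Qb F₀).val (jBq F₀ hj) P
  rw [hP, map_zero] at h
  exact h

/-- **a `q`-model of a modular curve**: contains `j(q)`, and is finite over `ℚ̄(j)` after base
change to `ℚ̄`. -/
structure IsQModel : Prop where
  jq_mem : jq ∈ F₀
  finite : FiniteDimensional Qb⟮jBq F₀ jq_mem⟯ (FBq F₀)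

end Defs

/-! ### the models `X₀(N)` -/

theorem isIntegral_qExpand_jqModC (p : ℕ) [NeZero p] :
    IsIntegral Qb⟮jqModC Qb⟯ (qExpand Qb p (jqModC Qb)) := by
  have h := isIntegral_coe_of_finite (modularFunctionFieldBar p) (jBar Qb p) (jNBar (L := Qb) p)
  rw [coe_jNBar, coeffEmb_qExpand, coeffEmb_jq] at h
  have h2 : ((jBar Qb p : FBar Qb p) : LaurentSeries Qb) = jqModC Qb := coe_jBar Qb p
  rw [h2] at h
  exact h

theorem isQModel_full (N : ℕ) [NeZero N] : IsQModel (modularFunctionFieldFull N) where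
  jq_mem := by
    have h := jqd_mem_full N (one_dvd N)
    rwa [qExpand_one_apply] at h
  finite := by
    have h : FiniteDimensional Qb⟮jBar Qb N⟯ (FBar Qb N) := inferInstance
    have h2 : jBar Qb N = jBq (modularFunctionFieldFull N) (by
        have h := jqd_mem_full N (one_dvd N)
        rwa [qExpand_one_apply] at h) :=
      Subtype.ext (coe_jBar Qb N)
    rw [h2] at h
    exact h

/-! ### inheritance by the level `p` model -/

section Inherit

variable {F₀ : IntermediateField ℚ (LaurentSeries ℚ)} (p : ℕ) [NeZero p]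

theorem IsQModel.levelP (h : IsQModel F₀) : IsQModel (levelP F₀ p) where
  jq_mem := le_levelP F₀ p h.jq_mem
  finite := by
    haveI := h.finite
    exact finite_of_le_sup_map (laurentBaseChange Qb F₀) (jBq F₀ h.jq_mem) (qExpandAlg Qb p)
      (isIntegral_qExpand_jqModC p) (laurentBaseChange Qb (HeckeJ.levelP F₀ p))
      (laurentBaseChange_levelP_le Qb F₀ p) (jqModC_mem _ (le_levelP F₀ p h.jq_mem))

end Inherit

/-! ### the function field package -/

namespace IsQModel

variable {F₀ : IntermediateField ℚ (LaurentSeries ℚ)} (h : IsQModel F₀)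

include h

theorem hasPrincipalDivisors : HasPrincipalDivisors Qb (FBq F₀) :=
  haveI := h.finite
  FF.hasPrincipalDivisors (jBq F₀ h.jq_mem) (transcendental_jBq F₀ h.jq_mem)

theorem deg_eq_one (v : Place Qb (FBq F₀)) : v.deg = 1 :=
  haveI := h.finite
  FF.deg_eq_one (jBq F₀ h.jq_mem) v

theorem deg_ne_zero (v : Place Qb (FBq F₀)) : v.deg ≠ 0 := by
  rw [h.deg_eq_one v]
  exact one_ne_zero

theorem finiteDimensional_adjoin {f : FBq F₀} (hf : Transcendental Qb f) :
    FiniteDimensional Qb⟮f⟯ (FBq F₀) :=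
  haveI := h.finite
  FF.finiteDimensional_adjoin_of_transcendental (jBq F₀ h.jq_mem) hf

end IsQModel

/-! ### the two maps `α`, `β` over `ℚ̄` -/

section AlphaBeta

variable {F₀ : IntermediateField ℚ (LaurentSeries ℚ)} (h : IsQModel F₀) (p : ℕ) [NeZero p]

include h

theorem alphaBar_jBq :
    alphaBar Qb F₀ p (jBq F₀ h.jq_mem) = jBq (levelP F₀ p) (h.levelP p).jq_mem :=
  Subtype.ext (coe_alphaBar Qb F₀ p _)

theorem finite_alpha :
    letI := algebraAlong (alphaBar Qb F₀ p); Module.Finite (FBq F₀) (FBq (levelP F₀ p)) :=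
  haveI := (h.levelP p).finite
  finite_along (alphaBar Qb F₀ p) (jBq F₀ h.jq_mem) _ (alphaBar_jBq h p)

theorem finite_beta :
    letI := algebraAlong (betaBar Qb F₀ p); Module.Finite (FBq F₀) (FBq (levelP F₀ p)) := by
  haveI : FiniteDimensional Qb⟮betaBar Qb F₀ p (jBq F₀ h.jq_mem)⟯ (FBq (levelP F₀ p)) :=
    (h.levelP p).finiteDimensional_adjoin
      (transcendental_map _ (transcendental_jBq F₀ h.jq_mem))
  exact finite_along (betaBar Qb F₀ p) (jBq F₀ h.jq_mem) _ rfl

theorem alphaBar_isIntegral : (alphaBar Qb F₀ p).toRingHom.IsIntegral :=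
  isIntegral_toRingHom_of_finite _ (finite_alpha h p)

theorem betaBar_isIntegral : (betaBar Qb F₀ p).toRingHom.IsIntegral :=
  isIntegral_toRingHom_of_finite _ (finite_beta h p)

theorem finiteAlong_alpha : FiniteAlong Qb (alphaBar Qb F₀ p) := finite_alpha h p

theorem finiteAlong_beta : FiniteAlong Qb (betaBar Qb F₀ p) := finite_beta h p

theorem isSeparable_alpha :
    letI := algebraAlong (alphaBar Qb F₀ p);
    Algebra.IsSeparable (FBq F₀) (FBq (levelP F₀ p)) :=
  isSeparable_along _ (finite_alpha h p)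

theorem isSeparable_beta :
    letI := algebraAlong (betaBar Qb F₀ p);
    Algebra.IsSeparable (FBq F₀) (FBq (levelP F₀ p)) :=
  isSeparable_along _ (finite_beta h p)

theorem fundamentalIdentityAlong_beta :
    haveI := (h.levelP p).hasPrincipalDivisors;
    FundamentalIdentityAlong Qb (betaBar Qb F₀ p) (betaBar_isIntegral h p) := by
  haveI := (h.levelP p).hasPrincipalDivisors
  letI := algebraAlong (betaBar Qb F₀ p)
  haveI := isScalarTower_along (betaBar Qb F₀ p)
  haveI : FiniteDimensional (FBq F₀) (FBq (levelP F₀ p)) := finite_beta h p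
  haveI : Algebra.IsSeparable (FBq F₀) (FBq (levelP F₀ p)) := isSeparable_beta h p
  exact Fermat.Agent.S37lib.Tower.fundamentalIdentity ((h.levelP p).deg_eq_one)

theorem fundamentalIdentityAlong_alpha :
    haveI := (h.levelP p).hasPrincipalDivisors;
    FundamentalIdentityAlong Qb (alphaBar Qb F₀ p) (alphaBar_isIntegral h p) := by
  haveI := (h.levelP p).hasPrincipalDivisors
  letI := algebraAlong (alphaBar Qb F₀ p)
  haveI := isScalarTower_along (alphaBar Qb F₀ p)
  haveI : FiniteDimensional (FBq F₀) (FBq (levelP F₀ p)) := finite_alpha h p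
  haveI : Algebra.IsSeparable (FBq F₀) (FBq (levelP F₀ p)) := isSeparable_alpha h p
  exact Fermat.Agent.S37lib.Tower.fundamentalIdentity ((h.levelP p).deg_eq_one)

theorem normFormulaAlong_alpha :
    NormFormulaAlong Qb (alphaBar Qb F₀ p) (finiteAlong_alpha h p) := by
  haveI := (h.levelP p).hasPrincipalDivisors
  letI := algebraAlong (alphaBar Qb F₀ p)
  haveI := isScalarTower_along (alphaBar Qb F₀ p)
  haveI : FiniteDimensional (FBq F₀) (FBq (levelP F₀ p)) := finite_alpha h p
  haveI : Algebra.IsSeparable (FBq F₀) (FBq (levelP F₀ p)) := isSeparable_alpha h p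
  exact Fermat.Agent.S37lib.Tower.pushforwardNormFormula ((h.levelP p).deg_eq_one)

theorem normFormulaAlong_beta :
    NormFormulaAlong Qb (betaBar Qb F₀ p) (finiteAlong_beta h p) := by
  haveI := (h.levelP p).hasPrincipalDivisors
  letI := algebraAlong (betaBar Qb F₀ p)
  haveI := isScalarTower_along (betaBar Qb F₀ p)
  haveI : FiniteDimensional (FBq F₀) (FBq (levelP F₀ p)) := finite_beta h p
  haveI : Algebra.IsSeparable (FBq F₀) (FBq (levelP F₀ p)) := isSeparable_beta h p
  exact Fermat.Agent.S37lib.Tower.pushforwardNormFormula ((h.levelP p).deg_eq_one)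

/-- **the correspondence `α_* β^*` on `Pic⁰`** (function level: `f ↦ N_α (β f)`) -/
def TJstd : Pic0 Qb (FBq F₀) →+ Pic0 Qb (FBq F₀) :=
  haveI := (h.levelP p).hasPrincipalDivisors
  Pic0.correspondence (betaBar Qb F₀ p) (alphaBar Qb F₀ p) (betaBar_isIntegral h p)
    (alphaBar_isIntegral h p) (fundamentalIdentityAlong_beta h p) (finiteAlong_alpha h p)
    (normFormulaAlong_alpha h p)

/-- **the transposed correspondence `β_* α^*` on `Pic⁰`** (function level: `f ↦ N_β (α f)`) -/
def TJtr : Pic0 Qb (FBq F₀) →+ Pic0 Qb (FBq F₀) :=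
  haveI := (h.levelP p).hasPrincipalDivisors
  Pic0.correspondence (alphaBar Qb F₀ p) (betaBar Qb F₀ p) (alphaBar_isIntegral h p)
    (betaBar_isIntegral h p) (fundamentalIdentityAlong_alpha h p) (finiteAlong_beta h p)
    (normFormulaAlong_beta h p)

end AlphaBeta

/-! ### Galois equivariance -/

section Galois

variable {F₀ : IntermediateField ℚ (LaurentSeries ℚ)} (h : IsQModel F₀) (p : ℕ) [NeZero p]

/-- `σ ∈ G_ℚ` as a semilinear automorphism of the function field of the model -/
abbrev galAutQ (F₀ : IntermediateField ℚ (LaurentSeries ℚ)) (σ : GQ) :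
    SemilinearAut Qb (FBq F₀) :=
  arithmeticGalois F₀ σ

theorem galois_smul_eq (σ : GQ) (x : Pic0 Qb (FBq F₀)) : σ • x = galAutQ F₀ σ • x := rfl

theorem intertwines_alphaBar (σ : GQ) :
    IntertwinesAlong (alphaBar Qb F₀ p).toRingHom (galAutQ F₀ σ) (galAutQ (levelP F₀ p) σ) := by
  intro x
  apply Subtype.ext
  show ((galAutQ (levelP F₀ p) σ • (alphaBar Qb F₀ p x) : FBq (levelP F₀ p)) :
      LaurentSeries Qb) =
    ((alphaBar Qb F₀ p (galAutQ F₀ σ • x) : FBq (levelP F₀ p)) : LaurentSeries Qb)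
  rw [coe_alphaBar, coe_arithmeticGalois_smul, coe_arithmeticGalois_smul, coe_alphaBar]

theorem intertwines_betaBar (σ : GQ) :
    IntertwinesAlong (betaBar Qb F₀ p).toRingHom (galAutQ F₀ σ) (galAutQ (levelP F₀ p) σ) := by
  intro x
  apply Subtype.ext
  show ((galAutQ (levelP F₀ p) σ • (betaBar Qb F₀ p x) : FBq (levelP F₀ p)) :
      LaurentSeries Qb) =
    ((betaBar Qb F₀ p (galAutQ F₀ σ • x) : FBq (levelP F₀ p)) : LaurentSeries Qb)
  rw [coe_betaBar, coe_arithmeticGalois_smul, coe_arithmeticGalois_smul, coe_betaBar,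
    coeffMap_qExpand]

include h

/-- `α_* β^*` commutes with `G_ℚ` -/
theorem TJstd_galois (σ : GQ) (x : Pic0 Qb (FBq F₀)) :
    TJstd h p (σ • x) = σ • TJstd h p x := by
  haveI := (h.levelP p).hasPrincipalDivisors
  exact Fermat.Agent.S29lib.GH.pic0_correspondence_smul (betaBar Qb F₀ p) (alphaBar Qb F₀ p)
    (betaBar_isIntegral h p) (alphaBar_isIntegral h p) (fundamentalIdentityAlong_beta h p)
    (finiteAlong_alpha h p) (normFormulaAlong_alpha h p) (intertwines_betaBar p σ)
    (intertwines_alphaBar p σ) h.deg_ne_zero x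

/-- `β_* α^*` commutes with `G_ℚ` -/
theorem TJtr_galois (σ : GQ) (x : Pic0 Qb (FBq F₀)) :
    TJtr h p (σ • x) = σ • TJtr h p x := by
  haveI := (h.levelP p).hasPrincipalDivisors
  exact Fermat.Agent.S29lib.GH.pic0_correspondence_smul (alphaBar Qb F₀ p) (betaBar Qb F₀ p)
    (alphaBar_isIntegral h p) (betaBar_isIntegral h p) (fundamentalIdentityAlong_alpha h p)
    (finiteAlong_beta h p) (normFormulaAlong_beta h p) (intertwines_alphaBar p σ)
    (intertwines_betaBar p σ) h.deg_ne_zero x

end Galois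

end Fermat.Agent.S48lib.X1.HeckeJ
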