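/-
S48lib / X1 / HeckeJ / PLevelInst (helper6).
`PLevel Γ p` for `Γ = Γ₀(N)` (`p ∤ N`) and for `Γ = ±Γ₁(M)` (`p ∤ M`).
-/
import Mathlib
import Fermat.Agent.S48lib.X1.HeckeJ.PLevel
import Fermat.Agent.S48lib.X1.Wp.Sep

set_option autoImplicit false
set_option linter.unusedSectionVars false
set_option linter.style.haveILetI false

noncomputable section

namespace Fermat.Agent.S48lib.X1.HeckeJ

open UpperHalfPlane Matrix.SpecialLinearGroup Fermat.Agent.ProgramR CongruenceSubgroup ModularForm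
open Fermat.Agent.S29lib.H Fermat.Agent.S16lib.LH Fermat.Agent.S48lib.X1.Wp
open P2MW.S_ModularForm_heckeT_slash_eq_self_of_mem_Gamma0.ModularForm.HeckeSlashInvariance
open scoped MatrixGroups

variable {p : ℕ} [Fact p.Prime]

/-- entries of `diag(p,1) γ = g' diag(p,1)` -/
theorem entries_of_conj {γ g' : SL(2, ℤ)}
    (hmul : heckeDiagMatrix p * (mapGL ℝ γ : GL (Fin 2) ℝ) =
      (mapGL ℝ g' : GL (Fin 2) ℝ) * heckeDiagMatrix p) :
    γ 1 0 = (p : ℤ) * g' 1 0 ∧ γ 1 1 = g' 1 1 := by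
  have hp0 : p ≠ 0 := (Fact.out : p.Prime).ne_zero
  have hM := congrArg (fun A : GL (Fin 2) ℝ => (A : Matrix (Fin 2) (Fin 2) ℝ)) hmul
  simp only [Matrix.GeneralLinearGroup.coe_mul, val_heckeDiagMatrix hp0] at hM
  have h10 := congrFun (congrFun hM 1) 0
  have h11 := congrFun (congrFun hM 1) 1
  simp only [Matrix.mul_apply, Fin.sum_univ_two, mapGL_apply, Matrix.of_apply,
    Matrix.cons_val', Matrix.cons_val_zero, Matrix.cons_val_one, Matrix.cons_val_fin_one,
    zero_mul, one_mul, zero_add, mul_zero, add_zero, mul_one] at h10 h11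
  constructor
  · have : ((γ 1 0 : ℤ) : ℝ) = (((p : ℤ) * g' 1 0 : ℤ) : ℝ) := by
      push_cast
      linarith
    exact_mod_cast this
  · have : ((γ 1 1 : ℤ) : ℝ) = ((g' 1 1 : ℤ) : ℝ) := by linarith
    exact_mod_cast this

theorem T_pow_one_eq : ModularGroup.T ^ ((1 : ℕ) : ℤ) = ModularGroup.T := by
  rw [Nat.cast_one, zpow_one]

/-- `Γ₀(N)` is of level prime to `p` for `p ∤ N` -/
theorem pLevel_Gamma0 {N : ℕ} (hpN : ¬ p ∣ N) : PLevel (Gamma0 N) p where
  T_mem := by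
    rw [T_pow_one_eq, Gamma0_mem]
    simp [ModularGroup.T]
  trans x := by
    obtain ⟨g, hg⟩ := exists_tPerm_infty_eq (N := N) hpN x
    exact ⟨g, g.2, hg⟩
  conj_mem γ hγ g' hmul := by
    obtain ⟨h10, -⟩ := entries_of_conj hmul
    have h1 : (N : ℤ) ∣ γ 1 0 := (ZMod.intCast_zmod_eq_zero_iff_dvd _ _).mp (Gamma0_mem.mp hγ)
    rw [h10] at h1
    have hcop : IsCoprime (N : ℤ) (p : ℤ) :=
      Nat.isCoprime_iff_coprime.mpr ((Nat.Prime.coprime_iff_not_dvd Fact.out).mpr hpN).symm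
    rw [Gamma0_mem, ZMod.intCast_zmod_eq_zero_iff_dvd]
    exact hcop.dvd_of_dvd_mul_left h1

/-- `±Γ₁(M)` is of level prime to `p` for `p ∤ M` -/
theorem pLevel_pmGamma1 {M : ℕ} (hpM : ¬ p ∣ M) : PLevel (pmGamma1 M) p where
  T_mem := by
    rw [T_pow_one_eq, mem_pmGamma1]
    simp [ModularGroup.T]
  trans x := by
    induction x using OnePoint.rec with
    | infty => exact ⟨1, Subgroup.one_mem _, permS_one _⟩
    | coe j =>
      have hM0 : ((M : ℤ) : ZMod p) ≠ 0 := by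
        rw [Ne, ZMod.intCast_zmod_eq_zero_iff_dvd]
        exact fun h => hpM (Int.natCast_dvd_natCast.mp h)
      set t : ℤ := ((j - ((M : ℤ) : ZMod p)⁻¹).val : ℤ) with ht
      have htc : ((t : ℤ) : ZMod p) = j - ((M : ℤ) : ZMod p)⁻¹ := by
        rw [ht]
        simp
      let g : SL(2, ℤ) := ⟨!![1, t; (M : ℤ), 1 + (M : ℤ) * t], by
        rw [Matrix.det_fin_two_of]
        ring⟩
      have hg10 : g 1 0 = (M : ℤ) := rfl
      have hg11 : g 1 1 = 1 + (M : ℤ) * t := rfl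
      refine ⟨g, ?_, ?_⟩
      · rw [mem_pmGamma1, hg10, hg11]
        refine ⟨by simp, Or.inl ?_⟩
        push_cast
        simp
      · have hne : ((g 1 0 : ℤ) : ZMod p) ≠ 0 := by rw [hg10]; exact hM0
        rw [permS_infty_of_ne g hne]
        congr 1
        rw [hg10, hg11]
        push_cast
        push_cast at htc hM0
        rw [htc]
        field_simp
        ring
  conj_mem γ hγ g' hmul := by
    obtain ⟨h10, h11⟩ := entries_of_conj hmul
    rw [mem_pmGamma1_iff_dvd] at hγ ⊢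
    obtain ⟨h1, h2⟩ := hγ
    rw [h10] at h1
    have hcop : IsCoprime (M : ℤ) (p : ℤ) :=
      Nat.isCoprime_iff_coprime.mpr ((Nat.Prime.coprime_iff_not_dvd Fact.out).mpr hpM).symm
    refine ⟨hcop.dvd_of_dvd_mul_left h1, ?_⟩
    rw [← h11]
    exact h2

end Fermat.Agent.S48lib.X1.HeckeJ
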