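/-
S48lib / X1 / HeckeJ / DiamondElt (helper6).
The diamond element of the Hecke norm formula: for `Γ` of level prime to `p`, there is `γ₂ ∈ Γ` with
`p ∣ (γ₂)₁₁`, and then for every `δ ∈ SL(2,ℤ)`: `δ diag(1,p) = γ₁ diag(p,1) γ₂` with an explicit
`γ₁ ∈ SL(2,ℤ)`.  For `Γ = ±Γ₁(M)`, `p ∤ M`: `γ₁ ∈ Γ` as soon as `δ ∈ Γ₀(M)` with
`p δ₁₁ ≡ ± 1 (mod M)` — the hypothesis `hδ` of `qExpand_norm_alpha_beta`.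
-/
import Mathlib
import Fermat.Agent.S48lib.X1.HeckeJ.PLevelInst

set_option autoImplicit false
set_option linter.unusedSectionVars false
set_option linter.style.haveILetI false

noncomputable section

namespace Fermat.Agent.S48lib.X1.HeckeJ

open UpperHalfPlane Matrix.SpecialLinearGroup Fermat.Agent.ProgramR CongruenceSubgroup ModularForm
open Fermat.Agent.S29lib.H Fermat.Agent.S48lib.X1.Wp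
open scoped MatrixGroups

variable {p : ℕ} [Fact p.Prime]

/-- a group of level prime to `p` contains an element with lower right entry divisible by `p` -/
theorem PLevel.exists_mem_dvd {Γ : Subgroup SL(2, ℤ)} (h : PLevel Γ p) :
    ∃ g ∈ Γ, (p : ℤ) ∣ g 1 1 := by
  obtain ⟨g, hg, hg0⟩ := h.trans ((0 : ZMod p) : OnePoint (ZMod p))
  refine ⟨g, hg, ?_⟩
  by_cases h10 : ((g 1 0 : ℤ) : ZMod p) = 0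
  · rw [(permS_infty_eq_infty_iff g).mpr h10] at hg0
    exact absurd hg0 (OnePoint.infty_ne_coe _)
  · rw [permS_infty_of_ne g h10] at hg0
    have h1 : ((g 1 1 : ℤ) : ZMod p) / ((g 1 0 : ℤ) : ZMod p) = 0 := OnePoint.coe_injective hg0
    rw [div_eq_zero_iff] at h1
    rcases h1 with h1 | h1
    · exact (ZMod.intCast_zmod_eq_zero_iff_dvd _ _).mp h1
    · exact absurd h1 h10

/-- `δ diag(1,p) = γ₁ diag(p,1) γ₂` for `p ∣ (γ₂)₁₁`, with explicit lower row of `γ₁` -/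
theorem exists_mul_diag_mul (δ γ₂ : SL(2, ℤ)) {w' : ℤ} (hw : γ₂ 1 1 = (p : ℤ) * w') :
    ∃ γ₁ : SL(2, ℤ),
      (mapGL ℝ δ : GL (Fin 2) ℝ) * heckeMatrix p 0 =
        mapGL ℝ γ₁ * heckeDiagMatrix p * mapGL ℝ γ₂ ∧
      γ₁ 1 0 = δ 1 0 * w' - δ 1 1 * γ₂ 1 0 ∧
      γ₁ 1 1 = (p : ℤ) * δ 1 1 * γ₂ 0 0 - δ 1 0 * γ₂ 0 1 := by
  have hp0 : p ≠ 0 := (Fact.out : p.Prime).ne_zero
  have hd : δ 0 0 * δ 1 1 - δ 0 1 * δ 1 0 = 1 := by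
    have h := δ.det_coe
    rwa [Matrix.det_fin_two] at h
  have hd2 : γ₂ 0 0 * γ₂ 1 1 - γ₂ 0 1 * γ₂ 1 0 = 1 := by
    have h := γ₂.det_coe
    rwa [Matrix.det_fin_two] at h
  refine ⟨⟨!![δ 0 0 * w' - δ 0 1 * γ₂ 1 0, (p : ℤ) * δ 0 1 * γ₂ 0 0 - δ 0 0 * γ₂ 0 1;
      δ 1 0 * w' - δ 1 1 * γ₂ 1 0, (p : ℤ) * δ 1 1 * γ₂ 0 0 - δ 1 0 * γ₂ 0 1], ?_⟩, ?_, rfl, rfl⟩
  · rw [Matrix.det_fin_two_of]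
    rw [hw] at hd2
    linear_combination (γ₂ 0 0 * (p : ℤ) * w' - γ₂ 0 1 * γ₂ 1 0) * hd + hd2
  · have hwR := congrArg (Int.cast : ℤ → ℝ) hw
    have hd2R := congrArg (Int.cast : ℤ → ℝ) hd2
    push_cast at hwR hd2R
    ext i j
    fin_cases i <;> fin_cases j <;>
      simp [hp0, Matrix.mul_apply, Fin.sum_univ_two]
    · linear_combination (-((δ 0 0 : ℤ) : ℝ)) * hd2R +
        ((δ 0 0 : ℤ) : ℝ) * ((γ₂ 0 0 : ℤ) : ℝ) * hwR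
    · linear_combination (-((p : ℝ) * ((δ 0 1 : ℤ) : ℝ))) * hd2R +
        ((δ 0 0 : ℤ) : ℝ) * ((γ₂ 0 1 : ℤ) : ℝ) * hwR
    · linear_combination (-((δ 1 0 : ℤ) : ℝ)) * hd2R +
        ((δ 1 0 : ℤ) : ℝ) * ((γ₂ 0 0 : ℤ) : ℝ) * hwR
    · linear_combination (-((p : ℝ) * ((δ 1 1 : ℤ) : ℝ))) * hd2R +
        ((δ 1 0 : ℤ) : ℝ) * ((γ₂ 0 1 : ℤ) : ℝ) * hwR

/-- **the diamond element for `±Γ₁(M)`**: every `δ ∈ Γ₀(M)` with `p δ₁₁ ≡ ± 1 (mod M)` satisfies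
`δ diag(1,p) ∈ Γ diag(p,1) Γ`, `Γ = ±Γ₁(M)` -/
theorem exists_mul_diag_mul_pmGamma1 {M : ℕ} (hpM : ¬ p ∣ M) {δ : SL(2, ℤ)}
    (h0 : (M : ℤ) ∣ δ 1 0)
    (h1 : (M : ℤ) ∣ (p : ℤ) * δ 1 1 - 1 ∨ (M : ℤ) ∣ (p : ℤ) * δ 1 1 + 1) :
    ∃ γ₁ ∈ pmGamma1 M, ∃ γ₂ ∈ pmGamma1 M,
      (mapGL ℝ δ : GL (Fin 2) ℝ) * heckeMatrix p 0 =
        mapGL ℝ γ₁ * heckeDiagMatrix p * mapGL ℝ γ₂ := by
  obtain ⟨γ₂, hγ₂, w', hw⟩ := (pLevel_pmGamma1 hpM).exists_mem_dvd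
  obtain ⟨γ₁, hmul, h10, h11⟩ := exists_mul_diag_mul δ γ₂ hw
  refine ⟨γ₁, ?_, γ₂, hγ₂, hmul⟩
  have hdet : γ₂ 0 0 * γ₂ 1 1 - γ₂ 0 1 * γ₂ 1 0 = 1 := by
    have h := γ₂.det_coe
    rwa [Matrix.det_fin_two] at h
  rw [mem_pmGamma1_iff_dvd] at hγ₂ ⊢
  obtain ⟨⟨k₁, hk₁⟩, hwpm⟩ := hγ₂
  obtain ⟨k₂, hk₂⟩ := h0
  rw [h10, h11]
  refine ⟨dvd_sub (Dvd.dvd.mul_right ⟨k₂, hk₂⟩ _) (Dvd.dvd.mul_left ⟨k₁, hk₁⟩ _), ?_⟩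
  rcases hwpm with ⟨k₃, hk₃⟩ | ⟨k₃, hk₃⟩ <;> rcases h1 with ⟨k₄, hk₄⟩ | ⟨k₄, hk₄⟩
  · left
    refine ⟨γ₂ 0 0 * k₄ - γ₂ 0 1 * k₂ + γ₂ 0 1 * k₁ - γ₂ 0 0 * k₃, ?_⟩
    linear_combination γ₂ 0 0 * hk₄ - γ₂ 0 1 * hk₂ + hdet + γ₂ 0 1 * hk₁ - γ₂ 0 0 * hk₃
  · right
    refine ⟨γ₂ 0 0 * k₄ - γ₂ 0 1 * k₂ - γ₂ 0 1 * k₁ + γ₂ 0 0 * k₃, ?_⟩
    linear_combination γ₂ 0 0 * hk₄ - γ₂ 0 1 * hk₂ - hdet - γ₂ 0 1 * hk₁ + γ₂ 0 0 * hk₃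
  · right
    refine ⟨γ₂ 0 0 * k₄ - γ₂ 0 1 * k₂ - γ₂ 0 1 * k₁ + γ₂ 0 0 * k₃, ?_⟩
    linear_combination γ₂ 0 0 * hk₄ - γ₂ 0 1 * hk₂ - hdet - γ₂ 0 1 * hk₁ + γ₂ 0 0 * hk₃
  · left
    refine ⟨γ₂ 0 0 * k₄ - γ₂ 0 1 * k₂ + γ₂ 0 1 * k₁ - γ₂ 0 0 * k₃, ?_⟩
    linear_combination γ₂ 0 0 * hk₄ - γ₂ 0 1 * hk₂ + hdet + γ₂ 0 1 * hk₁ - γ₂ 0 0 * hk₃

end Fermat.Agent.S48lib.X1.HeckeJ
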