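/-
S48lib / X1 / HeckeJ / LinDisjGen (helper6).
Layer B of block P4: linear disjointness of the formal function fields against the analytic ones,
for arbitrary analytic `q`-models.  Generic version of `S29lib/H2/LinDisj` (helper4), which is the
case `Γ = Γ₀(N)`: for `ψ : L F₀ →ₐ[L] L F₀'` and `ψan : Frac (WH0 Γ) →+* Frac (WH0 Γ')` fixing `ℂ`
with `ψan ∘ Φ = Φ' ∘ ψ`, a family in `L F₀'` linearly independent over `L F₀` stays linearly
independent over `Frac (WH0 Γ)`, PROVIDED the model `F₀` of `Γ` **generates**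
(`Generates`: every analytic function is a quotient of a `ℂ`-combination of formal ones by a
polynomial in `j`; this is the degree equality `[ℚ̄ F₀ : ℚ̄(j)] = [SL₂(ℤ) : Γ]`).
-/
import Mathlib
import Fermat.Agent.S48lib.X1.HeckeJ.QExpGen
import Fermat.Agent.S29lib.H2.LinDisjAbs
import Fermat.Agent.ProgramR.BarField.LinDisjoint

set_option autoImplicit false
set_option linter.unusedSectionVars false
set_option linter.style.haveILetI false

noncomputable section

open Complex Filter Function Topology CongruenceSubgroup Polynomial Module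
open UpperHalfPlane hiding I
open scoped Real Manifold MatrixGroups

namespace Fermat.Agent.S48lib.X1.HeckeJ

open ModularCurve Fermat.Agent.ProgramR Fermat.Agent.ProgramR.QExp
  Fermat.Agent.ProgramR.BarField Fermat.Agent.S29lib.H2

/-! ### coordinates: `q`-expansion coefficients -/

section Coordinates

variable {L : Type*} [Field L] [Algebra ℚ L] (F₀ : IntermediateField ℚ (LaurentSeries ℚ))

/-- the `q`-expansion coefficients on the formal function field -/
def coF : ↥(laurentBaseChange L F₀) →ₗ[L] (ℤ → L) where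
  toFun x n := (x : LaurentSeries L).coeff n
  map_add' x y := by
    funext n
    rfl
  map_smul' a x := by
    funext n
    show ((a • x : ↥(laurentBaseChange L F₀)) : LaurentSeries L).coeff n =
      a • (x : LaurentSeries L).coeff n
    have h : ((a • x : ↥(laurentBaseChange L F₀)) : LaurentSeries L) =
        a • (x : LaurentSeries L) := by
      rw [← algSmul_eq]
      rfl
    rw [h, HahnSeries.coeff_smul]

theorem coF_apply (x : ↥(laurentBaseChange L F₀)) (n : ℤ) :
    coF F₀ x n = (x : LaurentSeries L).coeff n := rfl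

theorem coF_injective : Injective (coF (L := L) F₀) := by
  intro x y h
  apply Subtype.ext
  ext n
  exact congrFun h n

variable (Γ : Subgroup SL(2, ℤ)) (hT : ModularGroup.T ^ ((1 : ℕ) : ℤ) ∈ Γ)

/-- the `q`-expansion coefficients on the analytic function field -/
def coAnG : WH0.FunField Γ →ₗ[ℂ] (ℤ → ℂ) where
  toFun k n := (qExpFFW Γ 1 hT k).coeff n
  map_add' x y := by
    funext n
    show (qExpFFW Γ 1 hT (x + y)).coeff n = _
    rw [map_add]
    rfl
  map_smul' a x := by
    funext n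
    show (qExpFFW Γ 1 hT (a • x)).coeff n = a • (qExpFFW Γ 1 hT x).coeff n
    rw [Algebra.smul_def, map_mul, qExpFFW_const', HahnSeries.C_mul_eq_smul,
      HahnSeries.coeff_smul]

theorem coAnG_apply (k : WH0.FunField Γ) (n : ℤ) :
    coAnG Γ hT k n = (qExpFFW Γ 1 hT k).coeff n := rfl

theorem coAnG_injective : Injective (coAnG Γ hT) := by
  intro x y h
  apply qExpFFW_injective Γ 1 hT
  ext n
  exact congrFun h n

variable {Γ hT F₀}

theorem coAnG_toFunField (hM : IsAnModel Γ hT F₀) (e : L →+* ℂ) (x : ↥(laurentBaseChange L F₀))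
    (n : ℤ) : coAnG Γ hT (hM.toFunField e x) n = e (coF F₀ x n) := by
  rw [coAnG_apply, hM.qExpFFW_toFunField]
  rfl

end Coordinates

/-! ### generation -/

section Generation

variable {Γ : Subgroup SL(2, ℤ)} {hT : ModularGroup.T ^ ((1 : ℕ) : ℤ) ∈ Γ}
variable {F₀ : IntermediateField ℚ (LaurentSeries ℚ)} (hM : IsAnModel Γ hT F₀)
variable {L : Type*} [Field L] [Algebra ℚ L] (e : L →+* ℂ)

/-- a polynomial in `j`, in the analytic function field -/
def jPoly (Γ : Subgroup SL(2, ℤ)) (q : ℂ[X]) : WH0.FunField Γ :=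
  algebraMap (WH0 Γ) (WH0.FunField Γ) (Polynomial.aeval (WH0.j Γ) q)

theorem jPoly_mul (q r : ℂ[X]) : jPoly Γ (q * r) = jPoly Γ q * jPoly Γ r := by
  rw [jPoly, jPoly, jPoly, map_mul, map_mul]

theorem jPoly_ne_zero {q : ℂ[X]} (hq : q ≠ 0) : jPoly Γ q ≠ 0 := by
  rw [jPoly, Ne, IsFractionRing.to_map_eq_zero_iff, ← WH0.algebraMap_poly]
  intro h0
  exact hq (WH0.algebraMap_poly_injective Γ (h0.trans (map_zero _).symm))

/-- the `ℂ`-subalgebra of the analytic function field generated by the image of `Φ` -/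
def algΦG : Subalgebra ℂ (WH0.FunField Γ) := Algebra.adjoin ℂ (Set.range (hM.toFunField e))

theorem toFunField_mem_algΦG (x : ↥(laurentBaseChange L F₀)) : hM.toFunField e x ∈ algΦG hM e :=
  Algebra.subset_adjoin ⟨x, rfl⟩

theorem algΦG_toSubmodule :
    Subalgebra.toSubmodule (algΦG hM e) = Submodule.span ℂ (Set.range (hM.toFunField e)) := by
  rw [algΦG, Algebra.adjoin_eq_span]
  congr 1
  have h : Set.range (hM.toFunField e) =
      ((MonoidHom.mrange ((hM.toFunField e : ↥(laurentBaseChange L F₀) →+* WH0.FunField Γ) :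
        ↥(laurentBaseChange L F₀) →* WH0.FunField Γ) : Submonoid (WH0.FunField Γ)) :
        Set (WH0.FunField Γ)) := by
    ext w
    simp
  rw [h, Submonoid.closure_eq]

theorem mem_span_of_mem_algΦG {w : WH0.FunField Γ} (hw : w ∈ algΦG hM e) :
    w ∈ Submodule.span ℂ (Set.range (hM.toFunField e)) := by
  rw [← algΦG_toSubmodule]
  exact hw

/-- polynomials in `j` lie in `algΦ` (if `j(q) ∈ F₀`) -/
theorem jPoly_mem_algΦG (hj : jq ∈ F₀) (q : ℂ[X]) : jPoly Γ q ∈ algΦG hM e := by
  have hjL : jqModC L ∈ laurentBaseChange L F₀ := by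
    have h0 : coeffEmb L jq = jqModC L := coeffMap_jqModC (R := ℚ) (algebraMap ℚ L)
    rw [← h0]
    exact coeffEmb_mem_laurentBaseChange L hj
  have h1 : hM.toFunField e ⟨jqModC L, hjL⟩ = algebraMap _ (WH0.FunField Γ) (WH0.j Γ) :=
    hM.toFunField_j e _ rfl
  rw [jPoly, ← Polynomial.aeval_algebraMap_apply, ← h1]
  have hsub : ({hM.toFunField e ⟨jqModC L, hjL⟩} : Set (WH0.FunField Γ)) ⊆
      Set.range (hM.toFunField e) := Set.singleton_subset_iff.mpr ⟨_, rfl⟩
  exact Algebra.adjoin_mono hsub (Polynomial.aeval_mem_adjoin_singleton ℂ _)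

/-- **generation**: every element of the analytic function field is a quotient of an element of
`algΦ` by a nonzero polynomial in `j`.  (Equivalent to the degree equality
`[L F₀ : L(j)] = [Frac (WH0 Γ) : ℂ(j)]`.) -/
def Generates : Prop :=
  ∀ c : WH0.FunField Γ, ∃ q : ℂ[X], q ≠ 0 ∧ jPoly Γ q * c ∈ algΦG hM e

variable {hM e}

/-- simultaneous version for a finite family -/
theorem Generates.finset (hgen : Generates hM e) (hj : jq ∈ F₀) {ι : Type*} (s : Finset ι)
    (c : ι → WH0.FunField Γ) :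
    ∃ q : ℂ[X], q ≠ 0 ∧ ∀ i ∈ s, jPoly Γ q * c i ∈ algΦG hM e := by
  classical
  choose q hq0 hq using fun i => hgen (c i)
  refine ⟨∏ j ∈ s, q j, Finset.prod_ne_zero_iff.mpr fun j _ => hq0 j, fun i hi => ?_⟩
  rw [← Finset.mul_prod_erase s q hi, jPoly_mul, mul_right_comm]
  exact Subalgebra.mul_mem _ (hq i) (jPoly_mem_algΦG hM e hj _)

end Generation

/-! ### linear disjointness -/

section LinDisj

variable {Γ Γ' : Subgroup SL(2, ℤ)} {hT : ModularGroup.T ^ ((1 : ℕ) : ℤ) ∈ Γ}
  {hT' : ModularGroup.T ^ ((1 : ℕ) : ℤ) ∈ Γ'}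
variable {F₀ F₀' : IntermediateField ℚ (LaurentSeries ℚ)} {hM : IsAnModel Γ hT F₀}
  (hM' : IsAnModel Γ' hT' F₀')
variable {L : Type*} [Field L] [Algebra ℚ L] {e : L →+* ℂ}

/-- **Linear disjointness** (explicit form). -/
theorem linDisjG (hgen : Generates hM e) (hj : jq ∈ F₀)
    (ψ : ↥(laurentBaseChange L F₀) →ₐ[L] ↥(laurentBaseChange L F₀'))
    (ψan : WH0.FunField Γ →+* WH0.FunField Γ')
    (hψ : ∀ x, ψan (hM.toFunField e x) = hM'.toFunField e (ψ x))
    (hψC : ∀ c : ℂ, ψan (algebraMap ℂ _ c) = algebraMap ℂ _ c)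
    {ι : Type*} (y : ι → ↥(laurentBaseChange L F₀'))
    (hy : ∀ (s : Finset ι) (k : ι → ↥(laurentBaseChange L F₀)),
      ∑ i ∈ s, ψ (k i) * y i = 0 → ∀ i ∈ s, k i = 0)
    (s : Finset ι) (c : ι → WH0.FunField Γ)
    (hrel : ∑ i ∈ s, ψan (c i) * hM'.toFunField e (y i) = 0) : ∀ i ∈ s, c i = 0 := by
  classical
  obtain ⟨q, hq0, hq⟩ := hgen.finset hj s c
  let ψanA : WH0.FunField Γ →ₐ[ℂ] WH0.FunField Γ' := { ψan with commutes' := hψC }
  have hrel' : ∑ i ∈ s, ψanA (jPoly Γ q * c i) * hM'.toFunField e (y i) = 0 := by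
    have : ∀ i ∈ s, ψanA (jPoly Γ q * c i) * hM'.toFunField e (y i) =
        ψan (jPoly Γ q) * (ψan (c i) * hM'.toFunField e (y i)) := by
      intro i _
      show ψan (_ * _) * _ = _
      rw [map_mul, mul_assoc]
    rw [Finset.sum_congr rfl this, ← Finset.mul_sum, hrel, mul_zero]
  have key := linDisj_abstract e (hM.toFunField e) (hM'.toFunField e) (coF F₀) (coF F₀')
    (coAnG Γ hT) (coAnG Γ' hT') (coF_injective F₀') (coAnG_injective Γ hT)
    (coAnG_toFunField hM e) (coAnG_toFunField hM' e) ψ ψanA hψ y hy s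
    (fun i => jPoly Γ q * c i)
    (fun i hi => mem_span_of_mem_algΦG hM e (hq i hi)) hrel'
  intro i hi
  have h1 := key i hi
  exact (mul_eq_zero.mp h1).resolve_left (jPoly_ne_zero hq0)

/-- **Linear disjointness** (`LinearIndependent` form; module structures through `ψ`, `ψan`). -/
theorem linearIndependent_toFunField (hgen : Generates hM e) (hj : jq ∈ F₀)
    (ψ : ↥(laurentBaseChange L F₀) →ₐ[L] ↥(laurentBaseChange L F₀'))
    (ψan : WH0.FunField Γ →+* WH0.FunField Γ')
    (hψ : ∀ x, ψan (hM.toFunField e x) = hM'.toFunField e (ψ x))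
    (hψC : ∀ c : ℂ, ψan (algebraMap ℂ _ c) = algebraMap ℂ _ c)
    {ι : Type*} (y : ι → ↥(laurentBaseChange L F₀'))
    (hy : @LinearIndependent ι ↥(laurentBaseChange L F₀) ↥(laurentBaseChange L F₀') y _ _
      ψ.toRingHom.toAlgebra.toModule) :
    @LinearIndependent ι (WH0.FunField Γ) (WH0.FunField Γ')
      (fun i => hM'.toFunField e (y i)) _ _ ψan.toAlgebra.toModule := by
  letI a1 : Algebra ↥(laurentBaseChange L F₀) ↥(laurentBaseChange L F₀') := ψ.toRingHom.toAlgebra
  letI a2 : Algebra (WH0.FunField Γ) (WH0.FunField Γ') := ψan.toAlgebra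
  rw [linearIndependent_iff'] at hy ⊢
  intro s c hrel
  refine linDisjG hM' hgen hj ψ ψan hψ hψC y (fun s k hk => hy s k ?_) s c ?_
  · rw [← hk]
    exact Finset.sum_congr rfl fun i _ => Algebra.smul_def _ _
  · rw [← hrel]
    exact Finset.sum_congr rfl fun i _ => (Algebra.smul_def _ _).symm

/-- **Degree inequality**: `[L F₀' : L F₀]_ψ ≤ [Frac (WH0 Γ') : Frac (WH0 Γ)]_ψan`. -/
theorem finrank_le_finrankG (hgen : Generates hM e) (hj : jq ∈ F₀)
    (ψ : ↥(laurentBaseChange L F₀) →ₐ[L] ↥(laurentBaseChange L F₀'))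
    (ψan : WH0.FunField Γ →+* WH0.FunField Γ')
    (hψ : ∀ x, ψan (hM.toFunField e x) = hM'.toFunField e (ψ x))
    (hψC : ∀ c : ℂ, ψan (algebraMap ℂ _ c) = algebraMap ℂ _ c)
    (hfin : @Module.Finite (WH0.FunField Γ) (WH0.FunField Γ') _ _ ψan.toAlgebra.toModule) :
    @Module.Finite ↥(laurentBaseChange L F₀) ↥(laurentBaseChange L F₀') _ _
        ψ.toRingHom.toAlgebra.toModule ∧
      @finrank ↥(laurentBaseChange L F₀) ↥(laurentBaseChange L F₀') _ _
          ψ.toRingHom.toAlgebra.toModule ≤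
        @finrank (WH0.FunField Γ) (WH0.FunField Γ') _ _ ψan.toAlgebra.toModule := by
  classical
  letI a1 : Algebra ↥(laurentBaseChange L F₀) ↥(laurentBaseChange L F₀') := ψ.toRingHom.toAlgebra
  letI a2 : Algebra (WH0.FunField Γ) (WH0.FunField Γ') := ψan.toAlgebra
  haveI : Module.Finite (WH0.FunField Γ) (WH0.FunField Γ') := hfin
  have hrank : Module.rank ↥(laurentBaseChange L F₀) ↥(laurentBaseChange L F₀') ≤
      (finrank (WH0.FunField Γ) (WH0.FunField Γ') : Cardinal) := by
    apply rank_le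
    intro s hs
    have h2 := linearIndependent_toFunField hM' hgen hj ψ ψan hψ hψC _ hs
    have h4 := h2.fintype_card_le_finrank
    rwa [Fintype.card_coe] at h4
  have hfd : Module.Finite ↥(laurentBaseChange L F₀) ↥(laurentBaseChange L F₀') :=
    Module.rank_lt_aleph0_iff.1 (hrank.trans_lt Cardinal.natCast_lt_aleph0)
  exact ⟨hfd, Module.finrank_le_of_rank_le hrank⟩

end LinDisj

end Fermat.Agent.S48lib.X1.HeckeJ
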