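/-
S48lib / X1 / HeckeJ / GenSep (helper6).
**Generation from a separating function**: if the analytic `q`-model `F₀ ∋ j(q)` of `Γ` (finite
index) contains, after base change to `L`, the `q`-expansion `θ` of a function `h ∈ WH0 Γ` which
separates the cosets of `Γ` (`Wp.Separates Γ h`), then `Generates hM e`: every element of
`Frac (WH0 Γ)` is a polynomial in `Φ θ = h` with coefficients in `ℂ[j]`, divided by a nonzero
polynomial in `j`.  (With helper3's `X1/Field/{AnSep,Degree}` this gives `Generates` for the model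
`F₁(M)` of `X₁(M)`.)
-/
import Mathlib
import Fermat.Agent.S48lib.X1.HeckeJ.LinDisjGen
import Fermat.Agent.S48lib.X1.Field.DegreeGen

set_option autoImplicit false
set_option linter.unusedSectionVars false
set_option linter.style.haveILetI false

noncomputable section

namespace Fermat.Agent.S48lib.X1.HeckeJ

open Polynomial Module
open scoped MatrixGroups
open ModularCurve Fermat.Agent.ProgramR Fermat.Agent.ProgramR.QExp Fermat.Agent.S48lib.X1

variable {Γ : Subgroup SL(2, ℤ)} {hT : ModularGroup.T ^ ((1 : ℕ) : ℤ) ∈ Γ}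
  [Fintype (SL(2, ℤ) ⧸ Γ)] {F₀ : IntermediateField ℚ (LaurentSeries ℚ)}
  {L : Type*} [Field L] [Algebra ℚ L]

/-- the powers `1, h, …, h^{n-1}` of a separating function are independent over `ℂ[j]` -/
theorem eq_zero_of_sum_smul_pow {h : WH0 Γ} (hsep : Wp.Separates Γ h)
    (a : Fin (Fintype.card (SL(2, ℤ) ⧸ Γ)) → ℂ[X])
    (hrel : ∑ k, a k • h ^ (k : ℕ) = 0) : ∀ k, a k = 0 := by
  classical
  set P : ℂ[X][X] := ∑ k : Fin (Fintype.card (SL(2, ℤ) ⧸ Γ)),
    Polynomial.C (a k) * Polynomial.X ^ (k : ℕ) with hPdef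
  have hP : Polynomial.aeval h P = 0 := by
    rw [hPdef, map_sum, ← hrel]
    refine Finset.sum_congr rfl fun k _ => ?_
    rw [map_mul, map_pow, Polynomial.aeval_X, Polynomial.aeval_C, Algebra.smul_def]
  have hP0 : P = 0 := by
    by_contra hP0
    have h1 := card_le_natDegree_of_separates hsep hP0 hP
    have h2 : P.natDegree < Fintype.card (SL(2, ℤ) ⧸ Γ) :=
      (Polynomial.natDegree_lt_iff_degree_lt hP0).mpr
        (Polynomial.degree_sum_fin_lt fun k => a k)
    omega
  intro k
  have h1 : P.coeff (k : ℕ) = a k := by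
    rw [hPdef, Polynomial.finsetSum_coeff, Finset.sum_eq_single k]
    · rw [Polynomial.coeff_C_mul, Polynomial.coeff_X_pow, if_pos rfl, mul_one]
    · intro k' _ hk'
      rw [Polynomial.coeff_C_mul, Polynomial.coeff_X_pow, if_neg, mul_zero]
      exact fun h => hk' (Fin.ext h.symm)
    · intro h
      exact absurd (Finset.mem_univ _) h
  rw [← h1, hP0, Polynomial.coeff_zero]

/-- **generation from a separating function** -/
theorem generates_of_separates (hM : IsAnModel Γ hT F₀) (e : L →+* ℂ) (hj : jq ∈ F₀)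
    {h : WH0 Γ} (hsep : Wp.Separates Γ h) (θ : ↥(laurentBaseChange L F₀))
    (hθ : coeffMap e (θ : LaurentSeries L) = qExpW Γ 1 hT h) : Generates hM e := by
  classical
  have hΦθ : hM.toFunField e θ = algebraMap (WH0 Γ) (WH0.FunField Γ) h := by
    rw [hM.toFunField_eq_iff, qExpFFW_algebraMap, hθ, qExpW_apply]
  have hhmem : algebraMap (WH0 Γ) (WH0.FunField Γ) h ∈ algΦG hM e := by
    rw [← hΦθ]
    exact toFunField_mem_algΦG hM e θ
  set n := Fintype.card (SL(2, ℤ) ⧸ Γ) with hn
  have hrank : n = finrank ℂ[X] (WH0 Γ) := Wp.card_eq_finrank_of_separates hsep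
  intro c
  obtain ⟨b, s, hs, hbs⟩ := IsFractionRing.div_surjective (A := WH0 Γ) c
  have hs0 : (s : WH0 Γ) ≠ 0 := nonZeroDivisors.ne_zero hs
  have hsF : algebraMap (WH0 Γ) (WH0.FunField Γ) s ≠ 0 :=
    (map_ne_zero_iff _ (IsFractionRing.injective (WH0 Γ) (WH0.FunField Γ))).mpr hs0
  -- `n + 1` elements of `WH0 Γ` are dependent over `ℂ[j]`
  let v : Fin (n + 1) → WH0 Γ := Fin.cons b (fun k : Fin n => s * h ^ (k : ℕ))
  have hdep : ¬ LinearIndependent ℂ[X] v := by
    intro hlin
    have h1 := hlin.fintype_card_le_finrank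
    rw [Fintype.card_fin, ← hrank] at h1
    omega
  rw [Fintype.not_linearIndependent_iff] at hdep
  obtain ⟨g, hg, i₀, hi₀⟩ := hdep
  rw [Fin.sum_univ_succ] at hg
  have hv0 : v 0 = b := rfl
  have hvs : ∀ k : Fin n, v k.succ = s * h ^ (k : ℕ) := fun k => rfl
  simp only [hv0, hvs] at hg
  have hg' : g 0 • b + s * ∑ k : Fin n, g k.succ • h ^ (k : ℕ) = 0 := by
    rw [← hg, Finset.mul_sum]
    congr 1
    refine Finset.sum_congr rfl fun k _ => ?_
    rw [Algebra.smul_def, Algebra.smul_def]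
    ring
  have hq : g 0 ≠ 0 := by
    intro h0
    rw [h0, zero_smul, zero_add] at hg'
    have h1 := (mul_eq_zero.mp hg').resolve_left hs0
    have h2 := eq_zero_of_sum_smul_pow hsep (fun k => g k.succ) h1
    refine hi₀ ?_
    induction i₀ using Fin.cases with
    | zero => exact h0
    | succ k => exact h2 k
  refine ⟨g 0, hq, ?_⟩
  -- `q(j) c = - ∑ g_k(j) h^k`
  have h1 : jPoly Γ (g 0) * c =
      -∑ k : Fin n, jPoly Γ (g k.succ) * (algebraMap (WH0 Γ) (WH0.FunField Γ) h) ^ (k : ℕ) := by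
    rw [← hbs, eq_neg_iff_add_eq_zero]
    have h2 := congrArg (algebraMap (WH0 Γ) (WH0.FunField Γ)) hg'
    rw [map_add, map_mul, map_sum, map_zero, Algebra.smul_def, map_mul,
      WH0.algebraMap_poly] at h2
    have h3 : ∀ k : Fin n, algebraMap (WH0 Γ) (WH0.FunField Γ) (g k.succ • h ^ (k : ℕ)) =
        jPoly Γ (g k.succ) * (algebraMap (WH0 Γ) (WH0.FunField Γ) h) ^ (k : ℕ) := by
      intro k
      rw [Algebra.smul_def, map_mul, map_pow, WH0.algebraMap_poly]
      rfl
    simp only [h3] at h2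
    rw [jPoly]
    field_simp
    linear_combination h2
  rw [h1]
  refine Subalgebra.neg_mem _ (Subalgebra.sum_mem _ fun k _ => ?_)
  exact Subalgebra.mul_mem _ (jPoly_mem_algΦG hM e hj _) (Subalgebra.pow_mem _ hhmem _)

end Fermat.Agent.S48lib.X1.HeckeJ
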