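/-
S48lib / X1 / HeckeJ / KumStd (helper6).
Layer B of block P4: **Kummer transfer for the Hecke correspondence `α_* β^*`.**
The coset datum `PLevel.stdDatum` of the Hecke transversal `A_x = diag(p,1) g_x` of `Γ diag(p,1) Γ`
(permutation `x ↦ x · γ` of `P¹(𝔽_p)`, `Γ`-valued cocycle), and: if `Φ f` has Kummer character
`χ`, then `Φ (Norm_α (β f))` has Kummer character `γ ↦ ∏ x, χ (c γ x)`; in additive form
(`χ = expChar ψ`): the character `expChar (combOp ψ)`.
Generic version of `S29lib/H/HeckeNormInput` (helper1).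
-/
import Mathlib
import Fermat.Agent.S48lib.X1.HeckeJ.StdNorm
import Fermat.Agent.S29lib.H.HeckeNormInput

set_option autoImplicit false
set_option linter.unusedSectionVars false
set_option linter.style.haveILetI false

noncomputable section

namespace Fermat.Agent.S48lib.X1.HeckeJ

open UpperHalfPlane Matrix.SpecialLinearGroup Fermat.Agent.ProgramR CongruenceSubgroup ModularForm
open ModularCurve IntermediateField
open Fermat.Agent.S29lib.H Fermat.Agent.S29lib.K1 Fermat.Agent.S29lib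
open scoped MatrixGroups

/-- a coset datum from a transversal of `Γ` in itself whose permutations compose -/
def cosetDatumOfTransversal {Γ : Subgroup SL(2, ℤ)} {ι : Type*} (𝒯 : Transversal Γ Γ ι)
    (hσ : ∀ (γ γ' : Γ) (x : ι), 𝒯.σ (γ * γ') x = 𝒯.σ γ' (𝒯.σ γ x)) : CosetDatum Γ ι where
  σ := 𝒯.σ
  c := 𝒯.c
  σ_mul := hσ
  c_mul := by
    intro γ γ' x
    have h1 := 𝒯.rel (γ * γ') x
    have h2 : 𝒯.A x * (mapGL ℝ ((γ * γ' : Γ) : SL(2, ℤ)) : GL (Fin 2) ℝ) =
        (mapGL ℝ ((𝒯.c γ x * 𝒯.c γ' (𝒯.σ γ x) : Γ) : SL(2, ℤ)) : GL (Fin 2) ℝ) *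
          𝒯.A (𝒯.σ γ' (𝒯.σ γ x)) := by
      rw [Subgroup.coe_mul, map_mul, ← mul_assoc, 𝒯.rel γ x, mul_assoc, 𝒯.rel γ' (𝒯.σ γ x),
        ← mul_assoc, Subgroup.coe_mul, map_mul]
    rw [hσ] at h1
    have h3 := h1.symm.trans h2
    have h4 := mul_right_cancel h3
    exact Subtype.ext (mapGL_injective h4)

variable {Γ : Subgroup SL(2, ℤ)} {p : ℕ} [Fact p.Prime] (h : PLevel Γ p)
variable {F₀ : IntermediateField ℚ (LaurentSeries ℚ)}

/-- **the coset datum of the Hecke correspondence** `Γ diag(p,1) Γ` -/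
def PLevel.stdDatum : CosetDatum Γ (OnePoint (ZMod p)) :=
  cosetDatumOfTransversal h.stdTransversal (fun γ γ' x => by
    show permS p ((γ * γ' : Γ) : SL(2, ℤ)) x = permS p (γ' : SL(2, ℤ)) (permS p (γ : SL(2, ℤ)) x)
    rw [Subgroup.coe_mul, permS_mul])

@[simp] theorem PLevel.stdDatum_c (γ : Γ) (x : OnePoint (ZMod p)) :
    h.stdDatum.c γ x = h.stdTransversal.c γ x := rfl

@[simp] theorem PLevel.stdDatum_σ (γ : Γ) (x : OnePoint (ZMod p)) :
    h.stdDatum.σ γ x = permS p (γ : SL(2, ℤ)) x := rfl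

variable {L : Type*} [Field L] [Algebra ℚ L] (e : L →+* ℂ) (hM : IsAnModel Γ h.T_mem F₀)

/-- **Kummer transfer**, multiplicative form -/
theorem isKum_norm_alpha_betaG (hgen : Generates hM e) (hj : jq ∈ F₀)
    (f : ↥(laurentBaseChange L F₀)) {n : ℕ} {χ χ' : Γ →* ℂˣ}
    (hK : IsKum Γ n (hM.toFunField e f) χ)
    (hχ' : ∀ γ, χ' γ = ∏ x, χ (h.stdTransversal.c γ x)) :
    IsKum Γ n (hM.toFunField e
      (@Algebra.norm ↥(laurentBaseChange L F₀) ↥(laurentBaseChange L (levelP F₀ p)) _ _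
        (alphaBar L F₀ p).toRingHom.toAlgebra (betaBar L F₀ p f))) χ' :=
  h.stdTransversal.isKum_prod hK (toMer_norm_alpha_betaG h e hM hgen hj f) hχ'

/-- **Kummer transfer**, additive form: the Kummer class of `Norm_α (β f)` is the combinatorial
Hecke operator of `stdDatum` applied to the Kummer class of `f`. -/
theorem isKum_norm_alpha_betaG_expChar (hgen : Generates hM e) (hj : jq ∈ F₀)
    (f : ↥(laurentBaseChange L F₀)) (n : ℕ) [NeZero n] (ψ : Additive Γ →+ ZMod n)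
    (hK : IsKum Γ n (hM.toFunField e f) (K3.expChar n ψ)) :
    IsKum Γ n (hM.toFunField e
      (@Algebra.norm ↥(laurentBaseChange L F₀) ↥(laurentBaseChange L (levelP F₀ p)) _ _
        (alphaBar L F₀ p).toRingHom.toAlgebra (betaBar L F₀ p f)))
      (K3.expChar n (h.stdDatum.combOp (ZMod n) ψ)) :=
  isKum_norm_alpha_betaG h e hM hgen hj f hK (fun γ => expChar_combOp h.stdDatum n ψ γ)

end Fermat.Agent.S48lib.X1.HeckeJ
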