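/-
S48lib / X1 / HeckeJ / InstF1 (helper6).
**Instantiation of block P4 for the model `F₁(M)` of `X₁(M)`** (helper3's `X1/Field`):
`Γ = ±Γ₁(M)`, `F₀ = F1 M`, `L = ℚ̄`, `e = qbarEmb`, `p ∤ M`:
* `generates_F1` : the generation hypothesis `Generates isAnModel_F1 qbarEmb`;
* `qExpand_norm_F1` : the Hecke norm formula in `q`-expansions
  `N_α (β f) (Q^p) = f(Q^(p²)) * ∏_{i<p} g(ζ^i Q)` for `Φ g = (Φ f) ∘ δ`, `δ ∈ Γ₀(M)`,
  `p δ₁₁ ≡ ± 1 (mod M)`;
* `isKum_norm_F1` : the Kummer transfer for `TJstd` on `F₁(M)`.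
-/
import Mathlib
import Fermat.Agent.S48lib.X1.HeckeJ.GenSep
import Fermat.Agent.S48lib.X1.HeckeJ.QNorm
import Fermat.Agent.S48lib.X1.HeckeJ.KumStd
import Fermat.Agent.S48lib.X1.HeckeJ.DiamondElt
import Fermat.Agent.S48lib.X1.Field.QModelInst

set_option autoImplicit false
set_option linter.unusedSectionVars false
set_option linter.style.haveILetI false

noncomputable section

namespace Fermat.Agent.S48lib.X1.HeckeJ

open UpperHalfPlane Matrix.SpecialLinearGroup Fermat.Agent.ProgramR CongruenceSubgroup ModularForm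
open ModularCurve IntermediateField Fermat.Agent.ProgramR.BarField
open Fermat.Agent.S29lib.H Fermat.Agent.S29lib.K1 Fermat.Agent.S29lib Fermat.Agent.S28lib
open Fermat.Agent.S48lib.X1 Fermat.Agent.S48lib.X1.Wp
open scoped MatrixGroups

local notation "Qb" => AlgebraicClosure ℚ

variable {M : ℕ} [NeZero M]

/-- **generation for `F₁(M)`** -/
theorem generates_F1 (hM : 1 < M) :
    Generates (isAnModel_F1 (M := M)) (qbarEmb : Qb →+* ℂ) := by
  obtain ⟨c, hc, hcop⟩ := exists_zEmb_eq M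
  have hb : ¬ (M : ℤ) ∣ c * 1 := not_dvd_mul_of_isCoprime hcop (not_dvd_one hM)
  have hcop' : IsCoprime (c * 1) (M : ℤ) := by rwa [mul_one]
  refine generates_of_separates isAnModel_F1 qbarEmb (jq_mem_F1 M)
    (separates_tauWH0_of_isCoprime hM hcop' hb) (tauBar hM) ?_
  rw [coe_tauBar, coeffMap_tauqL]
  have : Units.map ((qbarEmb : Qb →+* ℂ) : Qb →* ℂ) (zbar M) = zC M ^ c := hc
  rw [this, tauqL_zC_zpow_mem hcop (not_dvd_one hM)]

variable {p : ℕ} [Fact p.Prime]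

/-- **the Hecke norm formula in `q`-expansions for `F₁(M)`** -/
theorem qExpand_norm_F1 (hM : 1 < M) (hpM : ¬ p ∣ M) {δ : SL(2, ℤ)}
    (h0 : (M : ℤ) ∣ δ 1 0)
    (h1 : (M : ℤ) ∣ (p : ℤ) * δ 1 1 - 1 ∨ (M : ℤ) ∣ (p : ℤ) * δ 1 1 + 1)
    (f g : ↥(laurentBaseChange Qb (F1 M)))
    (hfg : toMer (pmGamma1 M) ((isAnModel_F1 (M := M)).toFunField qbarEmb g) =
      merComp (mapGL ℝ δ : GL (Fin 2) ℝ) (isIntMat_mapGL δ).det_pos
        (toMer (pmGamma1 M) ((isAnModel_F1 (M := M)).toFunField qbarEmb f)))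
    {ζ : Qbˣ} (hζ : IsPrimitiveRoot ζ p) :
    qExpand Qb p
        ((@Algebra.norm ↥(laurentBaseChange Qb (F1 M))
          ↥(laurentBaseChange Qb (levelP (F1 M) p)) _ _
          (alphaBar Qb (F1 M) p).toRingHom.toAlgebra (betaBar Qb (F1 M) p f) :
            ↥(laurentBaseChange Qb (F1 M))) : LaurentSeries Qb) =
      qExpand Qb (p * p) (f : LaurentSeries Qb) *
        ∏ i ∈ Finset.range p, twist (ζ ^ i) (g : LaurentSeries Qb) :=
  qExpand_norm_alpha_beta (pLevel_pmGamma1 hpM) qbarEmb isAnModel_F1 (generates_F1 hM)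
    (jq_mem_F1 M) (exists_mul_diag_mul_pmGamma1 hpM h0 h1) f g hfg hζ

/-- **the Kummer transfer for `F₁(M)`** -/
theorem isKum_norm_F1 (hM : 1 < M) (hpM : ¬ p ∣ M)
    (f : ↥(laurentBaseChange Qb (F1 M))) (n : ℕ) [NeZero n]
    (ψ : Additive (pmGamma1 M) →+ ZMod n)
    (hK : IsKum (pmGamma1 M) n ((isAnModel_F1 (M := M)).toFunField qbarEmb f)
      (K3.expChar n ψ)) :
    IsKum (pmGamma1 M) n ((isAnModel_F1 (M := M)).toFunField qbarEmb
      (@Algebra.norm ↥(laurentBaseChange Qb (F1 M))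
        ↥(laurentBaseChange Qb (levelP (F1 M) p)) _ _
        (alphaBar Qb (F1 M) p).toRingHom.toAlgebra (betaBar Qb (F1 M) p f)))
      (K3.expChar n ((pLevel_pmGamma1 (p := p) hpM).stdDatum.combOp (ZMod n) ψ)) :=
  isKum_norm_alpha_betaG_expChar (pLevel_pmGamma1 hpM) qbarEmb isAnModel_F1 (generates_F1 hM)
    (jq_mem_F1 M) f n ψ hK

end Fermat.Agent.S48lib.X1.HeckeJ
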