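/-
S48lib / X1 / HeckeJ / DiamondF1 (helper6).
**The diamond operators on the model `F₁(M)` of `X₁(M)`.**  For `δ ∈ Γ₀(M)`:
* `Γ₀(M)` normalises `±Γ₁(M)` (`conj_mem_pmGamma1`);
* `tauB hb : FBar₁(M)` (the generator `τ_(0,b)`), `toFunField_tauB`;
* `diaStable_F1` : the image of `Φ` is stable under `k ↦ k ∘ δ`; hence
  **`diaF1 δ hδ : FBar₁(M) ≃ₐ[ℚ̄] FBar₁(M)`** with `Φ (diaF1 x) = (Φ x) ∘ δ`,
  `diaF1_tauB : diaF1 δ (τ_(0,b)) = τ_(0, b δ₁₁)`, `diaF1_j`;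
* **`diaF1_galois`** : `diaF1` commutes with the arithmetic Galois action of `G_ℚ`;
* **`qExpand_norm_diaF1`** : for `p ∤ M` and `p δ₁₁ ≡ ± 1 (mod M)`:
  `N_α (β f) (Q^p) = f(Q^(p²)) * ∏_{i<p} (diaF1 δ f)(ζ^i Q)`.
-/
import Mathlib
import Fermat.Agent.S48lib.X1.HeckeJ.Diamond
import Fermat.Agent.S48lib.X1.HeckeJ.InstF1
import Fermat.Agent.S37lib.ES.CorrDiv

set_option autoImplicit false
set_option linter.unusedSectionVars false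
set_option linter.style.haveILetI false

noncomputable section

namespace Fermat.Agent.S48lib.X1.HeckeJ

open UpperHalfPlane Matrix.SpecialLinearGroup Fermat.Agent.ProgramR CongruenceSubgroup ModularForm
open ModularCurve IntermediateField Fermat.Agent.ProgramR.BarField
open Fermat.Agent.S29lib.H Fermat.Agent.S28lib
open Fermat.Agent.S48lib.X1 Fermat.Agent.S48lib.X1.Wp
open scoped MatrixGroups

local notation "Qb" => AlgebraicClosure ℚ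

variable {M : ℕ} [NeZero M]

/-! ### `Γ₀(M)` normalises `±Γ₁(M)` -/

theorem sl_det_eq (g : SL(2, ℤ)) : g 0 0 * g 1 1 - g 0 1 * g 1 0 = 1 := by
  have h := g.det_coe
  rwa [Matrix.det_fin_two] at h

theorem conj_mem_pmGamma1 {δ : SL(2, ℤ)} (hδ : (M : ℤ) ∣ δ 1 0) {γ : SL(2, ℤ)}
    (hγ : γ ∈ pmGamma1 M) : δ * γ * δ⁻¹ ∈ pmGamma1 M := by
  have hd := sl_det_eq δ
  have e10 : (δ * γ * δ⁻¹) 1 0 = (δ 1 0 * γ 0 0 + δ 1 1 * γ 1 0) * δ 1 1 -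
      (δ 1 0 * γ 0 1 + δ 1 1 * γ 1 1) * δ 1 0 := by
    simp [Matrix.mul_apply, Fin.sum_univ_two, Matrix.adjugate_fin_two]
    ring
  have e11 : (δ * γ * δ⁻¹) 1 1 = -(δ 1 0 * γ 0 0 + δ 1 1 * γ 1 0) * δ 0 1 +
      (δ 1 0 * γ 0 1 + δ 1 1 * γ 1 1) * δ 0 0 := by
    simp [Matrix.mul_apply, Fin.sum_univ_two, Matrix.adjugate_fin_two]
    ring
  rw [mem_pmGamma1_iff_dvd] at hγ ⊢
  obtain ⟨⟨k₂, hk₂⟩, hw⟩ := hγ
  obtain ⟨k₁, hk₁⟩ := hδ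
  rw [e10, e11]
  refine ⟨⟨k₁ * γ 0 0 * δ 1 1 + δ 1 1 * k₂ * δ 1 1 - δ 1 0 * γ 0 1 * k₁ - δ 1 1 * γ 1 1 * k₁,
    by rw [hk₂]; linear_combination (γ 0 0 * δ 1 1 - δ 1 0 * γ 0 1 - δ 1 1 * γ 1 1) * hk₁ +
      (M : ℤ) * k₁ * γ 0 1 * hk₁ - (M : ℤ) * k₁ * γ 0 1 * hk₁⟩, ?_⟩
  rcases hw with ⟨k₃, hk₃⟩ | ⟨k₃, hk₃⟩
  · left
    refine ⟨-(k₁ * γ 0 0 * δ 0 1) - δ 1 1 * k₂ * δ 0 1 + k₁ * γ 0 1 * δ 0 0 +
      δ 1 1 * k₃ * δ 0 0 + δ 0 1 * k₁, ?_⟩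
    linear_combination (-(γ 0 0 * δ 0 1) + γ 0 1 * δ 0 0 + δ 0 1) * hk₁ -
      δ 1 1 * δ 0 1 * hk₂ + δ 1 1 * δ 0 0 * hk₃ + hd
  · right
    refine ⟨-(k₁ * γ 0 0 * δ 0 1) - δ 1 1 * k₂ * δ 0 1 + k₁ * γ 0 1 * δ 0 0 +
      δ 1 1 * k₃ * δ 0 0 - δ 0 1 * k₁, ?_⟩
    linear_combination (-(γ 0 0 * δ 0 1) + γ 0 1 * δ 0 0 - δ 0 1) * hk₁ -
      δ 1 1 * δ 0 1 * hk₂ + δ 1 1 * δ 0 0 * hk₃ - hd


theorem isCoprime_of_dvd {δ : SL(2, ℤ)} (hδ : (M : ℤ) ∣ δ 1 0) : IsCoprime (δ 1 1) (M : ℤ) := by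
  obtain ⟨k, hk⟩ := hδ
  refine ⟨δ 0 0, -(δ 0 1 * k), ?_⟩
  have := sl_det_eq δ
  rw [hk] at this
  linear_combination this

theorem inv_one_zero (δ : SL(2, ℤ)) : (δ⁻¹ : SL(2, ℤ)) 1 0 = -δ 1 0 := by
  simp [Matrix.SpecialLinearGroup.coe_inv, Matrix.adjugate_fin_two]

theorem inv_one_one (δ : SL(2, ℤ)) : (δ⁻¹ : SL(2, ℤ)) 1 1 = δ 0 0 := by
  simp [Matrix.SpecialLinearGroup.coe_inv, Matrix.adjugate_fin_two]

theorem dvd_inv_one_zero {δ : SL(2, ℤ)} (hδ : (M : ℤ) ∣ δ 1 0) : (M : ℤ) ∣ (δ⁻¹ : SL(2, ℤ)) 1 0 := by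
  rw [inv_one_zero]
  exact (dvd_neg).mpr hδ

/-- `Γ₀(M)` normalises `±Γ₁(M)` -/
theorem normalises_pmGamma1 {δ : SL(2, ℤ)} (hδ : (M : ℤ) ∣ δ 1 0) :
    ∀ γ ∈ pmGamma1 M, δ * γ * δ⁻¹ ∈ pmGamma1 M := fun _ hγ => conj_mem_pmGamma1 hδ hγ

theorem not_dvd_mul_right {δ : SL(2, ℤ)} (hδ : (M : ℤ) ∣ δ 1 0) {b : ℤ} (hb : ¬ (M : ℤ) ∣ b) :
    ¬ (M : ℤ) ∣ b * δ 1 1 := fun h =>
  not_dvd_mul_of_isCoprime (isCoprime_of_dvd hδ) hb (by rwa [mul_comm])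

/-! ### the generators `τ_(0,b)` in `FBar₁(M)` -/

/-- `τ_(0,b)` as an element of `FBar₁(M)` -/
def tauB {b : ℤ} (hb : ¬ (M : ℤ) ∣ b) : ↥(laurentBaseChange Qb (F1 M)) :=
  ⟨tauqL Qb M (zbar M) b, tauqL_mem_FBar1 M hb⟩

@[simp] theorem coe_tauB {b : ℤ} (hb : ¬ (M : ℤ) ∣ b) :
    ((tauB hb : ↥(laurentBaseChange Qb (F1 M))) : LaurentSeries Qb) = tauqL Qb M (zbar M) b :=
  rfl

theorem tauB_eq_of_eq {b b' : ℤ} (h : b = b') (hb : ¬ (M : ℤ) ∣ b) (hb' : ¬ (M : ℤ) ∣ b') :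
    tauB hb = tauB hb' := by
  subst h; rfl

theorem tauWH0_eq_of_eq {b b' : ℤ} (h : b = b') (hb : ¬ (M : ℤ) ∣ b) (hb' : ¬ (M : ℤ) ∣ b') :
    tauWH0 hb = tauWH0 hb' := by
  subst h; rfl

variable (M) in
/-- the exponent `c` with `e(ζ̄_M) = e(1/M)^c` -/
def cEmb : ℤ := (exists_zEmb_eq M).choose

variable (M) in
theorem zEmb_eq_cEmb : zEmb M = zC M ^ cEmb M := (exists_zEmb_eq M).choose_spec.1

variable (M) in
theorem isCoprime_cEmb : IsCoprime (cEmb M) (M : ℤ) := (exists_zEmb_eq M).choose_spec.2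

/-- **the comparison map on generators**: `Φ (τ_(0,b)) = τ^an_(0, c b)` -/
theorem toFunField_tauB {b : ℤ} (hb : ¬ (M : ℤ) ∣ b) :
    (isAnModel_F1 (M := M)).toFunField (qbarEmb : Qb →+* ℂ) (tauB hb) =
      algebraMap _ _ (tauWH0 (not_dvd_mul_of_isCoprime (isCoprime_cEmb M) hb)) := by
  rw [IsAnModel.toFunField_eq_iff, coe_tauB, coeffMap_tauqL]
  have : Units.map ((qbarEmb : Qb →+* ℂ) : Qb →* ℂ) (zbar M) = zC M ^ cEmb M := zEmb_eq_cEmb M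
  rw [this, tauqL_zC_zpow_mem (isCoprime_cEmb M) hb]
  exact (qExpFFW_algebraMap _ _ _ _).symm

/-- **the analytic diamond on generators**: `τ^an_(0,b) ∘ δ = τ^an_(0, b δ₁₁)` -/
theorem diaWH0_tauWH0 {δ : SL(2, ℤ)} (hδ : (M : ℤ) ∣ δ 1 0)
    (hn : ∀ γ ∈ pmGamma1 M, δ * γ * δ⁻¹ ∈ pmGamma1 M) {b : ℤ} (hb : ¬ (M : ℤ) ∣ b)
    (hb' : ¬ (M : ℤ) ∣ b * δ 1 1) :
    diaWH0 δ hn (tauWH0 hb) = tauWH0 hb' := by
  apply Subtype.ext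
  funext z
  show tauAn M (e0 b) ((mapGL ℝ δ : GL (Fin 2) ℝ) • z) = tauAn M (e0 (b * δ 1 1)) z
  have h1 : tauAn M (e0 b) (δ • z) = tauAn M (rowMul (e0 b) δ) z := tauAn_smul M (e0 b) δ z
  have h2 : tauAn M (rowMul (e0 b) δ) = tauAn M (e0 (b * δ 1 1)) := by
    refine tauAn_congr M fun i => ?_
    fin_cases i
    · show (M : ℤ) ∣ rowMul (e0 b) δ 0 - e0 (b * δ 1 1) 0
      rw [rowMul_e0_zero]
      simpa [e0] using hδ.mul_left b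
    · show (M : ℤ) ∣ rowMul (e0 b) δ 1 - e0 (b * δ 1 1) 1
      rw [rowMul_e0_one]
      simp [e0]
  exact h1.trans (congrFun h2 z)

/-! ### stability and the diamond on `FBar₁(M)` -/

theorem diaFF_toFunField_tauB {δ : SL(2, ℤ)} (hδ : (M : ℤ) ∣ δ 1 0) {b : ℤ}
    (hb : ¬ (M : ℤ) ∣ b) :
    diaFF δ (normalises_pmGamma1 hδ)
        ((isAnModel_F1 (M := M)).toFunField (qbarEmb : Qb →+* ℂ) (tauB hb)) =
      (isAnModel_F1 (M := M)).toFunField (qbarEmb : Qb →+* ℂ) (tauB (not_dvd_mul_right hδ hb)) := by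
  rw [toFunField_tauB, toFunField_tauB, diaFF_algebraMap,
    diaWH0_tauWH0 hδ _ _ (not_dvd_mul_right hδ (not_dvd_mul_of_isCoprime (isCoprime_cEmb M) hb))]
  congr 1
  exact tauWH0_eq_of_eq (mul_assoc _ _ _) _ _

/-- **the image of `Φ` is stable under `k ↦ k ∘ δ`, `δ ∈ Γ₀(M)`** -/
theorem diaStable_F1 {δ : SL(2, ℤ)} (hδ : (M : ℤ) ∣ δ 1 0) :
    DiaStable (isAnModel_F1 (M := M)) (qbarEmb : Qb →+* ℂ) δ (normalises_pmGamma1 hδ) := by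
  refine diaStable_of_gen _ _ _ _ (genSet Qb M (zbar M)) (FBar1_le_genL M) ?_
  rintro x (rfl | ⟨b, hb, rfl⟩)
  · refine ⟨jqModC_mem (F1 M) (jq_mem_F1 M), jBq (F1 M) (jq_mem_F1 M), ?_⟩
    have hj := (isAnModel_F1 (M := M)).toFunField_j (qbarEmb : Qb →+* ℂ)
      (jBq (F1 M) (jq_mem_F1 M)) rfl
    show (isAnModel_F1 (M := M)).toFunField (qbarEmb : Qb →+* ℂ) (jBq (F1 M) (jq_mem_F1 M)) =
      diaFF δ (normalises_pmGamma1 hδ)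
        ((isAnModel_F1 (M := M)).toFunField (qbarEmb : Qb →+* ℂ) (jBq (F1 M) (jq_mem_F1 M)))
    rw [hj, diaFF_j]
  · exact ⟨tauqL_mem_FBar1 M hb, tauB (not_dvd_mul_right hδ hb),
      (diaFF_toFunField_tauB hδ hb).symm⟩

/-- **the diamond operator of `δ ∈ Γ₀(M)` on `FBar₁(M)`**: `Φ (⟨δ⟩ x) = (Φ x) ∘ δ` -/
def diaF1 (δ : SL(2, ℤ)) (hδ : (M : ℤ) ∣ δ 1 0) :
    ↥(laurentBaseChange Qb (F1 M)) ≃ₐ[Qb] ↥(laurentBaseChange Qb (F1 M)) :=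
  diaEquiv isAnModel_F1 (qbarEmb : Qb →+* ℂ) δ (normalises_pmGamma1 hδ)
    (normalises_pmGamma1 (dvd_inv_one_zero hδ)) (diaStable_F1 hδ)
    (diaStable_F1 (dvd_inv_one_zero hδ))

theorem diaF1_apply (δ : SL(2, ℤ)) (hδ : (M : ℤ) ∣ δ 1 0) (x : ↥(laurentBaseChange Qb (F1 M))) :
    diaF1 δ hδ x = diaHom isAnModel_F1 (qbarEmb : Qb →+* ℂ) δ (normalises_pmGamma1 hδ)
      (diaStable_F1 hδ) x := rfl

theorem toFunField_diaF1 (δ : SL(2, ℤ)) (hδ : (M : ℤ) ∣ δ 1 0)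
    (x : ↥(laurentBaseChange Qb (F1 M))) :
    (isAnModel_F1 (M := M)).toFunField (qbarEmb : Qb →+* ℂ) (diaF1 δ hδ x) =
      diaFF δ (normalises_pmGamma1 hδ)
        ((isAnModel_F1 (M := M)).toFunField (qbarEmb : Qb →+* ℂ) x) :=
  toFunField_diaHom isAnModel_F1 (qbarEmb : Qb →+* ℂ) δ (normalises_pmGamma1 hδ)
    (diaStable_F1 hδ) x

theorem toMer_toFunField_diaF1 (δ : SL(2, ℤ)) (hδ : (M : ℤ) ∣ δ 1 0)
    (x : ↥(laurentBaseChange Qb (F1 M))) :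
    toMer (pmGamma1 M)
        ((isAnModel_F1 (M := M)).toFunField (qbarEmb : Qb →+* ℂ) (diaF1 δ hδ x)) =
      merComp (mapGL ℝ δ : GL (Fin 2) ℝ) (isIntMat_mapGL δ).det_pos
        (toMer (pmGamma1 M) ((isAnModel_F1 (M := M)).toFunField (qbarEmb : Qb →+* ℂ) x)) :=
  toMer_toFunField_diaHom isAnModel_F1 (qbarEmb : Qb →+* ℂ) δ (normalises_pmGamma1 hδ)
    (diaStable_F1 hδ) x

/-- **the diamond on generators**: `⟨δ⟩ τ_(0,b) = τ_(0, b δ₁₁)` -/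
theorem diaF1_tauB (δ : SL(2, ℤ)) (hδ : (M : ℤ) ∣ δ 1 0) {b : ℤ} (hb : ¬ (M : ℤ) ∣ b) :
    diaF1 δ hδ (tauB hb) = tauB (not_dvd_mul_right hδ hb) := by
  rw [diaF1_apply, diaHom_eq_iff]
  exact (diaFF_toFunField_tauB hδ hb).symm

/-- the diamond fixes `j` -/
theorem diaF1_jBq (δ : SL(2, ℤ)) (hδ : (M : ℤ) ∣ δ 1 0) :
    diaF1 δ hδ (jBq (F1 M) (jq_mem_F1 M)) = jBq (F1 M) (jq_mem_F1 M) :=
  diaHom_j isAnModel_F1 (qbarEmb : Qb →+* ℂ) δ (normalises_pmGamma1 hδ) (diaStable_F1 hδ) _ rfl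

/-! ### commutation with the arithmetic Galois action -/

theorem exists_zpow_eq_of_isPrimitiveRoot {K : Type*} [Field K] {ζ ξ : Kˣ}
    (hζ : IsPrimitiveRoot ζ M) (hξ : IsPrimitiveRoot ξ M) :
    ∃ s : ℤ, ξ = ζ ^ s ∧ IsCoprime s (M : ℤ) := by
  have hz : IsPrimitiveRoot ((ζ : Kˣ) : K) M := IsPrimitiveRoot.coe_units_iff.mpr hζ
  have hu1 : ((ξ : Kˣ) : K) ^ M = 1 := by
    rw [← Units.val_pow_eq_pow_val, hξ.pow_eq_one]; rfl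
  obtain ⟨i, -, hi'⟩ := hz.eq_pow_of_pow_eq_one hu1
  have hi : ζ ^ i = ξ := by
    apply Units.ext
    rw [Units.val_pow_eq_pow_val]
    exact hi'
  refine ⟨(i : ℤ), by rw [zpow_natCast, hi], ?_⟩
  rw [← hi] at hξ
  have hcop : i.Coprime M := (hζ.pow_iff_coprime (NeZero.pos M) i).mp hξ
  rw [Int.isCoprime_iff_gcd_eq_one, Int.gcd_natCast_natCast]
  exact hcop

/-- the exponent of the cyclotomic character: `σ ζ̄_M = ζ̄_M ^ s` -/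
theorem exists_galois_zbar (σ : Qb ≃ₐ[ℚ] Qb) :
    ∃ s : ℤ, Units.map ((σ : Qb →+* Qb) : Qb →* Qb) (zbar M) = zbar M ^ s ∧
      IsCoprime s (M : ℤ) := by
  refine exists_zpow_eq_of_isPrimitiveRoot (zbar_spec M) ?_
  have h1 : IsPrimitiveRoot ((σ : Qb →+* Qb) ((zbar M : Qbˣ) : Qb)) M :=
    (IsPrimitiveRoot.coe_units_iff.mpr (zbar_spec M)).map_of_injective
      (σ : Qb →+* Qb).injective
  exact IsPrimitiveRoot.coe_units_iff.mp (by simpa using h1)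

/-- **the Galois action on generators**: `σ τ_(0,b) = τ_(0, s b)` -/
theorem arithmeticRingAut_tauB (σ : Qb ≃ₐ[ℚ] Qb) {s : ℤ}
    (hs : Units.map ((σ : Qb →+* Qb) : Qb →* Qb) (zbar M) = zbar M ^ s)
    (hcop : IsCoprime s (M : ℤ)) {b : ℤ} (hb : ¬ (M : ℤ) ∣ b) :
    arithmeticRingAut (F1 M) σ (tauB hb) = tauB (not_dvd_mul_of_isCoprime hcop hb) := by
  apply Subtype.ext
  rw [coe_arithmeticRingAut_apply, coe_tauB, coe_tauB, coeffMap_tauqL, hs, tauqL_zpow]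

/-- **the diamond commutes with the coefficientwise Galois action** -/
theorem diaF1_arithmeticRingAut (δ : SL(2, ℤ)) (hδ : (M : ℤ) ∣ δ 1 0) (σ : Qb ≃ₐ[ℚ] Qb)
    (x : ↥(laurentBaseChange Qb (F1 M))) :
    diaF1 δ hδ (arithmeticRingAut (F1 M) σ x) = arithmeticRingAut (F1 M) σ (diaF1 δ hδ x) := by
  obtain ⟨s, hs, hcop⟩ := exists_galois_zbar (M := M) σ
  refine diaHom_arithmeticRingAut_of_gen isAnModel_F1 (qbarEmb : Qb →+* ℂ) δ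
    (normalises_pmGamma1 hδ) (diaStable_F1 hδ) σ (genSet Qb M (zbar M)) (FBar1_le_genL M) ?_ x
  rintro y (rfl | ⟨b, hb, rfl⟩)
  · refine ⟨jqModC_mem (F1 M) (jq_mem_F1 M), ?_⟩
    have hσj : arithmeticRingAut (F1 M) σ (jBq (F1 M) (jq_mem_F1 M)) =
        jBq (F1 M) (jq_mem_F1 M) := by
      apply Subtype.ext
      rw [coe_arithmeticRingAut_apply, coe_jBq, coeffMap_jqModC]
    show diaF1 δ hδ (arithmeticRingAut (F1 M) σ (jBq (F1 M) (jq_mem_F1 M))) =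
      arithmeticRingAut (F1 M) σ (diaF1 δ hδ (jBq (F1 M) (jq_mem_F1 M)))
    rw [hσj, diaF1_jBq, hσj]
  · refine ⟨tauqL_mem_FBar1 M hb, ?_⟩
    show diaF1 δ hδ (arithmeticRingAut (F1 M) σ (tauB hb)) =
      arithmeticRingAut (F1 M) σ (diaF1 δ hδ (tauB hb))
    rw [arithmeticRingAut_tauB σ hs hcop, diaF1_tauB, diaF1_tauB,
      arithmeticRingAut_tauB σ hs hcop]
    exact tauB_eq_of_eq (mul_assoc _ _ _) _ _

/-- **the diamond commutes with `G_ℚ`** -/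
theorem diaF1_galois (δ : SL(2, ℤ)) (hδ : (M : ℤ) ∣ δ 1 0) (σ : Qb ≃ₐ[ℚ] Qb)
    (x : ↥(laurentBaseChange Qb (F1 M))) :
    diaF1 δ hδ (arithmeticGalois (F1 M) σ • x) = arithmeticGalois (F1 M) σ • diaF1 δ hδ x :=
  diaF1_arithmeticRingAut δ hδ σ x

/-! ### the norm formula with the diamond -/

variable {p : ℕ} [Fact p.Prime]

/-- **the Hecke norm formula in `q`-expansions for `F₁(M)`, with the diamond `⟨δ⟩`,
`p δ₁₁ ≡ ± 1 (mod M)`** -/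
theorem qExpand_norm_diaF1 (hM : 1 < M) (hpM : ¬ p ∣ M) {δ : SL(2, ℤ)}
    (h0 : (M : ℤ) ∣ δ 1 0)
    (h1 : (M : ℤ) ∣ (p : ℤ) * δ 1 1 - 1 ∨ (M : ℤ) ∣ (p : ℤ) * δ 1 1 + 1)
    (f : ↥(laurentBaseChange Qb (F1 M))) {ζ : Qbˣ} (hζ : IsPrimitiveRoot ζ p) :
    qExpand Qb p
        ((Fermat.Agent.S37lib.ES.normAlong (alphaBar Qb (F1 M) p) (betaBar Qb (F1 M) p f) :
            ↥(laurentBaseChange Qb (F1 M))) : LaurentSeries Qb) =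
      qExpand Qb (p * p) (f : LaurentSeries Qb) *
        ∏ i ∈ Finset.range p, twist (ζ ^ i) ((diaF1 δ h0 f : ↥(laurentBaseChange Qb (F1 M))) :
          LaurentSeries Qb) :=
  qExpand_norm_F1 hM hpM h0 h1 f (diaF1 δ h0 f) (toMer_toFunField_diaF1 δ h0 f) hζ

/-- existence of `δ ∈ Γ₀(M)` with prescribed `δ₁₁` prime to `M` -/
theorem exists_delta {d : ℤ} (hd : IsCoprime d (M : ℤ)) :
    ∃ δ : SL(2, ℤ), δ 1 0 = (M : ℤ) ∧ δ 1 1 = d := by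
  obtain ⟨u, v, huv⟩ := hd
  refine ⟨⟨!![u, -v; (M : ℤ), d], ?_⟩, rfl, rfl⟩
  rw [Matrix.det_fin_two_of]
  linear_combination huv

/-- **P4 for `F₁(M)`, packaged**: the diamond `[p]⁻¹`, an automorphism of `FBar₁(M)` over `ℚ̄`
fixing `j`, commuting with `G_ℚ`, acting on the generators by `τ_(0,b) ↦ τ_(0, b d)` with
`p d ≡ 1 (mod M)`, and entering the norm formula
`N_α (β f) (Q^p) = f(Q^(p²)) * ∏_{i<p} (dia f)(ζ^i Q)`. -/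
theorem exists_dia_F1 (hM : 1 < M) (hpM : ¬ p ∣ M) :
    ∃ (dia : ↥(laurentBaseChange Qb (F1 M)) ≃ₐ[Qb] ↥(laurentBaseChange Qb (F1 M))) (d : ℤ),
      (M : ℤ) ∣ (p : ℤ) * d - 1 ∧
      dia (jBq (F1 M) (jq_mem_F1 M)) = jBq (F1 M) (jq_mem_F1 M) ∧
      (∀ (σ : Qb ≃ₐ[ℚ] Qb) (x : ↥(laurentBaseChange Qb (F1 M))),
        dia (arithmeticGalois (F1 M) σ • x) = arithmeticGalois (F1 M) σ • dia x) ∧
      (∀ {b : ℤ} (hb : ¬ (M : ℤ) ∣ b) (hb' : ¬ (M : ℤ) ∣ b * d), dia (tauB hb) = tauB hb') ∧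
      ∀ (f : ↥(laurentBaseChange Qb (F1 M))) {ζ : Qbˣ}, IsPrimitiveRoot ζ p →
        qExpand Qb p
          ((Fermat.Agent.S37lib.ES.normAlong (alphaBar Qb (F1 M) p) (betaBar Qb (F1 M) p f) :
            ↥(laurentBaseChange Qb (F1 M))) : LaurentSeries Qb) =
        qExpand Qb (p * p) (f : LaurentSeries Qb) *
          ∏ i ∈ Finset.range p, twist (ζ ^ i) ((dia f : ↥(laurentBaseChange Qb (F1 M))) :
            LaurentSeries Qb) := by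
  have hp : (Fact.out : p.Prime) = Fact.out := rfl
  have hcop : IsCoprime (p : ℤ) (M : ℤ) := by
    rw [Int.isCoprime_iff_gcd_eq_one, Int.gcd_natCast_natCast]
    exact (Nat.Prime.coprime_iff_not_dvd Fact.out).mpr hpM
  obtain ⟨u, v, huv⟩ := hcop
  have hd : IsCoprime u (M : ℤ) := ⟨(p : ℤ), v, by linear_combination huv⟩
  obtain ⟨δ, h10, h11⟩ := exists_delta (M := M) hd
  have h0 : (M : ℤ) ∣ δ 1 0 := by rw [h10]
  have h1 : (M : ℤ) ∣ (p : ℤ) * δ 1 1 - 1 := ⟨-v, by rw [h11]; linear_combination huv⟩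
  refine ⟨diaF1 δ h0, u, by rw [← h11]; exact h1, diaF1_jBq δ h0, diaF1_galois δ h0, ?_, ?_⟩
  · intro b hb hb'
    rw [diaF1_tauB δ h0 hb]
    exact tauB_eq_of_eq (by rw [h11]) _ _
  · intro f ζ hζ
    exact qExpand_norm_diaF1 hM hpM h0 (Or.inl h1) f hζ

end Fermat.Agent.S48lib.X1.HeckeJ
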