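/-
S48lib / X1 / HeckeJ / Tower (helper6).
**The tower of the models `F₁(M)`**: for `M ∣ M'`
* formal: `Xq M ζ κ b` only depends on `ζ ^ b` (`cX_zero_mul`, `Xq_congr`, `tauqL_congr_zpow`);
* `genL_le_of_dvd`, **`F1_le_of_dvd : F1 M ≤ F1 M'`**, `FBar1_le_of_dvd`;
* `levelIncl h : FBar₁(M) →ₐ[ℚ̄] FBar₁(M')`, commuting with `G_ℚ`, compatible with the
  comparison maps (`toFunField_levelIncl`).
-/
import Mathlib
import Fermat.Agent.S48lib.X1.HeckeJ.DiamondF1

set_option autoImplicit false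
set_option linter.unusedSectionVars false
set_option linter.style.haveILetI false

noncomputable section

namespace Fermat.Agent.S48lib.X1.HeckeJ

open UpperHalfPlane Matrix.SpecialLinearGroup Fermat.Agent.ProgramR CongruenceSubgroup ModularForm
open ModularCurve IntermediateField Fermat.Agent.ProgramR.BarField
open Fermat.Agent.S29lib.H Fermat.Agent.S28lib
open Fermat.Agent.S48lib.X1 Fermat.Agent.S48lib.X1.Wp
open scoped MatrixGroups

local notation "Qb" => AlgebraicClosure ℚ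

/-! ### formal: the toric series only depend on `ζ ^ b` -/

section Formal

variable {R : Type*} [CommRing R]

theorem divisors_filter_dvd_div (M m : ℕ) (hM : M ≠ 0) (hm : m ≠ 0) :
    (M * m).divisors.filter (fun d => M ∣ (M * m) / d) = m.divisors := by
  ext d
  simp only [Finset.mem_filter, Nat.mem_divisors]
  constructor
  · rintro ⟨⟨hd, -⟩, e, he⟩
    refine ⟨?_, hm⟩
    have h1 : M * m = d * (M * m / d) := (Nat.mul_div_cancel' hd).symm
    rw [he] at h1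
    have h2 : m = d * e := by
      apply Nat.eq_of_mul_eq_mul_left (Nat.pos_of_ne_zero hM)
      rw [h1]; ring
    exact ⟨e, h2⟩
  · rintro ⟨⟨e, rfl⟩, -⟩
    have hd0 : 0 < d := Nat.pos_of_ne_zero (fun h => hm (by rw [h, zero_mul]))
    refine ⟨⟨⟨M * e, by ring⟩, mul_ne_zero hM hm⟩, ?_⟩
    have h3 : M * (d * e) / d = M * e := by
      rw [show M * (d * e) = d * (M * e) by ring]
      exact Nat.mul_div_cancel_left _ hd0
    rw [h3]
    exact dvd_mul_right _ _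

/-- the coefficients of Tate's series at the point `u` of the toric part -/
def cU (u : Rˣ) (m : ℕ) : R :=
  ∑ d ∈ m.divisors, (d : R) * (((u ^ d : Rˣ) : R) + ((u⁻¹ ^ d : Rˣ) : R)) -
    2 * ((∑ d ∈ m.divisors, (d : ℤ) : ℤ) : R)

theorem cX_zero_mul (M : ℕ) (ζ : Rˣ) (b : ℤ) {m : ℕ} (hM : M ≠ 0) (hm : m ≠ 0) :
    cX M ζ 0 b (M * m) = cU (ζ ^ b) m := by
  unfold cX cU
  have hs : sigmaDiv M (M * m) = ∑ d ∈ m.divisors, (d : ℤ) := by
    unfold sigmaDiv
    rw [if_pos (dvd_mul_right M m), Nat.mul_div_cancel_left m (Nat.pos_of_ne_zero hM)]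
  rw [hs]
  congr 1
  rw [← divisors_filter_dvd_div M m hM hm, Finset.sum_filter]
  refine Finset.sum_congr rfl fun d _ => ?_
  have hiff : (((M * m / d : ℕ) : ℤ) ≡ 0 [ZMOD (M : ℤ)]) ↔ M ∣ M * m / d := by
    rw [Int.modEq_zero_iff_dvd, Int.natCast_dvd_natCast]
  simp only [neg_zero]
  by_cases h : M ∣ M * m / d
  · rw [if_pos h, if_pos (hiff.mpr h), if_pos (hiff.mpr h)]
    have e1 : ζ ^ (b * (d : ℤ)) = (ζ ^ b) ^ d := by rw [zpow_mul, zpow_natCast]
    have e2 : ζ ^ (-(b * (d : ℤ))) = (ζ ^ b)⁻¹ ^ d := by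
      rw [zpow_neg, e1, inv_pow]
    rw [e1, e2]
  · rw [if_neg h, if_neg (mt hiff.mp h), if_neg (mt hiff.mp h), add_zero, mul_zero]

theorem Xq_congr {M M' : ℕ} (hM : M ≠ 0) (hM' : M' ≠ 0) {ζ ζ' : Rˣ} (κ : R) {b b' : ℤ}
    (h : ζ ^ b = ζ' ^ b') : Xq M ζ κ b = Xq M' ζ' κ b' := by
  ext m
  rw [Xq, Xq, PowerSeries.coeff_mk, PowerSeries.coeff_mk]
  by_cases hm : m = 0
  · rw [if_pos hm, if_pos hm]
  · rw [if_neg hm, if_neg hm, cX_zero_mul M ζ b hM hm, cX_zero_mul M' ζ' b' hM' hm, h]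

theorem tauq_congr_zpow {M M' : ℕ} (hM : M ≠ 0) (hM' : M' ≠ 0) {ζ ζ' : Rˣ} (κ : R) {b b' : ℤ}
    (h : ζ ^ b = ζ' ^ b') : tauq M ζ κ b = tauq M' ζ' κ b' := by
  unfold tauq
  rw [Xq_congr hM hM' κ h]

theorem tauqL_congr_zpow {L : Type*} [Field L] {M M' : ℕ} (hM : M ≠ 0) (hM' : M' ≠ 0)
    {ζ ζ' : Lˣ} {b b' : ℤ} (h : ζ ^ b = ζ' ^ b') :
    tauqL L M ζ b = tauqL L M' ζ' b' := by
  unfold tauqL
  rw [h]
  exact tauq_congr_zpow hM hM' _ h

end Formal

/-! ### the tower -/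

section Tower

variable {M M' : ℕ} [NeZero M] [NeZero M']

theorem genL_le_of_dvd (h : M ∣ M') : genL Qb M (zbar M) ≤ genL Qb M' (zbar M') := by
  obtain ⟨t, rfl⟩ := h
  have ht0 : t ≠ 0 := fun h0 => NeZero.ne (M * t) (by rw [h0, mul_zero])
  have hξ : IsPrimitiveRoot (zbar (M * t) ^ t) M :=
    (zbar_spec (M * t)).pow (Nat.pos_of_ne_zero (NeZero.ne (M * t))) (mul_comm M t)
  obtain ⟨s, hs, hcop⟩ := exists_zpow_eq_of_isPrimitiveRoot hξ (zbar_spec M)
  rw [genL, IntermediateField.adjoin_le_iff]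
  rintro x (rfl | ⟨b, hb, rfl⟩)
  · exact jqModC_mem_genL Qb (M * t) _
  · have hpow : zbar M ^ b = zbar (M * t) ^ ((t : ℤ) * s * b) := by
      rw [hs, ← zpow_natCast, ← zpow_mul, ← zpow_mul, mul_assoc]
    rw [tauqL_congr_zpow (NeZero.ne M) (NeZero.ne (M * t)) hpow]
    refine tauqL_mem_genL Qb (M * t) _ ?_
    intro hdvd
    apply hb
    have h1 : ((M * t : ℕ) : ℤ) = (t : ℤ) * (M : ℤ) := by push_cast; ring
    rw [h1, mul_assoc] at hdvd
    have h2 : (M : ℤ) ∣ s * b :=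
      (mul_dvd_mul_iff_left (by exact_mod_cast ht0 : (t : ℤ) ≠ 0)).mp hdvd
    exact hcop.symm.dvd_of_dvd_mul_left h2

/-- **`F₁(M) ⊆ F₁(M')` for `M ∣ M'`** -/
theorem F1_le_of_dvd (h : M ∣ M') : F1 M ≤ F1 M' := fun _ hx =>
  (mem_F1_iff M').mpr (genL_le_of_dvd h ((mem_F1_iff M).mp hx))

theorem FBar1_le_of_dvd (h : M ∣ M') :
    (laurentBaseChange Qb (F1 M) : IntermediateField Qb (LaurentSeries Qb)) ≤
      laurentBaseChange Qb (F1 M') := by
  rw [laurentBaseChange, laurentBaseChange]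
  apply IntermediateField.adjoin.mono
  rintro _ ⟨x, hx, rfl⟩
  exact ⟨x, F1_le_of_dvd h hx, rfl⟩

/-- the inclusion `FBar₁(M) → FBar₁(M')` -/
def levelIncl (h : M ∣ M') :
    ↥(laurentBaseChange Qb (F1 M)) →ₐ[Qb] ↥(laurentBaseChange Qb (F1 M')) where
  toFun x := ⟨(x : LaurentSeries Qb), FBar1_le_of_dvd h x.2⟩
  map_one' := rfl
  map_mul' _ _ := rfl
  map_zero' := rfl
  map_add' _ _ := rfl
  commutes' _ := rfl

theorem levelIncl_apply (h : M ∣ M') (x : ↥(laurentBaseChange Qb (F1 M))) :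
    levelIncl h x = ⟨(x : LaurentSeries Qb), FBar1_le_of_dvd h x.2⟩ := rfl

theorem coe_levelIncl (h : M ∣ M') (x : ↥(laurentBaseChange Qb (F1 M))) :
    ((levelIncl h x : ↥(laurentBaseChange Qb (F1 M'))) : LaurentSeries Qb) = x :=
  congrArg Subtype.val (levelIncl_apply h x)

theorem levelIncl_injective (h : M ∣ M') : Function.Injective (levelIncl h) :=
  (levelIncl h).toRingHom.injective

theorem levelIncl_jBq (h : M ∣ M') :
    levelIncl h (jBq (F1 M) (jq_mem_F1 M)) = jBq (F1 M') (jq_mem_F1 M') := by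
  apply Subtype.ext
  rw [coe_levelIncl, coe_jBq, coe_jBq]

/-- the inclusion commutes with `G_ℚ` -/
theorem levelIncl_galois (h : M ∣ M') (σ : Qb ≃ₐ[ℚ] Qb) (x : ↥(laurentBaseChange Qb (F1 M))) :
    levelIncl h (arithmeticGalois (F1 M) σ • x) =
      arithmeticGalois (F1 M') σ • levelIncl h x := by
  apply Subtype.ext
  rw [coe_levelIncl, coe_arithmeticGalois_smul, coe_arithmeticGalois_smul, coe_levelIncl]

theorem pmGamma1_le_of_dvd (h : M ∣ M') : pmGamma1 M' ≤ pmGamma1 M := by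
  intro γ hγ
  rw [mem_pmGamma1_iff_dvd] at hγ ⊢
  have hd : (M : ℤ) ∣ (M' : ℤ) := Int.natCast_dvd_natCast.mpr h
  exact ⟨hd.trans hγ.1, hγ.2.imp hd.trans hd.trans⟩

/-- the analytic inclusion `Frac WH0 (±Γ₁(M)) → Frac WH0 (±Γ₁(M'))` -/
def levelInclAn (h : M ∣ M') : WH0.FunField (pmGamma1 M) →+* WH0.FunField (pmGamma1 M') :=
  funFieldMap (inclWH0 (pmGamma1_le_of_dvd h)) (inclWH0_injective (pmGamma1_le_of_dvd h))

theorem levelInclAn_algebraMap (h : M ∣ M') (a : WH0 (pmGamma1 M)) :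
    levelInclAn h (algebraMap _ _ a) = algebraMap _ _ (inclWH0 (pmGamma1_le_of_dvd h) a) :=
  funFieldMap_algebraMap _ _ a

theorem qExpFFW_levelInclAn (h : M ∣ M') (k : WH0.FunField (pmGamma1 M)) :
    qExpFFW (pmGamma1 M') 1 T_mem_pmGamma1 (levelInclAn h k) =
      qExpFFW (pmGamma1 M) 1 T_mem_pmGamma1 k := by
  have : (qExpFFW (pmGamma1 M') 1 T_mem_pmGamma1).comp (levelInclAn h) =
      qExpFFW (pmGamma1 M) 1 T_mem_pmGamma1 := by
    apply funField_ringHom_ext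
    intro a
    rw [RingHom.comp_apply, levelInclAn_algebraMap, qExpFFW_algebraMap, qExpFFW_algebraMap]
    rfl
  exact congrArg (fun φ : WH0.FunField (pmGamma1 M) →+* LaurentSeries ℂ => φ k) this

theorem toMer_levelInclAn (h : M ∣ M') (k : WH0.FunField (pmGamma1 M)) :
    toMer (pmGamma1 M') (levelInclAn h k) = toMer (pmGamma1 M) k := by
  have : (toMer (pmGamma1 M')).comp (levelInclAn h) = toMer (pmGamma1 M) := by
    apply funField_ringHom_ext
    intro a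
    rw [RingHom.comp_apply, levelInclAn_algebraMap, toMer_algebraMap, toMer_algebraMap]
    rfl
  exact congrArg (fun φ : WH0.FunField (pmGamma1 M) →+* Mer => φ k) this

/-- **the inclusions are compatible with the comparison maps** -/
theorem toFunField_levelIncl (h : M ∣ M') (x : ↥(laurentBaseChange Qb (F1 M))) :
    (isAnModel_F1 (M := M')).toFunField (qbarEmb : Qb →+* ℂ) (levelIncl h x) =
      levelInclAn h ((isAnModel_F1 (M := M)).toFunField (qbarEmb : Qb →+* ℂ) x) := by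
  rw [IsAnModel.toFunField_eq_iff, qExpFFW_levelInclAn, IsAnModel.qExpFFW_toFunField,
    coe_levelIncl]

end Tower

end Fermat.Agent.S48lib.X1.HeckeJ
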