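/-
S48lib / X1 / HeckeJ / Rational (helper6).
**The comparison map is onto the `L`-rational elements.**  For an analytic `q`-model `F₀` of `Γ`
satisfying `Generates`: if an element `c` of the analytic function field `Frac (WH0 Γ)` has a
`q`-expansion with coefficients in `L` (i.e. `= coeffMap e y`, `y ∈ L((q))`), then `y ∈ L F₀` and
`Φ y = c` (`exists_toFunField_eq`).  Uses helper3's descent lemma `mem_of_coeffMap_mem_adjoin`.
Application: `X₀(M) ⊆ X₁(M)`, i.e. `modularFunctionFieldFull M ≤ F1 M` (`full_le_F1`).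
-/
import Mathlib
import Fermat.Agent.S48lib.X1.HeckeJ.Tower
import Fermat.Agent.S48lib.X1.Field.DescentGen

set_option autoImplicit false
set_option linter.unusedSectionVars false
set_option linter.style.haveILetI false

noncomputable section

namespace Fermat.Agent.S48lib.X1.HeckeJ

open UpperHalfPlane Matrix.SpecialLinearGroup Fermat.Agent.ProgramR CongruenceSubgroup ModularForm
open ModularCurve IntermediateField Fermat.Agent.ProgramR.BarField Fermat.Agent.ProgramR.QExp
open Fermat.Agent.S29lib.H Fermat.Agent.S28lib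
open Fermat.Agent.S48lib.X1 Fermat.Agent.S48lib.X1.Wp
open scoped MatrixGroups

local notation "Qb" => AlgebraicClosure ℚ

section Generic

variable {Γ : Subgroup SL(2, ℤ)} {hT : ModularGroup.T ^ ((1 : ℕ) : ℤ) ∈ Γ}
variable {F₀ : IntermediateField ℚ (LaurentSeries ℚ)} (hM : IsAnModel Γ hT F₀)
variable {L : Type*} [Field L] [Algebra ℚ L] (e : L →+* ℂ)

/-- the `q`-expansion of an element of `algΦ` lies in the field generated over `ℂ` by the
expansions of the model -/
theorem qExpFFW_mem_of_mem_algΦG {w : WH0.FunField Γ} (hw : w ∈ algΦG hM e) :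
    qExpFFW Γ 1 hT w ∈ IntermediateField.adjoin ℂ
      (coeffMap e '' ((laurentBaseChange L F₀ : IntermediateField L (LaurentSeries L)) :
        Set (LaurentSeries L))) := by
  induction hw using Algebra.adjoin_induction with
  | mem w hw =>
    obtain ⟨x, rfl⟩ := hw
    rw [hM.qExpFFW_toFunField]
    exact IntermediateField.subset_adjoin ℂ _ ⟨x, x.2, rfl⟩
  | algebraMap c =>
    rw [qExpFFW_const']
    have : (HahnSeries.C c : LaurentSeries ℂ) = algebraMap ℂ (LaurentSeries ℂ) c := by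
      rw [algebraMap_laurentSeries_eq_single]
      rfl
    rw [this]
    exact IntermediateField.algebraMap_mem _ c
  | add x y _ _ hx hy =>
    rw [map_add]
    exact add_mem hx hy
  | mul x y _ _ hx hy =>
    rw [map_mul]
    exact mul_mem hx hy

/-- **the comparison map is onto the `L`-rational elements** -/
theorem IsAnModel.exists_toFunField_eq (hgen : Generates hM e) (hj : jq ∈ F₀)
    (c : WH0.FunField Γ) (y : LaurentSeries L) (hy : qExpFFW Γ 1 hT c = coeffMap e y) :
    ∃ hyK : y ∈ laurentBaseChange L F₀, hM.toFunField e ⟨y, hyK⟩ = c := by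
  have hyK : y ∈ laurentBaseChange L F₀ := by
    apply mem_of_coeffMap_mem_adjoin e
    rw [← hy]
    obtain ⟨q, hq0, hq⟩ := hgen c
    have h1 := qExpFFW_mem_of_mem_algΦG hM e hq
    have h2 := qExpFFW_mem_of_mem_algΦG hM e (jPoly_mem_algΦG hM e hj q)
    have h3 : qExpFFW Γ 1 hT (jPoly Γ q) ≠ 0 := by
      intro h0
      exact jPoly_ne_zero hq0 (qExpFFW_injective Γ 1 hT (h0.trans (map_zero _).symm))
    rw [map_mul] at h1
    have h4 : qExpFFW Γ 1 hT c =
        (qExpFFW Γ 1 hT (jPoly Γ q))⁻¹ * (qExpFFW Γ 1 hT (jPoly Γ q) * qExpFFW Γ 1 hT c) := by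
      rw [← mul_assoc, inv_mul_cancel₀ h3, one_mul]
    rw [h4]
    exact mul_mem (inv_mem h2) h1
  exact ⟨hyK, (hM.toFunField_eq_iff e _ _).mpr hy.symm⟩

end Generic

/-! ### `X₀(M) ⊆ X₁(M)` -/

section X0

variable {M : ℕ} [NeZero M]

theorem pmGamma1_le_Gamma0 (M : ℕ) : pmGamma1 M ≤ Gamma0 M := by
  intro γ hγ
  rw [mem_pmGamma1_iff_dvd] at hγ
  rw [Gamma0_mem]
  exact (ZMod.intCast_zmod_eq_zero_iff_dvd _ _).mpr hγ.1

/-- `j(q^d) ∈ F₁(M)` for `d ∣ M` -/
theorem qExpand_jq_mem_F1 (hM : 1 < M) {d : ℕ} [NeZero d] (hd : d ∣ M) :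
    qExpand ℚ d jq ∈ F1 M := by
  rw [mem_F1_iff, ← FBar1_eq_genL]
  let c : WH0.FunField (pmGamma1 M) :=
    algebraMap _ _ (inclWH0 (pmGamma1_le_Gamma0 M) (jdWH0 M d hd))
  have hy : qExpFFW (pmGamma1 M) 1 T_mem_pmGamma1 c =
      coeffMap (qbarEmb : Qb →+* ℂ) (coeffEmb Qb (qExpand ℚ d jq)) := by
    rw [BarField.coeffMap_coeffEmb, coeffMap_qExpand, qExpFFW_algebraMap]
    have h1 : laurentExp ((1 : ℕ) : ℝ)
        ((inclWH0 (pmGamma1_le_Gamma0 M) (jdWH0 M d hd) : WH0 (pmGamma1 M)) : ℍ → ℂ) =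
        laurentExp 1 (jScaledFun d) := by
      rw [Nat.cast_one]
      rfl
    rw [h1, laurentExp_jScaledFun, ← jqModC_rat, coeffMap_jqModC]
  exact (isAnModel_F1.exists_toFunField_eq qbarEmb (generates_F1 hM) (jq_mem_F1 M) c _ hy).1

/-- **`X₀(M) ⊆ X₁(M)`** on the rational models -/
theorem full_le_F1 (hM : 1 < M) : modularFunctionFieldFull M ≤ F1 M := by
  rw [modularFunctionFieldFull, IntermediateField.adjoin_le_iff]
  rintro x ⟨d, hne, hdvd, rfl⟩
  haveI := hne
  exact qExpand_jq_mem_F1 hM hdvd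

theorem fullBar_le_FBar1 (hM : 1 < M) :
    (laurentBaseChange Qb (modularFunctionFieldFull M) :
      IntermediateField Qb (LaurentSeries Qb)) ≤ laurentBaseChange Qb (F1 M) :=
  laurentBaseChange_mono Qb (full_le_F1 hM)

end X0

end Fermat.Agent.S48lib.X1.HeckeJ
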