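/-
S48lib / X1 / HeckeJ / DiamondKum (helper6).
**Kummer transfer for the diamond operators.**  `δ ∈ SL(2,ℤ)` normalising `Γ`:
* `conjHom δ hn : Γ →* Γ`, `γ ↦ δ γ δ⁻¹`;
* `isKum_diaFF` : if `k` has Kummer character `χ` then `k ∘ δ` has Kummer character
  `χ ∘ conj_δ`; additive form `isKum_diaFF_expChar`;
* `isKum_diaHom`, `isKum_diaF1` : the same through the comparison map `Φ` of a `q`-model, and for
  `F₁(M)`, `δ ∈ Γ₀(M)`.
-/
import Mathlib
import Fermat.Agent.S48lib.X1.HeckeJ.DiamondF1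

set_option autoImplicit false
set_option linter.unusedSectionVars false
set_option linter.style.haveILetI false

noncomputable section

namespace Fermat.Agent.S48lib.X1.HeckeJ

open UpperHalfPlane Matrix.SpecialLinearGroup Fermat.Agent.ProgramR CongruenceSubgroup ModularForm
open ModularCurve IntermediateField Fermat.Agent.ProgramR.BarField
open Fermat.Agent.S29lib.H Fermat.Agent.S29lib.K1 Fermat.Agent.S29lib
open Fermat.Agent.S48lib.X1 Fermat.Agent.S48lib.X1.Wp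
open scoped MatrixGroups

local notation "Qb" => AlgebraicClosure ℚ

section An

variable {Γ : Subgroup SL(2, ℤ)} (δ : SL(2, ℤ)) (hn : ∀ γ ∈ Γ, δ * γ * δ⁻¹ ∈ Γ)

/-- conjugation by `δ` on `Γ`, for `δ` normalising `Γ` -/
def conjHom : Γ →* Γ where
  toFun γ := ⟨δ * γ * δ⁻¹, hn γ γ.2⟩
  map_one' := by
    apply Subtype.ext
    simp
  map_mul' a b := by
    apply Subtype.ext
    show δ * ((a : SL(2, ℤ)) * b) * δ⁻¹ = δ * a * δ⁻¹ * (δ * b * δ⁻¹)
    group

@[simp] theorem coe_conjHom (γ : Γ) :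
    ((conjHom δ hn γ : Γ) : SL(2, ℤ)) = δ * γ * δ⁻¹ := rfl

/-- **Kummer transfer for `k ↦ k ∘ δ`** -/
theorem isKum_diaFF {n : ℕ} {k : WH0.FunField Γ} {χ : Γ →* ℂˣ} (hK : IsKum Γ n k χ) :
    IsKum Γ n (diaFF δ hn k) (χ.comp (conjHom δ hn)) := by
  obtain ⟨G, b, y, hb, hG, hGf, hy, hT⟩ := hK
  refine ⟨diaWH0 δ hn G, diaWH0 δ hn b, Hol.slComp δ y, ?_, ?_, ?_, ?_, ?_⟩
  · exact fun h => hb (diaWH0_injective δ hn (h.trans (map_zero _).symm))
  · exact fun h => hG (diaWH0_injective δ hn (h.trans (map_zero _).symm))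
  · rw [← diaFF_algebraMap, ← diaFF_algebraMap, hGf, map_mul, map_pow]
  · rw [← map_pow, hy]
    rfl
  · apply Transforms.of_apply
    intro γ z
    rw [Hol.slComp_apply, Hol.slComp_apply]
    have h1 : δ • ((γ : SL(2, ℤ)) • z) = ((conjHom δ hn γ : Γ) : SL(2, ℤ)) • (δ • z) := by
      rw [coe_conjHom, ← mul_smul, ← mul_smul]
      congr 1
      group
    rw [h1, hT.apply (conjHom δ hn γ) (δ • z)]
    rfl

/-- **Kummer transfer for `k ↦ k ∘ δ`**, additive form -/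
theorem isKum_diaFF_expChar (n : ℕ) [NeZero n] {k : WH0.FunField Γ} (ψ : Additive Γ →+ ZMod n)
    (hK : IsKum Γ n k (K3.expChar n ψ)) :
    IsKum Γ n (diaFF δ hn k)
      (K3.expChar n (ψ.comp (MonoidHom.toAdditive (conjHom δ hn)))) := by
  have h := isKum_diaFF δ hn hK
  have e : (K3.expChar n ψ).comp (conjHom δ hn) =
      K3.expChar n (ψ.comp (MonoidHom.toAdditive (conjHom δ hn))) := by
    ext γ
    rfl
  rwa [e] at h

end An

section Formal

variable {Γ : Subgroup SL(2, ℤ)} {hT : ModularGroup.T ^ ((1 : ℕ) : ℤ) ∈ Γ}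
variable {F₀ : IntermediateField ℚ (LaurentSeries ℚ)} (hM : IsAnModel Γ hT F₀)
variable {L : Type*} [Field L] [Algebra ℚ L] (e : L →+* ℂ)
variable (δ : SL(2, ℤ)) (hn : ∀ γ ∈ Γ, δ * γ * δ⁻¹ ∈ Γ) (hst : DiaStable hM e δ hn)

/-- **Kummer transfer for the formal diamond** -/
theorem isKum_diaHom {n : ℕ} (f : ↥(laurentBaseChange L F₀)) {χ : Γ →* ℂˣ}
    (hK : IsKum Γ n (hM.toFunField e f) χ) :
    IsKum Γ n (hM.toFunField e (diaHom hM e δ hn hst f)) (χ.comp (conjHom δ hn)) := by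
  rw [toFunField_diaHom]
  exact isKum_diaFF δ hn hK

theorem isKum_diaHom_expChar (n : ℕ) [NeZero n] (f : ↥(laurentBaseChange L F₀))
    (ψ : Additive Γ →+ ZMod n) (hK : IsKum Γ n (hM.toFunField e f) (K3.expChar n ψ)) :
    IsKum Γ n (hM.toFunField e (diaHom hM e δ hn hst f))
      (K3.expChar n (ψ.comp (MonoidHom.toAdditive (conjHom δ hn)))) := by
  rw [toFunField_diaHom]
  exact isKum_diaFF_expChar δ hn n ψ hK

end Formal

section F1

variable {M : ℕ} [NeZero M]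

/-- **Kummer transfer for the diamond `⟨δ⟩` on `F₁(M)`**, `δ ∈ Γ₀(M)` -/
theorem isKum_diaF1 (δ : SL(2, ℤ)) (hδ : (M : ℤ) ∣ δ 1 0) {n : ℕ}
    (f : ↥(laurentBaseChange Qb (F1 M))) {χ : pmGamma1 M →* ℂˣ}
    (hK : IsKum (pmGamma1 M) n ((isAnModel_F1 (M := M)).toFunField qbarEmb f) χ) :
    IsKum (pmGamma1 M) n ((isAnModel_F1 (M := M)).toFunField qbarEmb (diaF1 δ hδ f))
      (χ.comp (conjHom δ (normalises_pmGamma1 hδ))) :=
  isKum_diaHom isAnModel_F1 (qbarEmb : Qb →+* ℂ) δ (normalises_pmGamma1 hδ) (diaStable_F1 hδ) f hK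

theorem isKum_diaF1_expChar (δ : SL(2, ℤ)) (hδ : (M : ℤ) ∣ δ 1 0) (n : ℕ) [NeZero n]
    (f : ↥(laurentBaseChange Qb (F1 M))) (ψ : Additive (pmGamma1 M) →+ ZMod n)
    (hK : IsKum (pmGamma1 M) n ((isAnModel_F1 (M := M)).toFunField qbarEmb f)
      (K3.expChar n ψ)) :
    IsKum (pmGamma1 M) n ((isAnModel_F1 (M := M)).toFunField qbarEmb (diaF1 δ hδ f))
      (K3.expChar n (ψ.comp (MonoidHom.toAdditive (conjHom δ (normalises_pmGamma1 hδ))))) :=
  isKum_diaHom_expChar isAnModel_F1 (qbarEmb : Qb →+* ℂ) δ (normalises_pmGamma1 hδ)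
    (diaStable_F1 hδ) n f ψ hK

end F1

end Fermat.Agent.S48lib.X1.HeckeJ
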