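/-
S48lib / X1 / HeckeJ / DiamondPic (helper6).
**The diamond operators on `Pic⁰(FBar₁(M))`.**
* `kummerRel_smul` : Kummer representatives are transported by semilinear automorphisms;
* `diaJ δ hδ : SemilinearAut ℚ̄ (FBar₁ M)` (the diamond `⟨δ⟩` as a semilinear automorphism with
  trivial base part; it acts on places, divisors, `Pic⁰`), `diaJ_smul`;
* `diaJ_mul_galois`, `diaJ_smul_galois` : it commutes with `G_ℚ` (on functions and on `Pic⁰`);
* `kummerRel_diaJ` : if `f` is a Kummer representative of `x` then `⟨δ⟩ f` is one of `⟨δ⟩ x`.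
-/
import Mathlib
import Fermat.Agent.S48lib.X1.HeckeJ.DiamondKum
import Fermat.Agent.S29lib.D.KummerRel

set_option autoImplicit false
set_option linter.unusedSectionVars false
set_option linter.style.haveILetI false

noncomputable section

namespace Fermat.Agent.S48lib.X1.HeckeJ

open UpperHalfPlane Matrix.SpecialLinearGroup Fermat.Agent.ProgramR CongruenceSubgroup ModularForm
open ModularCurve IntermediateField AlgebraicCurve Fermat.Agent.ProgramR.BarField
open Fermat.Agent.S48lib.X1 Fermat.Agent.S48lib.X1.Wp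
open scoped MatrixGroups

local notation "Qb" => AlgebraicClosure ℚ

section Generic

variable {K F : Type*} [Field K] [Field F] [Algebra K F]

/-- Kummer representatives are transported by semilinear automorphisms -/
theorem kummerRel_smul (g : SemilinearAut K F) {n : ℕ} {x : Pic0 K F} {f : F}
    (h : Fermat.Agent.S29lib.D.KummerRel n x f) :
    Fermat.Agent.S29lib.D.KummerRel n (g • x) (g • f) := by
  obtain ⟨hf, E, rfl, hE⟩ := h
  refine ⟨?_, SemilinearAut.degZeroSMulHom g E, (SemilinearAut.pic0_smul_mk g E).symm, fun P => ?_⟩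
  · rw [SemilinearAut.smul_def]
    exact (map_ne_zero _).2 hf
  · rw [SemilinearAut.coe_degZeroSMulHom, SemilinearAut.divisor_smul_apply, hE (g⁻¹ • P)]
    have h1 := SemilinearAut.ord_smul g (g⁻¹ • P) f
    rw [smul_inv_smul] at h1
    exact h1.symm

end Generic

variable {M : ℕ} [NeZero M]

/-- the diamond `⟨δ⟩`, `δ ∈ Γ₀(M)`, as a semilinear automorphism of `FBar₁(M)` (acting on
places, divisors and `Pic⁰`) -/
def diaJ (δ : SL(2, ℤ)) (hδ : (M : ℤ) ∣ δ 1 0) :
    SemilinearAut Qb ↥(laurentBaseChange Qb (F1 M)) :=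
  SemilinearAut.ofAlgAut (diaF1 δ hδ)

theorem diaJ_smul (δ : SL(2, ℤ)) (hδ : (M : ℤ) ∣ δ 1 0) (f : ↥(laurentBaseChange Qb (F1 M))) :
    diaJ δ hδ • f = diaF1 δ hδ f := rfl

/-- the diamond commutes with `G_ℚ` in the group of semilinear automorphisms -/
theorem diaJ_mul_galois (δ : SL(2, ℤ)) (hδ : (M : ℤ) ∣ δ 1 0) (σ : Qb ≃ₐ[ℚ] Qb) :
    diaJ δ hδ * arithmeticGalois (F1 M) σ = arithmeticGalois (F1 M) σ * diaJ δ hδ := by
  apply Subtype.ext
  refine Prod.ext (RingEquiv.ext fun x => ?_) ?_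
  · show diaF1 δ hδ (arithmeticRingAut (F1 M) σ x) = arithmeticRingAut (F1 M) σ (diaF1 δ hδ x)
    exact diaF1_arithmeticRingAut δ hδ σ x
  · show (1 : RingAut Qb) * σ.toRingEquiv = σ.toRingEquiv * 1
    rw [one_mul, mul_one]

/-- the diamond commutes with `G_ℚ` on `Pic⁰` -/
theorem diaJ_smul_galois (δ : SL(2, ℤ)) (hδ : (M : ℤ) ∣ δ 1 0) (σ : Qb ≃ₐ[ℚ] Qb)
    (x : Pic0 Qb ↥(laurentBaseChange Qb (F1 M))) :
    diaJ δ hδ • (σ • x) = σ • (diaJ δ hδ • x) := by
  rw [galois_smul_pic0_def, galois_smul_pic0_def, ← mul_smul, ← mul_smul, diaJ_mul_galois]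

/-- Kummer representatives under the diamond -/
theorem kummerRel_diaJ (δ : SL(2, ℤ)) (hδ : (M : ℤ) ∣ δ 1 0) {n : ℕ}
    {x : Pic0 Qb ↥(laurentBaseChange Qb (F1 M))} {f : ↥(laurentBaseChange Qb (F1 M))}
    (h : Fermat.Agent.S29lib.D.KummerRel n x f) :
    Fermat.Agent.S29lib.D.KummerRel n (diaJ δ hδ • x) (diaF1 δ hδ f) :=
  kummerRel_smul (diaJ δ hδ) h

end Fermat.Agent.S48lib.X1.HeckeJ
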