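/-
S48lib / X1 / HeckeJ / DiaInt  (helper6, block P7 — the `IsIntStable` half of lead's `HasFrame`).

**All translates of the generators `τ_(0,b)` of `FBar₁(M)` under the diamond automorphism are
`A`-integral `q`-expansions** (`A` a place of `ℚ̄` over `p ∤ M`):

* `diaF1_inv`       : `(diaF1 δ)⁻¹ = diaF1 δ⁻¹`;
* `diaF1_zpow_tauB` : `(diaF1 δ ^ m) τ_(0,b) = τ_(0, b c)` for some `c = c(m)` independent of `b`;
* `isInt_tauB`, `isInt_jBq` : the generators are `A`-integral;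
* **`isIntStable_tauB`**, `isIntStable_jBq`, `isIntStable_pow`, **`isIntStable_tauB_pow`** :
  `ES.QRed.IsIntStable (diaF1 δ hδ) (τ_(0,b) ^ i)`.
-/
import Mathlib
import Fermat.Agent.S48lib.X1.ES.Dia
import Fermat.Agent.S48lib.X1.Gal.DiaCancel
import Fermat.Agent.S48lib.X1.Field.Res

set_option autoImplicit false
set_option linter.unusedSectionVars false
set_option linter.style.haveILetI false

noncomputable section

namespace Fermat.Agent.S48lib.X1.HeckeJ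

open AlgebraicCurve ModularCurve Fermat.Agent.S18lib
open Fermat.Agent.S48lib.X1.ES Fermat.Agent.S48lib.X1.Gal
open scoped MatrixGroups

/-- `ℚ̄` -/
local notation "Qb" => AlgebraicClosure ℚ

variable {M : ℕ} [NeZero M]

/-! ### powers of the diamond on generators -/

/-- the inverse of the diamond of `δ` is the diamond of `δ⁻¹` -/
theorem diaF1_inv (δ : SL(2, ℤ)) (hδ : (M : ℤ) ∣ δ 1 0) :
    (diaF1 δ hδ)⁻¹ = diaF1 δ⁻¹ (dvd_inv_one_zero hδ) := by
  rw [inv_eq_iff_mul_eq_one]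
  apply AlgEquiv.ext
  intro x
  rw [AlgEquiv.mul_apply, AlgEquiv.one_apply]
  refine diaF1_cancel_of_mul_mem (dvd_inv_one_zero hδ) hδ ?_ x
  rw [inv_mul_cancel]
  exact one_mem _

/-- **the powers of the diamond on the generators**: `(⟨δ⟩^m) τ_(0,b) = τ_(0,b·c)`, with `c = c(m)`
independent of `b`. -/
theorem diaF1_zpow_tauB (δ : SL(2, ℤ)) (hδ : (M : ℤ) ∣ δ 1 0) (m : ℤ) :
    ∃ c : ℤ, ∀ {b : ℤ} (hb : ¬ (M : ℤ) ∣ b), ∃ hb' : ¬ (M : ℤ) ∣ b * c,
      (diaF1 δ hδ ^ m) (tauB hb) = tauB hb' := by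
  induction m using Int.induction_on with
  | zero =>
    refine ⟨1, fun {b} hb => ⟨by rwa [mul_one], ?_⟩⟩
    rw [zpow_zero, AlgEquiv.one_apply]
    exact tauB_eq_of_eq (mul_one b).symm _ _
  | succ n ih =>
    obtain ⟨c, hc⟩ := ih
    refine ⟨δ 1 1 * c, fun {b} hb => ?_⟩
    obtain ⟨hb', h⟩ := hc (not_dvd_mul_right hδ hb)
    refine ⟨by rwa [← mul_assoc], ?_⟩
    rw [zpow_add_one, AlgEquiv.mul_apply, diaF1_tauB, h]
    exact tauB_eq_of_eq (mul_assoc _ _ _) _ _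
  | pred n ih =>
    obtain ⟨c, hc⟩ := ih
    refine ⟨(δ⁻¹ : SL(2, ℤ)) 1 1 * c, fun {b} hb => ?_⟩
    obtain ⟨hb', h⟩ := hc (not_dvd_mul_right (dvd_inv_one_zero hδ) hb)
    refine ⟨by rwa [← mul_assoc], ?_⟩
    rw [zpow_sub_one, AlgEquiv.mul_apply, diaF1_inv, diaF1_tauB, h]
    exact tauB_eq_of_eq (mul_assoc _ _ _) _ _

/-! ### integrality -/

section Int

variable {A : ValuationSubring Qb} {p : ℕ} [Fact p.Prime]

/-- `τ_(0,b)` is an `A`-integral `q`-expansion (`p ∤ M`). -/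
theorem isInt_tauB (hA : A.LiesOverPrime p) (hpM : ¬ p ∣ M) {b : ℤ} (hb : ¬ (M : ℤ) ∣ b) :
    QRed.IsInt (A := A) (tauB hb) := by
  have h : V.toL A (tauqA hA hpM b) = tauqL Qb M (zbar M) b := toL_tauqA hA hpM b
  refine ⟨tauqA hA hpM b, ?_, ?_⟩
  · rw [h]
    exact tauqL_mem_FBar1 M hb
  · apply Subtype.ext
    rw [QRed.coe_elemL, h, coe_tauB]

/-- `j` is an `A`-integral `q`-expansion. -/
theorem isInt_jBq : QRed.IsInt (A := A) (jBq (F1 M) (jq_mem_F1 M)) := by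
  have h : V.toL A (jqModC A) = jqModC Qb := QRed.toL_jqModC
  refine ⟨jqModC A, ?_, ?_⟩
  · rw [h]
    exact jqModC_mem (F1 M) (jq_mem_F1 M)
  · apply Subtype.ext
    rw [QRed.coe_elemL, h, coe_jBq]

variable (δ : SL(2, ℤ)) (hδ : (M : ℤ) ∣ δ 1 0)

/-- **all diamond translates of `τ_(0,b)` are `A`-integral.** -/
theorem isIntStable_tauB (hA : A.LiesOverPrime p) (hpM : ¬ p ∣ M) {b : ℤ}
    (hb : ¬ (M : ℤ) ∣ b) : QRed.IsIntStable (A := A) (diaF1 δ hδ) (tauB hb) := fun m => by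
  obtain ⟨c, hc⟩ := diaF1_zpow_tauB δ hδ m
  obtain ⟨hb', h⟩ := hc hb
  rw [h]
  exact isInt_tauB hA hpM hb'

theorem isIntStable_jBq :
    QRed.IsIntStable (A := A) (diaF1 δ hδ) (jBq (F1 M) (jq_mem_F1 M)) :=
  QRed.isIntStable_of_fixed (diaF1_jBq δ hδ) isInt_jBq

theorem isIntStable_one {F₀ : IntermediateField ℚ (LaurentSeries ℚ)}
    (dia : ↥(laurentBaseChange Qb F₀) ≃ₐ[Qb] ↥(laurentBaseChange Qb F₀)) :
    QRed.IsIntStable (A := A) dia (1 : ↥(laurentBaseChange Qb F₀)) :=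
  QRed.isIntStable_of_fixed (map_one _) QRed.isInt_one

theorem isIntStable_pow {F₀ : IntermediateField ℚ (LaurentSeries ℚ)}
    {dia : ↥(laurentBaseChange Qb F₀) ≃ₐ[Qb] ↥(laurentBaseChange Qb F₀)}
    {f : ↥(laurentBaseChange Qb F₀)} (hf : QRed.IsIntStable (A := A) dia f) (i : ℕ) :
    QRed.IsIntStable (A := A) dia (f ^ i) := by
  induction i with
  | zero => rw [pow_zero]; exact isIntStable_one dia
  | succ i ih => rw [pow_succ]; exact ih.mul hf

/-- **all diamond translates of the powers `τ_(0,b)^i` are `A`-integral.** -/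
theorem isIntStable_tauB_pow (hA : A.LiesOverPrime p) (hpM : ¬ p ∣ M) {b : ℤ}
    (hb : ¬ (M : ℤ) ∣ b) (i : ℕ) :
    QRed.IsIntStable (A := A) (diaF1 δ hδ) (tauB hb ^ i) :=
  isIntStable_pow (isIntStable_tauB δ hδ hA hpM hb) i

end Int

end Fermat.Agent.S48lib.X1.HeckeJ
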