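/-
S48lib / X1 / HeckeJ / AnNormGen (helper6).
Layer B of block P4: **the analytic norm formula for arbitrary analytic `q`-models.**
Given a transversal `𝒯 : Transversal Γ Γ' ι` (`A x γ = c γ x A (σ γ x)`), ring maps
`ψ₀ : WH0 Γ → WH0 Γ'`, `ψan` on fraction fields with `(ψ₀ a) ∘ A x = a`, and a compatible
`ψ : L F₀ →ₐ[L] L F₀'` between formal models (`F₀` generating): the formal extension along `ψ` is
finite of degree `≤ #ι`, and `toMer (Φ (Norm_ψ y)) = ∏ x, (Φ' y) ∘ A x` if the embeddings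
`y ↦ (Φ' y) ∘ A x` are pairwise distinct.
Generic version of the `Formal` section of `S29lib/H/AnNorm` (helper1).
-/
import Mathlib
import Fermat.Agent.S48lib.X1.HeckeJ.LinDisjGen
import Fermat.Agent.S29lib.H.AnNorm

set_option autoImplicit false
set_option linter.style.haveILetI false
set_option linter.unusedSectionVars false

noncomputable section

namespace Fermat.Agent.S48lib.X1.HeckeJ

open UpperHalfPlane Polynomial Matrix.SpecialLinearGroup Fermat.Agent.ProgramR Module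
  CongruenceSubgroup ModularCurve
open Fermat.Agent.S29lib.H
open scoped MatrixGroups

section Formal

variable {Γ Γ' : Subgroup SL(2, ℤ)} {ι : Type*} [Fintype ι] (𝒯' : Transversal Γ Γ' ι) (i₀ : ι)
variable {hT : ModularGroup.T ^ ((1 : ℕ) : ℤ) ∈ Γ} {hT' : ModularGroup.T ^ ((1 : ℕ) : ℤ) ∈ Γ'}
variable {F₀ F₀' : IntermediateField ℚ (LaurentSeries ℚ)} {hM : IsAnModel Γ hT F₀}
  (hM' : IsAnModel Γ' hT' F₀')
variable {L : Type*} [Field L] [Algebra ℚ L] {e : L →+* ℂ}
  (hgen : Generates hM e) (hj : jq ∈ F₀)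
  (ψ : ↥(laurentBaseChange L F₀) →ₐ[L] ↥(laurentBaseChange L F₀'))
  (ψ₀ : WH0 Γ →+* WH0 Γ') (ψan : WH0.FunField Γ →+* WH0.FunField Γ')
  (hψ₀ : ∀ a, ψan (algebraMap _ _ a) = algebraMap _ _ (ψ₀ a))
  (hF1 : ∀ x (a : WH0 Γ),
    Hol.comp (𝒯'.A x) (𝒯'.isInt x).det_pos (WH0.toHol Γ' (ψ₀ a)) = WH0.toHol Γ a)
  (hψ : ∀ x, ψan (hM.toFunField e x) = hM'.toFunField e (ψ x))
  (hψC : ∀ c : ℂ, ψan (algebraMap ℂ _ c) = algebraMap ℂ _ c)

include i₀ hgen hj hψ₀ hF1 hψ hψC in
/-- the formal extension along `ψ` is finite of degree at most `#ι` -/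
theorem finite_and_finrank_le_formalG :
    @Module.Finite ↥(laurentBaseChange L F₀) ↥(laurentBaseChange L F₀') _ _
        ψ.toRingHom.toAlgebra.toModule ∧
      @finrank ↥(laurentBaseChange L F₀) ↥(laurentBaseChange L F₀') _ _
        ψ.toRingHom.toAlgebra.toModule ≤ Fintype.card ι := by
  obtain ⟨h1, h2⟩ := 𝒯'.finite_and_finrank_le i₀ ψ₀ ψan hψ₀ hF1
  obtain ⟨h3, h4⟩ := finrank_le_finrankG hM' hgen hj ψ ψan hψ hψC h1
  exact ⟨h3, h4.trans h2⟩

include i₀ hgen hj hψ₀ hF1 hψ hψC in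
/-- **The analytic norm formula**: `Norm_ψ y`, viewed in `Mer`, is the product of the
conjugates `y ∘ A x`. -/
theorem toMer_norm_eq_prodG
    (hinj : Function.Injective (fun x => (𝒯'.emb x).comp (hM'.toFunField e)))
    (y : ↥(laurentBaseChange L F₀')) :
    toMer Γ (hM.toFunField e
      (@Algebra.norm ↥(laurentBaseChange L F₀) ↥(laurentBaseChange L F₀') _ _
        ψ.toRingHom.toAlgebra y))
      = ∏ x, 𝒯'.emb x (hM'.toFunField e y) := by
  obtain ⟨hfin, hle⟩ :=
    finite_and_finrank_le_formalG 𝒯' i₀ hM' hgen hj ψ ψ₀ ψan hψ₀ hF1 hψ hψC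
  letI a1 : Algebra ↥(laurentBaseChange L F₀) ↥(laurentBaseChange L F₀') := ψ.toRingHom.toAlgebra
  letI a2 : Algebra ↥(laurentBaseChange L F₀) Mer :=
    ((toMer Γ).comp (hM.toFunField e)).toAlgebra
  haveI : FiniteDimensional ↥(laurentBaseChange L F₀) ↥(laurentBaseChange L F₀') := hfin
  haveI : CharZero L := algebraRat.charZero L
  haveI : CharZero ↥(laurentBaseChange L F₀) :=
    charZero_of_injective_algebraMap (algebraMap L ↥(laurentBaseChange L F₀)).injective
  haveI : Algebra.IsSeparable ↥(laurentBaseChange L F₀) ↥(laurentBaseChange L F₀') :=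
    inferInstance
  let η : ι → (↥(laurentBaseChange L F₀') →ₐ[↥(laurentBaseChange L F₀)] Mer) := fun x =>
    { (𝒯'.emb x).comp (hM'.toFunField e) with
      commutes' := fun k => by
        show 𝒯'.emb x (hM'.toFunField e (ψ k)) = toMer Γ (hM.toFunField e k)
        rw [← hψ, 𝒯'.emb_ψan ψ₀ ψan hψ₀ hF1] }
  have hη : Function.Injective η := by
    intro x x' h
    apply hinj
    ext z
    exact DFunLike.congr_fun h z
  exact norm_eq_prod_of_finrank_le η hη hle y

end Formal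

end Fermat.Agent.S48lib.X1.HeckeJ
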