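/-
S48lib / X1 / HeckeJ / DiaT  (helper6, block P7 — diamond-stability of the inert frame).

The frame of the Gauss datum of `FBar₁(M)` produced by the inert extension `FBar₁(M) / ℚ̄(j)`
(`S18lib.InertInput.frameFam`) consists of the elements `c · τ_(0,1)^i`, `c ∈ ℚ̄(j)` integral.
**All their translates under every diamond automorphism are `A`-integral `q`-expansions**:

* `tauBar_eq_tauB`        : helper3's `tauBar hM` is `tauB` at `b = 1`;
* `diaF1_of_mem_adjoin_j` / `diaF1_inclF1` : the diamond fixes `ℚ̄(j) = inclF1 (FBar 1)`;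
* `isIntStable_inclF1`, **`isIntStable_inclF1_mul_tauBar_pow`**;
* **`isIntStable_frameFam`** : for any `I : InertInput G (FB1 M) Fk'` with `I.t = tauBar hM`, and
  any family `θ₁` in `FBar 1` with `A`-integral images, every member of `I.frameFam θ₁` is
  `IsIntStable` for every `diaF1 δ hδ` (the hypothesis `hst` of helper7's `ES.P5Stmt`).
-/
import Mathlib
import Fermat.Agent.S48lib.X1.HeckeJ.DiaInt
import Fermat.Agent.S48lib.X1.Igusa.Inert
import Fermat.Agent.S18lib.Weak.InertFrame

set_option autoImplicit false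
set_option linter.unusedSectionVars false
set_option linter.style.haveILetI false

noncomputable section

namespace Fermat.Agent.S48lib.X1.HeckeJ

open AlgebraicCurve ModularCurve IntermediateField Fermat.Agent.S18lib
open Fermat.Agent.S48lib.X1.ES Fermat.Agent.S48lib.X1.Igusa
open Fermat.Agent.S48lib.X1 (F1 jq_mem_F1 tauBar coe_tauBar jB)
open scoped MatrixGroups

/-- `ℚ̄` -/
local notation "Qb" => AlgebraicClosure ℚ

variable {M : ℕ} [NeZero M]

attribute [local instance] algebraF1

/-- helper3's generator `τ_(0,1)` is `tauB` at `b = 1` -/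
theorem tauBar_eq_tauB (hM : 1 < M) : tauBar hM = tauB (M := M) (not_dvd_one hM) :=
  Subtype.ext rfl

/-- `jB` (helper3) and `jBq` agree -/
theorem jB_eq_jBq : jB Qb (jq_mem_F1 M) = jBq (F1 M) (jq_mem_F1 M) := Subtype.ext rfl

/-! ### the diamond fixes `ℚ̄(j)` -/

variable (δ : SL(2, ℤ)) (hδ : (M : ℤ) ∣ δ 1 0)

theorem diaF1_of_mem_adjoin_j {y : ↥(laurentBaseChange Qb (F1 M))}
    (hy : y ∈ Qb⟮jBq (F1 M) (jq_mem_F1 M)⟯) : diaF1 δ hδ y = y := by
  have hle : Qb⟮jBq (F1 M) (jq_mem_F1 M)⟯ ≤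
      IntermediateField.fixedField (Subgroup.zpowers (diaF1 δ hδ)) := by
    rw [IntermediateField.adjoin_le_iff]
    rintro x rfl
    rw [SetLike.mem_coe, IntermediateField.mem_fixedField_iff]
    intro g hg
    obtain ⟨m, rfl⟩ := Subgroup.mem_zpowers_iff.mp hg
    exact QRed.zpow_fixed (diaF1_jBq δ hδ) m
  exact (IntermediateField.mem_fixedField_iff _ _).mp (hle hy) _ (Subgroup.mem_zpowers _)

theorem diaF1_inclF1 (c : FBar 1) : diaF1 δ hδ (inclF1 M c) = inclF1 M c := by
  apply diaF1_of_mem_adjoin_j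
  rw [← jB_eq_jBq]
  exact inclF1_mem_adjoin M c

/-! ### integrality of the translates of the inert frame -/

section Int

variable {A : ValuationSubring Qb} {p : ℕ} [Fact p.Prime]

theorem isIntStable_inclF1 {c : FBar 1} (hc : QRed.IsInt (A := A) (inclF1 M c)) :
    QRed.IsIntStable (A := A) (diaF1 δ hδ) (inclF1 M c) :=
  QRed.isIntStable_of_fixed (diaF1_inclF1 δ hδ c) hc

theorem isIntStable_tauBar_pow (hA : A.LiesOverPrime p) (hpM : ¬ p ∣ M) (hM : 1 < M) (i : ℕ) :
    QRed.IsIntStable (A := A) (diaF1 δ hδ) (tauBar hM ^ i) := by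
  rw [tauBar_eq_tauB]
  exact isIntStable_tauB_pow δ hδ hA hpM _ i

/-- **the members `c · τ_(0,1)^i` of the inert frame have `A`-integral diamond translates.** -/
theorem isIntStable_inclF1_mul_tauBar_pow (hA : A.LiesOverPrime p) (hpM : ¬ p ∣ M) (hM : 1 < M)
    {c : FBar 1} (hc : QRed.IsInt (A := A) (inclF1 M c)) (i : ℕ) :
    QRed.IsIntStable (A := A) (diaF1 δ hδ) (inclF1 M c * tauBar hM ^ i) :=
  (isIntStable_inclF1 δ hδ hc).mul (isIntStable_tauBar_pow δ hδ hA hpM hM i)

/-- the `intSubring` form of integrality (helper2's `Equiv.intSubring`-style: an `A`-integral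
series with the given expansion) -/
theorem isInt_of_exists_toL {x : ↥(laurentBaseChange Qb (F1 M))}
    (hx : ∃ s : LaurentSeries A, V.toL A s = (x : LaurentSeries Qb)) : QRed.IsInt (A := A) x := by
  obtain ⟨s, hs⟩ := hx
  exact ⟨s, by rw [hs]; exact x.2, Subtype.ext hs.symm⟩

/-- **the inert frame is diamond-stably integral**: for an inert input over `ℚ̄(j)` with generator
`τ_(0,1)` and a level-one family `θ₁` with `A`-integral expansions, every member of the transported
family `θ₁ i · τ^j` is `IsIntStable` for every diamond. -/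
theorem isIntStable_frameFam (hA : A.LiesOverPrime p) (hpM : ¬ p ∣ M) (hM : 1 < M)
    {Fk : Type*} [Field Fk] [Algebra (IsLocalRing.ResidueField A) Fk]
    {G : GaussDatum A (FBar 1) Fk} {Fk' : Type*} [Field Fk'] [Algebra Fk Fk']
    (I : InertInput G (FB1 M) Fk') (hI : I.t = tauBar hM) {n : ℕ} (θ₁ : Fin n → FBar 1)
    (hθ₁ : ∀ i, QRed.IsInt (A := A) (inclF1 M (θ₁ i))) (m : Fin (n * I.d)) :
    QRed.IsIntStable (A := A) (diaF1 δ hδ) (I.frameFam θ₁ m) := by
  have h : I.frameFam θ₁ m =
      inclF1 M (θ₁ (finProdFinEquiv.symm m).1) * tauBar hM ^ ((finProdFinEquiv.symm m).2 : ℕ) := by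
    rw [InertInput.frameFam, hI]
    rfl
  rw [h]
  exact isIntStable_inclF1_mul_tauBar_pow δ hδ hA hpM hM (hθ₁ _) _

end Int

end Fermat.Agent.S48lib.X1.HeckeJ
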