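/-
S48lib / X1 / HeckeJ / TowerInst (helper6).
**The algebra structure of the tower `FBar₁(M) ⊆ FBar₁(M')`, `M ∣ M'`**, in the form consumed by
the descent of reduction data (`S37lib.B3.exists_redDatum_of_descent`, `X1/Red/Chain`):
`Algebra`, `IsScalarTower ℚ̄`, finiteness, separability, `HasPrincipalDivisors`,
`FundamentalIdentity`, all as theorems about `algebraAlong (levelIncl h)`.
-/
import Mathlib
import Fermat.Agent.S48lib.X1.HeckeJ.Tower
import Fermat.Agent.S37lib.Tower.SumRam

set_option autoImplicit false
set_option linter.unusedSectionVars false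
set_option linter.style.haveILetI false

noncomputable section

namespace Fermat.Agent.S48lib.X1.HeckeJ

open ModularCurve AlgebraicCurve IntermediateField
open Fermat.Agent.ProgramR Fermat.Agent.ProgramR.BarField
open Fermat.Agent.S37lib.HeckeInst
open Fermat.Agent.S48lib.X1

local notation "Qb" => AlgebraicClosure ℚ

variable {M M' : ℕ} [NeZero M] [NeZero M']

/-- the algebra structure `FBar₁(M) → FBar₁(M')` of the tower -/
abbrev towerAlgebra (h : M ∣ M') : Algebra (FBq (F1 M)) (FBq (F1 M')) :=
  algebraAlong (levelIncl h)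

theorem towerAlgebra_algebraMap (h : M ∣ M') (x : FBq (F1 M)) :
    letI := towerAlgebra h
    algebraMap (FBq (F1 M)) (FBq (F1 M')) x = levelIncl h x := rfl

theorem tower_isScalarTower (h : M ∣ M') :
    letI := towerAlgebra h
    IsScalarTower Qb (FBq (F1 M)) (FBq (F1 M')) :=
  isScalarTower_along (levelIncl h)

theorem tower_finite (h : M ∣ M') :
    letI := towerAlgebra h
    Module.Finite (FBq (F1 M)) (FBq (F1 M')) :=
  haveI := (isQModel_F1 (M := M')).finite
  finite_along (levelIncl h) (jBq (F1 M) (isQModel_F1 (M := M)).jq_mem) _ (levelIncl_jBq h)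

theorem tower_isSeparable (h : M ∣ M') :
    letI := towerAlgebra h
    Algebra.IsSeparable (FBq (F1 M)) (FBq (F1 M')) :=
  isSeparable_along _ (tower_finite h)

theorem tower_isIntegral (h : M ∣ M') : (levelIncl h).toRingHom.IsIntegral :=
  isIntegral_toRingHom_of_finite _ (tower_finite h)

theorem hasPrincipalDivisors_FBar1 : HasPrincipalDivisors Qb (FBq (F1 M)) :=
  (isQModel_F1 (M := M)).hasPrincipalDivisors

theorem tower_fundamentalIdentity (h : M ∣ M') :
    letI := towerAlgebra h
    haveI : Module.Finite (FBq (F1 M)) (FBq (F1 M')) := tower_finite h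
    haveI := hasPrincipalDivisors_FBar1 (M := M')
    FundamentalIdentity Qb (FBq (F1 M)) (FBq (F1 M')) := by
  haveI := hasPrincipalDivisors_FBar1 (M := M')
  letI := towerAlgebra h
  haveI := tower_isScalarTower h
  haveI : FiniteDimensional (FBq (F1 M)) (FBq (F1 M')) := tower_finite h
  haveI : Algebra.IsSeparable (FBq (F1 M)) (FBq (F1 M')) := tower_isSeparable h
  exact Fermat.Agent.S37lib.Tower.fundamentalIdentity ((isQModel_F1 (M := M')).deg_eq_one)

end Fermat.Agent.S48lib.X1.HeckeJ
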